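/-
DS / GEO, chapter G-HECKE, brick H06 part 1 (helper11): **generic twin of `J/DESC/DescentFinal24`**
(and of the generic section of `J/DESC/DescentC24`, copied here so that the heavy `Γ₀(N)` file
`ES/KUM/FieldL25` is NOT imported).

For ANY rational function field `F₀ ⊆ ℚ((q))`, with `k = ℚ̄ = AlgebraicClosure ℚ`, `K = ℂ`
(via the Prelude's `complexEmbedding`), `F_ℚ̄ = ℚ̄ · F₀`, `F_ℂ = ℂ · F₀`, and generators
`hQ : IsGen ℚ̄ xQ`, `hC : IsGen ℂ xC` (e.g. the formal `j` on both sides; no relation between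
`xQ` and `xC` is needed):

* `bcQC F₀ : F_ℚ̄ →+* F_ℂ` (coefficientwise), `extPic0C : Pic⁰(F_ℚ̄) →+ Pic⁰(F_ℂ)`, injective;
* `torsionEquivC hQ hC n : Pic⁰(F_ℚ̄)[n] ≃+ Pic⁰(F_ℂ)[n]` given that the right side is finite;
* `finite_torsion_bar`: finiteness of `Pic⁰(F_ℚ̄)[n]` from finiteness over `ℂ`;
* transport of Kummer data: `n • D = div f` over `ℚ̄` ⇒ `n • extDivC D = div (bc f)` over `ℂ`.

Same names as the originals; the level `N` is replaced by `F₀` and the two generator hypotheses.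
-/
import Mathlib
import Fermat.Prelude.Def_GaloisRep_ComplexConjugation
import Fermat.Prelude.Def_ModularCurve_ArithmeticGalois
import Fermat.Agent.J.DESC.LaurentExt24
import Fermat.Agent.J.DESC.ExtPic22
import Fermat.Agent.ES.GAL.AutTranscendental10

set_option autoImplicit false
set_option linter.unusedSectionVars false
set_option linter.style.longLine false

namespace Fermat.Agent.DS.G.HECKE.DescG

open ModularCurve HahnSeries AlgebraicCurve Fermat.Agent.X0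
open Fermat.Agent.J.DESC.ConstExt24 Fermat.Agent.J.DESC.LaurentExt24
open Fermat.Agent.J.DESC.ExtPic22

noncomputable section

universe u v

/-! ### The concrete Galois action (copy of `DescentC24` §Generic) -/

section Generic

variable {k : Type u} {K : Type v} [Field k] [Field K] [Algebra ℚ k] [Algebra ℚ K] [Algebra k K]
  (F₀ : IntermediateField ℚ (LaurentSeries ℚ))

/-- Restriction of scalars `Aut(K/k) → Aut(K/ℚ)` as a monoid hom. -/
def restrictQ : (K ≃ₐ[k] K) →* (K ≃ₐ[ℚ] K) where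
  toFun σ := σ.restrictScalars ℚ
  map_one' := rfl
  map_mul' _ _ := rfl

@[simp] theorem restrictQ_apply (σ : K ≃ₐ[k] K) (c : K) : restrictQ σ c = σ c := rfl

/-- **The semilinear action of `Aut(K/k)` on `FK`.** -/
def rho : (K ≃ₐ[k] K) →* SemilinearAut K ↥(laurentBaseChange K F₀) :=
  (arithmeticGalois F₀).comp restrictQ

theorem rho_apply (σ : K ≃ₐ[k] K) : rho F₀ σ = arithmeticGalois F₀ (restrictQ σ) := rfl

theorem baseAut_rho (σ : K ≃ₐ[k] K) (c : K) : SemilinearAut.baseAut (rho F₀ σ) c = σ c := rfl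

theorem coe_rho_smul (σ : K ≃ₐ[k] K) (y : ↥(laurentBaseChange K F₀)) :
    ((rho F₀ σ • y : ↥(laurentBaseChange K F₀)) : LaurentSeries K) =
      coeffMap ((restrictQ σ : K ≃ₐ[ℚ] K) : K →+* K) (y : LaurentSeries K) := rfl

theorem coeff_rho_smul (σ : K ≃ₐ[k] K) (y : ↥(laurentBaseChange K F₀)) (n : ℤ) :
    ((rho F₀ σ • y : ↥(laurentBaseChange K F₀)) : LaurentSeries K).coeff n =
      σ ((y : LaurentSeries K).coeff n) := by
  rw [coe_rho_smul, coeffMap_coeff]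
  rfl

/-- `Aut(K/k)` fixes the base change pointwise. -/
theorem rho_smul_bc (σ : K ≃ₐ[k] K) (f : ↥(laurentBaseChange k F₀)) :
    rho F₀ σ • bc (K := K) F₀ f = bc (K := K) F₀ f := by
  apply Subtype.ext
  ext n
  rw [coeff_rho_smul, coe_bc, coeff_bcS, σ.commutes]

/-- **(INV)**: the functions of `FK` fixed by `Aut(K/k)` are the base changes from `Fk`. -/
theorem mem_range_bc_of_fixed [IsAlgClosed k] [IsAlgClosed K] (h : ↥(laurentBaseChange K F₀))
    (hfix : ∀ σ : K ≃ₐ[k] K, rho F₀ σ • h = h) : h ∈ Set.range (bc (k := k) (K := K) F₀) := by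
  rw [mem_range_bc_iff]
  intro n
  apply Fermat.Agent.ES.GAL.AutTranscendental10.mem_range_of_fixed
  intro σ
  have := congrArg (fun y : ↥(laurentBaseChange K F₀) => (y : LaurentSeries K).coeff n) (hfix σ)
  simpa only [coeff_rho_smul] using this

end Generic

/-! ### `ℚ̄ → ℂ` -/

attribute [local instance] instAlgebraQbarComplex instTowerQbarComplex

/-- `ℚ̄`. -/
abbrev Qb : Type := AlgebraicClosure ℚ

variable (F₀ : IntermediateField ℚ (LaurentSeries ℚ))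

/-- `F_ℚ̄ = ℚ̄ · F₀ ⊂ ℚ̄((q))`. -/
abbrev FQ : Type := ↥(laurentBaseChange Qb F₀)

/-- `F_ℂ = ℂ · F₀ ⊂ ℂ((q))`. -/
abbrev FCx : Type := ↥(laurentBaseChange ℂ F₀)

/-- Base change of functions `F_ℚ̄ → F_ℂ` along `complexEmbedding`. -/
def bcQC : FQ F₀ →+* FCx F₀ := bc (k := Qb) (K := ℂ) F₀

theorem coe_bcQC (f : FQ F₀) :
    ((bcQC F₀ f : FCx F₀) : LaurentSeries ℂ) =
      coeffMap (algebraMap Qb ℂ) (f : LaurentSeries Qb) := rfl

theorem coeff_bcQC (f : FQ F₀) (n : ℤ) :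
    ((bcQC F₀ f : FCx F₀) : LaurentSeries ℂ).coeff n =
      complexEmbedding ((f : LaurentSeries Qb).coeff n) := by
  rw [coe_bcQC, coeffMap_coeff]
  rfl

theorem bcQC_injective : Function.Injective (bcQC F₀) := bc_injective _

theorem isConstExt_bcQC : IsConstExt (k := Qb) (K := ℂ) (bcQC F₀) :=
  isConstExt_bc (k := Qb) (K := ℂ) F₀

/-- Base change sends the formal image of `z ∈ F₀` over `ℚ̄` to the one over `ℂ`
(e.g. `j ↦ j`, generators to generators). -/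
theorem bcQC_coeffEmb {z : LaurentSeries ℚ} (hz : z ∈ F₀) :
    bcQC F₀ ⟨coeffEmb Qb z, coeffEmb_mem_laurentBaseChange Qb hz⟩ =
      ⟨coeffEmb ℂ z, coeffEmb_mem_laurentBaseChange ℂ hz⟩ :=
  Subtype.ext (bcS_coeffEmb z)

/-- The action of `Aut(ℂ/ℚ̄)` on `F_ℂ`. -/
def rhoC : (ℂ ≃ₐ[Qb] ℂ) →* SemilinearAut ℂ (FCx F₀) := rho (k := Qb) (K := ℂ) F₀

theorem baseAut_rhoC (σ : ℂ ≃ₐ[Qb] ℂ) (c : ℂ) : SemilinearAut.baseAut (rhoC F₀ σ) c = σ c := rfl

theorem rhoC_smul_bcQC (σ : ℂ ≃ₐ[Qb] ℂ) (f : FQ F₀) : rhoC F₀ σ • bcQC F₀ f = bcQC F₀ f :=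
  rho_smul_bc F₀ σ f

theorem mem_range_bcQC_of_fixed (h : FCx F₀) (hfix : ∀ σ : ℂ ≃ₐ[Qb] ℂ, rhoC F₀ σ • h = h) :
    h ∈ Set.range (bcQC F₀) :=
  mem_range_bc_of_fixed (k := Qb) (K := ℂ) F₀ h hfix

theorem bcQC_ne_zero {f : FQ F₀} (hf : f ≠ 0) : bcQC F₀ f ≠ 0 :=
  (map_ne_zero_iff _ (bcQC_injective F₀)).mpr hf

/-! ### Places, divisors, classes -/

variable {F₀} {xQ : FQ F₀} {xC : FCx F₀} (hQ : FF.IsGen Qb xQ) (hC : FF.IsGen ℂ xC)

/-- Extension of places of `F_ℚ̄` to `F_ℂ`. -/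
def extPlaceC : Place Qb (FQ F₀) → Place ℂ (FCx F₀) :=
  extPlace (bcQC F₀) (isConstExt_bcQC F₀) hC

include hQ in
theorem ord_extPlaceC (w : Place Qb (FQ F₀)) (f : FQ F₀) :
    (extPlaceC hC w).ord (bcQC F₀ f) = w.ord f :=
  ord_extPlace (isConstExt_bcQC F₀) hQ hC w f

theorem extPlaceC_injective : Function.Injective (extPlaceC hC) :=
  extPlace_injective (isConstExt_bcQC F₀) hC

/-- Extension of divisors. -/
def extDivC : Divisor Qb (FQ F₀) →+ Divisor ℂ (FCx F₀) :=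
  extDiv (isConstExt_bcQC F₀) hC

theorem extDivC_apply_extPlaceC (D : Divisor Qb (FQ F₀)) (w : Place Qb (FQ F₀)) :
    extDivC hC D (extPlaceC hC w) = D w :=
  extDiv_apply_extPlace (isConstExt_bcQC F₀) hC D w

include hQ in
theorem degree_extDivC (D : Divisor Qb (FQ F₀)) :
    Divisor.degree (extDivC hC D) = Divisor.degree D :=
  degree_extDiv (isConstExt_bcQC F₀) hQ hC D

include hQ in
/-- **Transport of Kummer data**: if `n • D = div f` over `ℚ̄` then `n • extDivC D = div (bc f)`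
over `ℂ`. -/
theorem extDivC_datum (n : ℤ) {D : Divisor Qb (FQ F₀)} {f : FQ F₀} (hf : f ≠ 0)
    (hD : ∀ w : Place Qb (FQ F₀), n * D w = w.ord f) (v : Place ℂ (FCx F₀)) :
    n * extDivC hC D v = v.ord (bcQC F₀ f) := by
  have h := extDiv_apply_of_principal (isConstExt_bcQC F₀) hQ hC
    (D := n • D) hf (fun w => by rw [Finsupp.smul_apply, smul_eq_mul, hD w]) v
  rw [← h]
  show n * extDivC hC D v = extDivC hC (n • D) v
  rw [map_zsmul, Finsupp.smul_apply, smul_eq_mul]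

/-- **Base change of divisor classes** `Pic⁰(F_ℚ̄) →+ Pic⁰(F_ℂ)`. -/
def extPic0C : Pic0 Qb (FQ F₀) →+ Pic0 ℂ (FCx F₀) :=
  extPic0 (isConstExt_bcQC F₀) hQ hC

theorem extPic0C_mk (D : Divisor.degZero (K := Qb) (F := FQ F₀)) :
    extPic0C hQ hC (Pic0.mk D) =
      Pic0.mk (extDegZero (isConstExt_bcQC F₀) hQ hC D) := rfl

theorem coe_extDegZeroC (D : Divisor.degZero (K := Qb) (F := FQ F₀)) :
    ((extDegZero (isConstExt_bcQC F₀) hQ hC D :
      Divisor.degZero (K := ℂ) (F := FCx F₀)) : Divisor ℂ (FCx F₀)) =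
        extDivC hC (D : Divisor Qb (FQ F₀)) :=
  coe_extDegZero _ _ _ D

/-- **Injectivity of base change on `Pic⁰`.** -/
theorem extPic0C_injective : Function.Injective (extPic0C hQ hC) :=
  extPic0_injective (isConstExt_bcQC F₀) hQ hC (rhoC F₀)
    (rhoC_smul_bcQC F₀) (mem_range_bcQC_of_fixed F₀)

/-- The classes in the image are fixed by `Aut(ℂ/ℚ̄)`. -/
theorem rhoC_smul_extPic0C (σ : ℂ ≃ₐ[Qb] ℂ) (y : Pic0 Qb (FQ F₀)) :
    rhoC F₀ σ • extPic0C hQ hC y = extPic0C hQ hC y :=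
  smul_extPic0 (isConstExt_bcQC F₀) hQ hC (rhoC F₀ σ)
    (rhoC_smul_bcQC F₀ σ) y

/-! ### Torsion -/

/-- **The torsion of `Pic⁰` over `ℚ̄` and over `ℂ` agree**, given finiteness over `ℂ`. -/
def torsionEquivC (n : ℕ) [Finite (Pic0.torsion ℂ (FCx F₀) n)] :
    Pic0.torsion Qb (FQ F₀) n ≃+ Pic0.torsion ℂ (FCx F₀) n :=
  torsionEquiv (isConstExt_bcQC F₀) hQ hC (rhoC F₀) (baseAut_rhoC F₀)
    (rhoC_smul_bcQC F₀) (mem_range_bcQC_of_fixed F₀) n

theorem coe_torsionEquivC_apply (n : ℕ) [Finite (Pic0.torsion ℂ (FCx F₀) n)]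
    (y : Pic0.torsion Qb (FQ F₀) n) :
    (torsionEquivC hQ hC n y : Pic0 ℂ (FCx F₀)) = extPic0C hQ hC (y : Pic0 Qb (FQ F₀)) := rfl

/-- Every `n`-torsion class over `ℂ` is the base change of a unique `n`-torsion class over `ℚ̄`. -/
theorem exists_extPic0C_eq (n : ℕ) [Finite (Pic0.torsion ℂ (FCx F₀) n)] {z : Pic0 ℂ (FCx F₀)}
    (hz : z ∈ Pic0.torsion ℂ (FCx F₀) n) :
    ∃ y ∈ Pic0.torsion Qb (FQ F₀) n, extPic0C hQ hC y = z := by
  obtain ⟨y, hy⟩ := (torsionEquivC hQ hC n).surjective ⟨z, hz⟩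
  exact ⟨y, y.2, by rw [← coe_torsionEquivC_apply, hy]⟩

include hQ hC in
/-- **Finiteness of `Pic⁰(F_ℚ̄)[n]`** from finiteness over `ℂ` (only injectivity is used). -/
theorem finite_torsion_bar (n : ℕ) [Finite (Pic0.torsion ℂ (FCx F₀) n)] :
    Finite (Pic0.torsion Qb (FQ F₀) n) :=
  finite_torsion (isConstExt_bcQC F₀) hQ hC (rhoC F₀)
    (rhoC_smul_bcQC F₀) (mem_range_bcQC_of_fixed F₀) n

include hQ hC in
/-- The same, in the set shape used by `TateJZero13`. -/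
theorem finite_setOf_nsmul_eq_zero (n : ℕ) [Finite (Pic0.torsion ℂ (FCx F₀) n)] :
    {y : Pic0 Qb (FQ F₀) | n • y = 0}.Finite := by
  have := finite_torsion_bar hQ hC n
  have h : {y : Pic0 Qb (FQ F₀) | n • y = 0} =
      ((Pic0.torsion Qb (FQ F₀) n : AddSubgroup (Pic0 Qb (FQ F₀))) : Set (Pic0 Qb (FQ F₀))) := by
    ext y
    rw [Set.mem_ofPred_eq, SetLike.mem_coe, Pic0.mem_torsion, natCast_zsmul]
  rw [h]
  exact Set.toFinite _

end

end Fermat.Agent.DS.G.HECKE.DescG
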