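/-
DS / GEO, chapter G-HECKE, brick H06 part 2 (helper11): **generic twin of `ES/HEQ/KummerHeckeQ19`
§Level** (the adapter J1 ∘ J2).

For a rational function field `F₀ ⊆ ℚ((q))`, an analytic model `A : CModel (F_ℂ)` of
`F_ℂ = ℂ · F₀` (chapter G-KUM) and generators `hQ : IsGen ℚ̄ xQ`, `hC : IsGen ℂ (jC A)`:

* `anQ A : F_ℚ̄ →+* MerH`, `anQ A f = realMer A (bcQC F₀ f)` : the analytic realisation over `ℚ̄`;
* `kumQ`, `kumQAdd` : the Kummer map on `Pic⁰(F_ℚ̄)[n]` (`kummerC ∘ torsionEquivC`), with values in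
  the characters of `A.Gam`;
* `isDatum_of_bar` : transport of a Kummer datum over `ℚ̄` to a Kummer datum over `ℂ`;
* `isKummerMap_kumQ` : the characterisation "`x = [D]`, `n D = div f`, `h ^ n = an f` in `MerH`
  ⟹ `h ∘ γ = κ x γ · h` (and such `h ≠ 0` exist)", i.e. the body of `IsKummerMap` of
  `KummerHeckeMain19` with `Γ₀(N)` replaced by `A.Gam` and `anBar N` by `anQ A`
  (`isKummerMap_kumQ_of_bridge` : the same for any `an` with `an f = realMer A (bcQC F₀ f)`).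
-/
import Mathlib
import Fermat.Agent.DS.G.HECKE.DescG
import Fermat.Agent.DS.G.ES.KUM.KumInst18

set_option autoImplicit false
set_option linter.style.haveILetI false
set_option linter.unusedSectionVars false
set_option linter.style.longLine false

open UpperHalfPlane hiding I
open scoped Manifold MatrixGroups
open AlgebraicCurve

noncomputable section

namespace Fermat.Agent.DS.G.HECKE.KumQG

open Fermat.Agent.X0 Fermat.Agent.X0.SurjPoint ModularCurve
open Fermat.Agent.DS.G.HECKE.DescG Fermat.Agent.J.DESC.ExtPic22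
open Fermat.Agent.DS.G.ES.KUM.Iface Fermat.Agent.DS.G.ES.KUM.CReal5
open Fermat.Agent.DS.G.ES.KUM.KumInst18 Fermat.Agent.ES.KUM.KummerAbstract17
open Fermat.Agent.ES.KUM (slMer)

attribute [local instance] instAlgebraQbarComplex instTowerQbarComplex

variable {F₀ : IntermediateField ℚ (LaurentSeries ℚ)} (A : CModel (FCx F₀))

/-- **The analytic realisation over `ℚ̄`**: `f ↦ realMer A (bc f)`. -/
def anQ : FQ F₀ →+* MerH := (realMer A).comp (bcQC F₀)

theorem anQ_apply (f : FQ F₀) : anQ A f = realMer A (bcQC F₀ f) := rfl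

theorem anQ_injective : Function.Injective (anQ A) :=
  (realMer_injective A).comp (bcQC_injective F₀)

theorem anQ_ne_zero {f : FQ F₀} (hf : f ≠ 0) : anQ A f ≠ 0 :=
  (map_ne_zero_iff _ (anQ_injective A)).mpr hf

/-- `anQ` is invariant under `A.Gam`. -/
theorem slMer_anQ (γ : SL(2, ℤ)) (hγ : γ ∈ A.Gam) (f : FQ F₀) :
    slMer γ (anQ A f) = anQ A f :=
  slMer_realMer_of_mem A γ hγ _

variable {xQ : FQ F₀} (hQ : FF.IsGen Qb xQ) (hC : FF.IsGen ℂ (jC A))
variable (n : ℕ) [NeZero n] [Finite (Pic0.torsion ℂ (FCx F₀) n)]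

/-- **The Kummer map on `Pic⁰(F_ℚ̄)[n]`** (J1 ∘ J2), as a map to characters of `A.Gam`. -/
def kumQ (x : ↥(Pic0.torsion Qb (FQ F₀) n)) : ↥A.Gam →* ℂˣ :=
  kumCharOf A hC n (torsionEquivC hQ hC n x)

theorem kumQ_def (x : ↥(Pic0.torsion Qb (FQ F₀) n)) :
    kumQ A hQ hC n x = kumCharOf A hC n (torsionEquivC hQ hC n x) := rfl

/-- The same, additively: `Pic⁰(F_ℚ̄)[n] →+ X(A.Gam)`. -/
def kumQAdd : ↥(Pic0.torsion Qb (FQ F₀) n) →+ Additive (↥A.Gam →* ℂˣ) :=
  (kummerC A hC n).comp (torsionEquivC hQ hC n).toAddMonoidHom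

theorem toMul_kumQAdd (x : ↥(Pic0.torsion Qb (FQ F₀) n)) :
    Additive.toMul (kumQAdd A hQ hC n x) = kumQ A hQ hC n x := rfl

theorem kumQAdd_apply (x : ↥(Pic0.torsion Qb (FQ F₀) n)) :
    kumQAdd A hQ hC n x = kummerC A hC n (torsionEquivC hQ hC n x) := rfl

/-- The values of the Kummer characters are `n`-th roots of unity. -/
theorem kumQ_pow_eq_one (x : ↥(Pic0.torsion Qb (FQ F₀) n)) (γ : ↥A.Gam) :
    kumQ A hQ hC n x γ ^ n = 1 :=
  kummerC_pow_eq_one A hC n _ γ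

/-- Injectivity of the Kummer map over `ℚ̄` from injectivity over `ℂ`. -/
theorem kumQAdd_injective (hinj : Function.Injective (kummerC A hC n)) :
    Function.Injective (kumQAdd A hQ hC n) :=
  hinj.comp (torsionEquivC hQ hC n).injective

/-- transport of a Kummer datum over `ℚ̄` to a Kummer datum over `ℂ`. -/
theorem isDatum_of_bar (x : ↥(Pic0.torsion Qb (FQ F₀) n))
    (D : Divisor.degZero (K := Qb) (F := FQ F₀)) (f : FQ F₀)
    (hD : Pic0.mk D = (x : Pic0 Qb (FQ F₀))) (hf : f ≠ 0)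
    (hDf : ∀ v : Place Qb (FQ F₀), ((n : ℤ) • (D : Divisor Qb (FQ F₀))) v = v.ord f)
    (h : MerH) (hh : h ^ n = anQ A f) :
    IsDatum (settingC A) n
      ((torsionEquivC hQ hC n x : ↥(Pic0.torsion ℂ (FCx F₀) n)) : Pic0 ℂ (FCx F₀))
      (extDegZero (isConstExt_bcQC F₀) hQ hC D) (bcQC F₀ f) h := by
  refine ⟨?_, bcQC_ne_zero F₀ hf, ?_, ?_⟩
  · rw [coe_torsionEquivC_apply, ← hD, extPic0C_mk]
  · intro v
    rw [coe_extDegZeroC]
    refine extDivC_datum hQ hC (n : ℤ) hf (fun w => ?_) v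
    rw [← hDf w, Finsupp.smul_apply, smul_eq_mul]
  · rw [settingC_Θ]
    exact hh

/-- **the adapter**: the Kummer map of J1 + J2 satisfies the characterisation of
`KummerHeckeMain19.IsKummerMap` (stated here in unfolded form, for `A.Gam` and `anQ A`). -/
theorem isKummerMap_kumQ (x : ↥(Pic0.torsion Qb (FQ F₀) n))
    (D : Divisor.degZero (K := Qb) (F := FQ F₀)) (f : FQ F₀)
    (hD : Pic0.mk D = (x : Pic0 Qb (FQ F₀))) (hf : f ≠ 0)
    (hDf : ∀ v : Place Qb (FQ F₀), ((n : ℤ) • (D : Divisor Qb (FQ F₀))) v = v.ord f) :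
    (∃ h : MerH, h ≠ 0 ∧ h ^ n = anQ A f) ∧
      ∀ h : MerH, h ≠ 0 → h ^ n = anQ A f →
        ∀ γ : ↥A.Gam, slMer (γ : SL(2, ℤ)) h =
          algebraMap HolH MerH (algebraMap ℂ HolH ((kumQ A hQ hC n x γ : ℂˣ) : ℂ)) * h := by
  refine ⟨?_, ?_⟩
  · -- existence of roots
    have hdiv : ∀ v : Place ℂ (FCx F₀), (n : ℤ) ∣ v.ord (bcQC F₀ f) := by
      intro v
      refine ⟨extDivC hC (D : Divisor Qb (FQ F₀)) v, ?_⟩
      refine (extDivC_datum hQ hC (n : ℤ) hf (fun w => ?_) v).symm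
      rw [← hDf w, Finsupp.smul_apply, smul_eq_mul]
    obtain ⟨h, hh⟩ := hasRootsC A n (NeZero.ne n) (bcQC F₀ f) (bcQC_ne_zero F₀ hf) hdiv
    rw [settingC_Θ] at hh
    refine ⟨h, ?_, hh⟩
    rintro rfl
    rw [zero_pow (NeZero.ne n)] at hh
    exact anQ_ne_zero A hf hh.symm
  · intro h _ hh γ
    exact kummerC_eigen A hC n (torsionEquivC hQ hC n x)
      (isDatum_of_bar A hQ hC n x D f hD hf hDf h hh) γ

/-- The adapter for an arbitrary realisation `an` over `ℚ̄` which agrees with `realMer A ∘ bc`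
(e.g. the `an` of an `ArithModel` of chapter G-HECKE). -/
theorem isKummerMap_kumQ_of_bridge (an : FQ F₀ →+* MerH)
    (hbr : ∀ f : FQ F₀, realMer A (bcQC F₀ f) = an f)
    (x : ↥(Pic0.torsion Qb (FQ F₀) n))
    (D : Divisor.degZero (K := Qb) (F := FQ F₀)) (f : FQ F₀)
    (hD : Pic0.mk D = (x : Pic0 Qb (FQ F₀))) (hf : f ≠ 0)
    (hDf : ∀ v : Place Qb (FQ F₀), ((n : ℤ) • (D : Divisor Qb (FQ F₀))) v = v.ord f) :
    (∃ h : MerH, h ≠ 0 ∧ h ^ n = an f) ∧
      ∀ h : MerH, h ≠ 0 → h ^ n = an f →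
        ∀ γ : ↥A.Gam, slMer (γ : SL(2, ℤ)) h =
          algebraMap HolH MerH (algebraMap ℂ HolH ((kumQ A hQ hC n x γ : ℂˣ) : ℂ)) * h := by
  have e : an f = anQ A f := (hbr f).symm
  rw [e]
  exact isKummerMap_kumQ A hQ hC n x D f hD hf hDf

end Fermat.Agent.DS.G.HECKE.KumQG
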