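/-
DS / GEO, chapter G-HECKE, brick H07 (helper34), generic part: **the correspondence of an
automorphism is the Prelude's semilinear action**.

For a `K`-automorphism `δ` of a function field `F / K` (`K` algebraically closed of characteristic
zero, `IsGen K x`):

* `restrictAlong_algEquiv` : `w ∩ δ F`, read on `F` through `δ`, is the place `δ⁻¹ • w`;
* `ramificationIndexAlong_algEquiv` : `e_δ(w) = 1`;
* `pullbackAlong_algEquiv` : `δ^* D = ofAlgAut δ • D` on divisors;
* `pushforwardAlong_id` : `id_* D = D`;
* `correspondence_algEquiv_id` : `Pic0.correspondence δ id … y = ofAlgAut δ • y`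
  (any proofs of the Hecke inputs).
-/
import Mathlib
import Fermat.Prelude.Def_AlgebraicCurve_Correspondence
import Fermat.Agent.ES.HECKE.FundId12

set_option autoImplicit false
set_option linter.unusedSectionVars false
set_option linter.style.haveILetI false

open AlgebraicCurve AlgebraicCurve.SemilinearAut
open scoped Pointwise

noncomputable section

namespace Fermat.Agent.DS.G.HECKE.AutCorr

variable {K F : Type*} [Field K] [Field F] [Algebra K F]

section Places

variable (δ : F ≃ₐ[K] F) (hδ : (δ : F →ₐ[K] F).toRingHom.IsIntegral)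

/-- Restriction along an automorphism is the action of its inverse on places. -/
theorem restrictAlong_algEquiv (w : Place K F) :
    w.restrictAlong (δ : F →ₐ[K] F) hδ = (ofAlgAut δ)⁻¹ • w := by
  apply Place.ext
  ext f
  rw [smul_toValuationSubring, ValuationSubring.mem_pointwise_smul_iff_inv_smul_mem, inv_inv]
  exact Iff.rfl

theorem ord_algEquiv (w : Place K F) (f : F) :
    w.ord (δ f) = ((ofAlgAut δ)⁻¹ • w).ord f := by
  have h := ord_smul (ofAlgAut δ) ((ofAlgAut δ)⁻¹ • w) f
  rw [smul_inv_smul] at h
  exact h

include hδ in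
/-- An automorphism is unramified everywhere. -/
theorem ramificationIndexAlong_algEquiv (w : Place K F) :
    w.ramificationIndexAlong (δ : F →ₐ[K] F) = 1 := by
  obtain ⟨π, hπ⟩ := IsDiscreteValuationRing.exists_irreducible
    (w.restrictAlong (δ : F →ₐ[K] F) hδ).toValuationSubring
  have h1 := Place.ord_restrictAlong (δ : F →ₐ[K] F) hδ w (π : F)
  have h2 : w.ord ((δ : F →ₐ[K] F) (π : F)) = 1 := by
    show w.ord (δ (π : F)) = 1
    rw [ord_algEquiv, ← restrictAlong_algEquiv δ hδ]
    exact Place.ord_coe_irreducible _ hπ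
  rw [h2, Place.ord_coe_irreducible _ hπ, mul_one] at h1
  exact_mod_cast h1.symm

/-- **`δ^* D = δ • D`** on divisors. -/
theorem pullbackAlong_algEquiv [HasPrincipalDivisors K F] (D : Divisor K F) :
    Divisor.pullbackAlong (δ : F →ₐ[K] F) hδ D = ofAlgAut δ • D := by
  ext w
  rw [Divisor.pullbackAlong_apply, ramificationIndexAlong_algEquiv δ hδ,
    restrictAlong_algEquiv, divisor_smul_apply, Nat.cast_one, one_mul]

end Places

section Id

variable (h : (AlgHom.id K F).toRingHom.IsIntegral)

theorem restrictAlong_id (w : Place K F) : w.restrictAlong (AlgHom.id K F) h = w :=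
  Place.ext (by ext f; exact Iff.rfl)

open Fermat.Agent.X0.FF in
/-- **`id_* D = D`** on divisors. -/
theorem pushforwardAlong_id [IsAlgClosed K] [CharZero K] [HasPrincipalDivisors K F] {x : F}
    (hx : IsGen K x) (hfin : FiniteAlong K (AlgHom.id K F)) (D : Divisor K F) :
    Divisor.pushforwardAlong (AlgHom.id K F) h D = D := by
  induction D using Finsupp.induction with
  | zero => simp
  | single_add w n D _ _ ih =>
      rw [map_add, ih, Divisor.pushforwardAlong_single, restrictAlong_id,
        Fermat.Agent.ES.HECKE.FundId12.inertiaDegAlong_eq_one (AlgHom.id K F) h hfin hx w,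
        Nat.cast_one, mul_one]

end Id

section Corr

open Fermat.Agent.X0.FF

variable [IsAlgClosed K] [CharZero K] [HasPrincipalDivisors K F]

/-- The divisor correspondence `id_* δ^*` is the action of `δ`. -/
theorem divisor_correspondence_algEquiv_id (δ : F ≃ₐ[K] F) {x : F} (hx : IsGen K x)
    (hδ : (δ : F →ₐ[K] F).toRingHom.IsIntegral) (hid : (AlgHom.id K F).toRingHom.IsIntegral)
    (hfin : FiniteAlong K (AlgHom.id K F)) (D : Divisor K F) :
    Divisor.correspondence (δ : F →ₐ[K] F) (AlgHom.id K F) hδ hid D = ofAlgAut δ • D := by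
  rw [Divisor.correspondence_apply, pushforwardAlong_id hid hx hfin, pullbackAlong_algEquiv]

/-- **`Pic0.correspondence δ id = ofAlgAut δ • ·`**: the correspondence attached to an
automorphism is the Prelude's action of the automorphism on `Pic⁰`. -/
theorem correspondence_algEquiv_id (δ : F ≃ₐ[K] F) {x : F} (hx : IsGen K x)
    (hδ : (δ : F →ₐ[K] F).toRingHom.IsIntegral) (hid : (AlgHom.id K F).toRingHom.IsIntegral)
    (hFI : FundamentalIdentityAlong K (δ : F →ₐ[K] F) hδ)
    (hfin : FiniteAlong K (AlgHom.id K F)) (hN : NormFormulaAlong K (AlgHom.id K F) hfin)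
    (y : Pic0 K F) :
    Pic0.correspondence (δ : F →ₐ[K] F) (AlgHom.id K F) hδ hid hFI hfin hN y =
      ofAlgAut δ • y := by
  obtain ⟨D, rfl⟩ := Pic0.mk_surjective y
  rw [Pic0.correspondence_mk, pic0_smul_mk]
  refine congrArg Pic0.mk (Subtype.ext ?_)
  rw [Pic0.coe_degZeroCorrespondence, coe_degZeroSMulHom]
  exact divisor_correspondence_algEquiv_id δ hx hδ hid hfin D

end Corr

end Fermat.Agent.DS.G.HECKE.AutCorr
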