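/-
DS / GEO, chapter G-HECKE, brick H07 (helper34), abstract part (Mathlib only):
**transport of a ring endomorphism along an embedding with stable image**.

Let `an : F →+* M` be a ring hom from a field `F` (hence injective) and `R : M →+* M` a ring
endomorphism of `M` with `R (an F) ⊆ an F`.  Then there is a unique ring endomorphism
`pullEnd an R h` of `F` with `an ∘ pullEnd = R ∘ an`.  If `R'` is inverse to `R` on `an F` we get a
ring automorphism `pullEquiv`; if `an` and `R` are compatible with a base field `K` the maps are
`K`-algebra maps (`pullAlgHom`, `pullAlgEquiv`).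

Application (file `Diamond`): `M = MerH`, `an` the analytic realisation of a modular function field,
`R = slMer s` for `s` normalising the level group: the diamond automorphisms.
-/
import Mathlib

set_option autoImplicit false
set_option linter.unusedSectionVars false

noncomputable section

namespace Fermat.Agent.DS.G.HECKE.DiamondAbs

variable {F M : Type*} [Field F] [CommRing M] [Nontrivial M]

/-- The image of `an` is stable under `R`. -/
def Stable (an : F →+* M) (R : M →+* M) : Prop := ∀ f : F, ∃ f' : F, an f' = R (an f)

theorem Stable.comp {an : F →+* M} {R R' : M →+* M} (h : Stable an R) (h' : Stable an R') :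
    Stable an (R'.comp R) := by
  intro f
  obtain ⟨f₁, hf₁⟩ := h f
  obtain ⟨f₂, hf₂⟩ := h' f₁
  exact ⟨f₂, by rw [hf₂, hf₁, RingHom.comp_apply]⟩

theorem stable_id (an : F →+* M) : Stable an (RingHom.id M) := fun f => ⟨f, rfl⟩

section Hom

variable (an : F →+* M) (R : M →+* M) (h : Stable an R)

/-- The underlying function of the transported endomorphism. -/
def pullFun (f : F) : F := (h f).choose

theorem an_pullFun (f : F) : an (pullFun an R h f) = R (an f) := (h f).choose_spec

/-- Characterisation: `pullFun f` is THE element with realisation `R (an f)`. -/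
theorem pullFun_eq_of_an_eq {f f' : F} (hf : an f' = R (an f)) : pullFun an R h f = f' :=
  an.injective (by rw [an_pullFun, hf])

/-- **The transported ring endomorphism** `an⁻¹ ∘ R ∘ an` of `F`. -/
def pullEnd : F →+* F where
  toFun := pullFun an R h
  map_one' := pullFun_eq_of_an_eq an R h (by simp)
  map_mul' x y := pullFun_eq_of_an_eq an R h (by
    rw [map_mul, map_mul, map_mul, an_pullFun, an_pullFun])
  map_zero' := pullFun_eq_of_an_eq an R h (by simp)
  map_add' x y := pullFun_eq_of_an_eq an R h (by
    rw [map_add, map_add, map_add, an_pullFun, an_pullFun])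

@[simp] theorem an_pullEnd (f : F) : an (pullEnd an R h f) = R (an f) := an_pullFun an R h f

theorem pullEnd_eq_of_an_eq {f f' : F} (hf : an f' = R (an f)) : pullEnd an R h f = f' :=
  pullFun_eq_of_an_eq an R h hf

theorem pullEnd_eq_iff {f f' : F} : pullEnd an R h f = f' ↔ an f' = R (an f) :=
  ⟨fun e => by rw [← e, an_pullEnd], pullEnd_eq_of_an_eq an R h⟩

/-- Independence of the proof of stability and congruence in `R` on the image of `an`. -/
theorem pullEnd_congr {R' : M →+* M} (h' : Stable an R') (hRR' : ∀ f, R (an f) = R' (an f)) :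
    pullEnd an R h = pullEnd an R' h' := by
  ext f
  exact pullEnd_eq_of_an_eq an R h (by rw [an_pullEnd, hRR'])

theorem pullEnd_id : pullEnd an (RingHom.id M) (stable_id an) = RingHom.id F := by
  ext f
  exact pullEnd_eq_of_an_eq an _ _ rfl

theorem pullEnd_comp {R' : M →+* M} (h' : Stable an R') :
    pullEnd an (R'.comp R) (h.comp h') = (pullEnd an R' h').comp (pullEnd an R h) := by
  ext f
  apply pullEnd_eq_of_an_eq
  rw [RingHom.comp_apply, an_pullEnd, an_pullEnd, RingHom.comp_apply]

/-- If `R'` is a left inverse of `R` on the image of `an`, so are the transported maps. -/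
theorem pullEnd_leftInverse {R' : M →+* M} (h' : Stable an R')
    (hinv : ∀ f, R' (R (an f)) = an f) (f : F) :
    pullEnd an R' h' (pullEnd an R h f) = f :=
  pullEnd_eq_of_an_eq an R' h' (by rw [an_pullEnd, hinv])

end Hom

section Equiv

variable (an : F →+* M) (R R' : M →+* M) (h : Stable an R) (h' : Stable an R')
  (hRR' : ∀ f, R' (R (an f)) = an f) (hR'R : ∀ f, R (R' (an f)) = an f)

/-- **The transported ring automorphism.** -/
def pullEquiv : F ≃+* F :=
  RingEquiv.ofRingHom (pullEnd an R h) (pullEnd an R' h')
    (by
      ext f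
      exact pullEnd_leftInverse an R' h' h hR'R f)
    (by
      ext f
      exact pullEnd_leftInverse an R h h' hRR' f)

@[simp] theorem an_pullEquiv (f : F) : an (pullEquiv an R R' h h' hRR' hR'R f) = R (an f) :=
  an_pullEnd an R h f

@[simp] theorem an_pullEquiv_symm (f : F) :
    an ((pullEquiv an R R' h h' hRR' hR'R).symm f) = R' (an f) :=
  an_pullEnd an R' h' f

end Equiv

section Algebra

variable {K : Type*} [Field K] [Algebra K F] (an : F →+* M) (R R' : M →+* M)
  (h : Stable an R) (h' : Stable an R')
  (hK : ∀ c : K, R (an (algebraMap K F c)) = an (algebraMap K F c))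

/-- The transported endomorphism as a `K`-algebra map, when `R` fixes the constants. -/
def pullAlgHom : F →ₐ[K] F :=
  { pullEnd an R h with
    commutes' := fun c => pullEnd_eq_of_an_eq an R h (hK c).symm }

@[simp] theorem an_pullAlgHom (f : F) : an (pullAlgHom an R h hK f) = R (an f) :=
  an_pullEnd an R h f

theorem pullAlgHom_eq_of_an_eq {f f' : F} (hf : an f' = R (an f)) :
    pullAlgHom an R h hK f = f' :=
  pullEnd_eq_of_an_eq an R h hf

variable (hRR' : ∀ f, R' (R (an f)) = an f) (hR'R : ∀ f, R (R' (an f)) = an f)

/-- The transported automorphism as a `K`-algebra automorphism. -/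
def pullAlgEquiv : F ≃ₐ[K] F :=
  { pullEquiv an R R' h h' hRR' hR'R with
    commutes' := fun c => pullEnd_eq_of_an_eq an R h (hK c).symm }

@[simp] theorem an_pullAlgEquiv (f : F) :
    an (pullAlgEquiv an R R' h h' hK hRR' hR'R f) = R (an f) :=
  an_pullEnd an R h f

@[simp] theorem an_pullAlgEquiv_symm (f : F) :
    an ((pullAlgEquiv an R R' h h' hK hRR' hR'R).symm f) = R' (an f) :=
  an_pullEnd an R' h' f

theorem pullAlgEquiv_apply_eq_of_an_eq {f f' : F} (hf : an f' = R (an f)) :
    pullAlgEquiv an R R' h h' hK hRR' hR'R f = f' :=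
  pullEnd_eq_of_an_eq an R h hf

end Algebra

section Generators

variable {K F M : Type*} [Field K] [Field F] [Field M] [Algebra K F]

/-- **Stability can be checked on generators**: if `F = K(S)`, the constants and the elements of
`S` have `R`-images in `an F`, then `an F` is stable under `R`. -/
theorem stable_of_generators (an : F →+* M) (R : M →+* M) (S : Set F)
    (hS : IntermediateField.adjoin K S = ⊤)
    (hK : ∀ c : K, ∃ f' : F, an f' = R (an (algebraMap K F c)))
    (hgen : ∀ g ∈ S, ∃ f' : F, an f' = R (an g)) : Stable an R := by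
  intro f
  have hf : f ∈ IntermediateField.adjoin K S := by rw [hS]; exact IntermediateField.mem_top
  induction hf using IntermediateField.adjoin_induction with
  | mem x hx => exact hgen x hx
  | algebraMap c => exact hK c
  | add x y _ _ hx hy =>
      obtain ⟨x', hx'⟩ := hx
      obtain ⟨y', hy'⟩ := hy
      exact ⟨x' + y', by rw [map_add, map_add, map_add, hx', hy']⟩
  | inv x _ hx =>
      obtain ⟨x', hx'⟩ := hx
      exact ⟨x'⁻¹, by rw [map_inv₀, map_inv₀, map_inv₀, hx']⟩
  | mul x y _ _ hx hy =>
      obtain ⟨x', hx'⟩ := hx
      obtain ⟨y', hy'⟩ := hy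
      exact ⟨x' * y', by rw [map_mul, map_mul, map_mul, hx', hy']⟩

end Generators

end Fermat.Agent.DS.G.HECKE.DiamondAbs
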