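/-
DS / GEO, chapter G-HECKE, brick H07 (helper34), Galois part (Prelude + Mathlib only):
**a `L`-algebra endomorphism of `laurentBaseChange L F₀` which preserves the rational elements
commutes with the arithmetic Galois action** (coefficientwise action of `Aut(L/ℚ)`).

This applies to the diamond automorphisms of the function field of `X₁(M)` (they permute generators
with rational `q`-expansions), and gives the Galois equivariance of the diamond operators on `Pic⁰`
through brick H02 (`IntertwinesAlong`).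
-/
import Fermat.Prelude.Def_ModularCurve_ArithmeticGalois

set_option autoImplicit false
set_option linter.unusedSectionVars false

noncomputable section

open IntermediateField HahnSeries AlgebraicCurve ModularCurve

namespace Fermat.Agent.DS.G.HECKE.DiamondGal

variable {L : Type*} [Field L] [Algebra ℚ L]
variable (F₀ : IntermediateField ℚ (LaurentSeries ℚ))

/-- The rational element `coeffEmb L y` (`y ∈ F₀`) of `laurentBaseChange L F₀`. -/
def ratElt (y : LaurentSeries ℚ) (hy : y ∈ F₀) : ↥(laurentBaseChange L F₀) :=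
  ⟨coeffEmb L y, coeffEmb_mem_laurentBaseChange L hy⟩

@[simp] theorem coe_ratElt (y : LaurentSeries ℚ) (hy : y ∈ F₀) :
    ((ratElt (L := L) F₀ y hy : ↥(laurentBaseChange L F₀)) : LaurentSeries L) = coeffEmb L y := rfl

/-- Rational elements are fixed by the arithmetic Galois action. -/
theorem arithmeticRingAut_ratElt (σ : L ≃ₐ[ℚ] L) (y : LaurentSeries ℚ) (hy : y ∈ F₀) :
    arithmeticRingAut F₀ σ (ratElt (L := L) F₀ y hy) = ratElt F₀ y hy :=
  Subtype.ext (coeffMap_coeffEmb σ y)

/-- `τ` preserves the rational elements. -/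
def PreservesRat (τ : ↥(laurentBaseChange L F₀) →+* ↥(laurentBaseChange L F₀)) : Prop :=
  ∀ (y : LaurentSeries ℚ) (hy : y ∈ F₀), ∃ (y' : LaurentSeries ℚ) (hy' : y' ∈ F₀),
    τ (ratElt F₀ y hy) = ratElt F₀ y' hy'

/-- **An `L`-algebra endomorphism preserving the rational elements commutes with the arithmetic
Galois action.** -/
theorem arithmeticRingAut_comm
    (τ : ↥(laurentBaseChange L F₀) →ₐ[L] ↥(laurentBaseChange L F₀))
    (hτ : PreservesRat F₀ (τ : ↥(laurentBaseChange L F₀) →+* ↥(laurentBaseChange L F₀)))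
    (σ : L ≃ₐ[ℚ] L) (f : ↥(laurentBaseChange L F₀)) :
    arithmeticRingAut F₀ σ (τ f) = τ (arithmeticRingAut F₀ σ f) := by
  obtain ⟨x, hx⟩ := f
  unfold laurentBaseChange at hx
  induction hx using IntermediateField.adjoin_induction with
  | mem y hy =>
      obtain ⟨y₀, hy₀, rfl⟩ := hy
      have e : (⟨coeffEmb L y₀, IntermediateField.subset_adjoin L _ ⟨y₀, hy₀, rfl⟩⟩ :
          ↥(laurentBaseChange L F₀)) = ratElt F₀ y₀ hy₀ := rfl
      rw [e, arithmeticRingAut_ratElt]
      obtain ⟨y', hy', h'⟩ := hτ y₀ hy₀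
      have h'' : τ (ratElt F₀ y₀ hy₀) = ratElt F₀ y' hy' := h'
      rw [h'', arithmeticRingAut_ratElt]
  | algebraMap c =>
      have e : (⟨algebraMap L (LaurentSeries L) c, IntermediateField.algebraMap_mem _ c⟩ :
          ↥(laurentBaseChange L F₀)) = algebraMap L ↥(laurentBaseChange L F₀) c := rfl
      rw [e, τ.commutes, arithmeticRingAut_algebraMap, τ.commutes]
  | add x y hx hy ihx ihy =>
      have e : (⟨x + y, add_mem hx hy⟩ : ↥(laurentBaseChange L F₀)) =
          (⟨x, hx⟩ : ↥(laurentBaseChange L F₀)) + ⟨y, hy⟩ := rfl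
      rw [e, map_add, map_add, map_add, map_add, ihx, ihy]
  | inv x hx ihx =>
      have e : (⟨x⁻¹, inv_mem hx⟩ : ↥(laurentBaseChange L F₀)) =
          (⟨x, hx⟩ : ↥(laurentBaseChange L F₀))⁻¹ := rfl
      rw [e, map_inv₀, map_inv₀, map_inv₀, map_inv₀, ihx]
  | mul x y hx hy ihx ihy =>
      have e : (⟨x * y, mul_mem hx hy⟩ : ↥(laurentBaseChange L F₀)) =
          (⟨x, hx⟩ : ↥(laurentBaseChange L F₀)) * ⟨y, hy⟩ := rfl
      rw [e, map_mul, map_mul, map_mul, map_mul, ihx, ihy]

/-- The same in terms of the semilinear automorphisms `arithmeticGalois F₀ σ`. -/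
theorem arithmeticGalois_smul_comm
    (τ : ↥(laurentBaseChange L F₀) →ₐ[L] ↥(laurentBaseChange L F₀))
    (hτ : PreservesRat F₀ (τ : ↥(laurentBaseChange L F₀) →+* ↥(laurentBaseChange L F₀)))
    (σ : L ≃ₐ[ℚ] L) (f : ↥(laurentBaseChange L F₀)) :
    arithmeticGalois F₀ σ • τ f = τ (arithmeticGalois F₀ σ • f) :=
  arithmeticRingAut_comm F₀ τ hτ σ f

/-- `PreservesRat` can be checked on a generating set of `F₀` over `ℚ`. -/
theorem preservesRat_of_generators
    (τ : ↥(laurentBaseChange L F₀) →ₐ[L] ↥(laurentBaseChange L F₀)) (S : Set (LaurentSeries ℚ))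
    (hS : IntermediateField.adjoin ℚ S = F₀)
    (hgen : ∀ (y : LaurentSeries ℚ) (hy : y ∈ F₀), y ∈ S →
      ∃ (y' : LaurentSeries ℚ) (hy' : y' ∈ F₀), τ (ratElt F₀ y hy) = ratElt F₀ y' hy') :
    PreservesRat F₀ (τ : ↥(laurentBaseChange L F₀) →+* ↥(laurentBaseChange L F₀)) := by
  intro y hy
  show ∃ (y' : LaurentSeries ℚ) (hy' : y' ∈ F₀), τ (ratElt F₀ y hy) = ratElt F₀ y' hy'
  have hy2 : y ∈ IntermediateField.adjoin ℚ S := by rw [hS]; exact hy
  have key : ∀ (z : LaurentSeries ℚ), z ∈ IntermediateField.adjoin ℚ S → ∀ hz : z ∈ F₀,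
      ∃ (z' : LaurentSeries ℚ) (hz' : z' ∈ F₀), τ (ratElt F₀ z hz) = ratElt F₀ z' hz' := by
    intro z hz
    induction hz using IntermediateField.adjoin_induction with
    | mem x hx => exact fun hz => hgen x hz hx
    | algebraMap c =>
        intro hz
        refine ⟨algebraMap ℚ (LaurentSeries ℚ) c, hz, ?_⟩
        have e : ratElt (L := L) F₀ (algebraMap ℚ (LaurentSeries ℚ) c) hz =
            algebraMap L ↥(laurentBaseChange L F₀) (algebraMap ℚ L c) := by
          apply Subtype.ext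
          show coeffEmb L (algebraMap ℚ (LaurentSeries ℚ) c) =
            algebraMap L (LaurentSeries L) (algebraMap ℚ L c)
          rw [coeffEmb, algebraMap_laurentSeries_eq_single, algebraMap_laurentSeries_eq_single,
            coeffMap_single]
        rw [e, τ.commutes]
    | add x y hx hy ihx ihy =>
        intro hz
        have hx' : x ∈ F₀ := hS ▸ hx
        have hy' : y ∈ F₀ := hS ▸ hy
        obtain ⟨x₁, hx₁, ex⟩ := ihx hx'
        obtain ⟨y₁, hy₁, ey⟩ := ihy hy'
        refine ⟨x₁ + y₁, add_mem hx₁ hy₁, ?_⟩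
        have e : ratElt (L := L) F₀ (x + y) hz = ratElt F₀ x hx' + ratElt F₀ y hy' :=
          Subtype.ext (map_add (coeffEmb L) x y)
        have e' : ratElt (L := L) F₀ (x₁ + y₁) (add_mem hx₁ hy₁) =
            ratElt F₀ x₁ hx₁ + ratElt F₀ y₁ hy₁ := Subtype.ext (map_add (coeffEmb L) x₁ y₁)
        rw [e, e', map_add, ex, ey]
    | inv x hx ihx =>
        intro hz
        have hx' : x ∈ F₀ := hS ▸ hx
        obtain ⟨x₁, hx₁, ex⟩ := ihx hx'
        refine ⟨x₁⁻¹, inv_mem hx₁, ?_⟩
        have e : ratElt (L := L) F₀ x⁻¹ hz = (ratElt F₀ x hx')⁻¹ :=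
          Subtype.ext (map_inv₀ (coeffEmb L) x)
        have e' : ratElt (L := L) F₀ x₁⁻¹ (inv_mem hx₁) = (ratElt F₀ x₁ hx₁)⁻¹ :=
          Subtype.ext (map_inv₀ (coeffEmb L) x₁)
        rw [e, e', map_inv₀, ex]
    | mul x y hx hy ihx ihy =>
        intro hz
        have hx' : x ∈ F₀ := hS ▸ hx
        have hy' : y ∈ F₀ := hS ▸ hy
        obtain ⟨x₁, hx₁, ex⟩ := ihx hx'
        obtain ⟨y₁, hy₁, ey⟩ := ihy hy'
        refine ⟨x₁ * y₁, mul_mem hx₁ hy₁, ?_⟩
        have e : ratElt (L := L) F₀ (x * y) hz = ratElt F₀ x hx' * ratElt F₀ y hy' :=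
          Subtype.ext (map_mul (coeffEmb L) x y)
        have e' : ratElt (L := L) F₀ (x₁ * y₁) (mul_mem hx₁ hy₁) =
            ratElt F₀ x₁ hx₁ * ratElt F₀ y₁ hy₁ := Subtype.ext (map_mul (coeffEmb L) x₁ y₁)
        rw [e, e', map_mul, ex, ey]
  exact key y hy2 hy

end Fermat.Agent.DS.G.HECKE.DiamondGal
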