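/-
Programme DS (S48), chapter G-HECKE, brick H02 (helper31): **correspondences between base-changed
function fields commute with the arithmetic Galois action** (generic twin of the `P`-part of
`ES/HECKE/HeckeGalois12`).

For intermediate fields `F₀, F₀' ⊆ ℚ((q))` and `L`-algebra homomorphisms
`φ ψ : L·F₀ → L·F₀'` which are "coefficientwise natural" (their underlying maps on Laurent series
commute with `coeffMap σ`; e.g. the inclusion `f ↦ f` and `f ↦ f(q^p)`), the correspondence
`ψ_* φ^*` on `Pic⁰` commutes with `Gal(L/ℚ)`.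

* `map_arithmeticGalois_smul` : naturality ⇒ `φ (σ • f) = σ • φ f`;
* `inclusion_arithmeticGalois_smul`, `map_arithmeticGalois_smul_of_coe_qExpand` : the two standard
  cases (`alphaG`, `betaG` of the chapter interface);
* `pic0_correspondence_galois_smul` : `ψ_* φ^* (σ • x) = σ • ψ_* φ^* x` on `Pic⁰`, for ANY proofs of
  the Hecke inputs (so it applies verbatim to `Inputs.corr`).
-/
import Mathlib
import Fermat.Agent.ES.HECKE.HeckeGalois12
import Fermat.Agent.ES.HECKE.FundId12
import Fermat.Agent.X0.CuspGood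
import Fermat.Prelude.Def_ModularCurve_ArithmeticGalois

set_option autoImplicit false
set_option linter.unusedSectionVars false

noncomputable section

open AlgebraicCurve ModularCurve HahnSeries

namespace Fermat.Agent.DS.G.HECKE.Galois

section Natural

variable {L : Type*} [Field L] [Algebra ℚ L]
variable (F₀ F₀' : IntermediateField ℚ (LaurentSeries ℚ))

/-- A homomorphism whose underlying map on Laurent series commutes with the coefficientwise action
commutes with the arithmetic Galois action. -/
theorem map_arithmeticGalois_smul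
    (φ : laurentBaseChange L F₀ →ₐ[L] laurentBaseChange L F₀')
    (Φ : LaurentSeries L → LaurentSeries L)
    (hφ : ∀ f : laurentBaseChange L F₀, ((φ f : laurentBaseChange L F₀') : LaurentSeries L) =
      Φ (f : LaurentSeries L))
    (hΦ : ∀ (σ : L ≃ₐ[ℚ] L) (x : LaurentSeries L),
      Φ (coeffMap (σ : L →+* L) x) = coeffMap (σ : L →+* L) (Φ x))
    (σ : L ≃ₐ[ℚ] L) (f : laurentBaseChange L F₀) :
    φ (arithmeticGalois F₀ σ • f) = arithmeticGalois F₀' σ • φ f := by
  apply Subtype.ext
  rw [hφ, coe_arithmeticGalois_smul, coe_arithmeticGalois_smul, hφ, hΦ]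

/-- the inclusion `L·F₀ ≤ L·F₀'` commutes with the arithmetic Galois action. -/
theorem inclusion_arithmeticGalois_smul
    (h : laurentBaseChange L F₀ ≤ laurentBaseChange L F₀') (σ : L ≃ₐ[ℚ] L)
    (f : laurentBaseChange L F₀) :
    IntermediateField.inclusion h (arithmeticGalois F₀ σ • f) =
      arithmeticGalois F₀' σ • IntermediateField.inclusion h f := by
  apply Subtype.ext
  rw [coe_arithmeticGalois_smul, IntermediateField.coe_inclusion, IntermediateField.coe_inclusion,
    coe_arithmeticGalois_smul]

/-- a homomorphism which is the identity on underlying Laurent series commutes with the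
arithmetic Galois action. -/
theorem map_arithmeticGalois_smul_of_coe_id
    (φ : laurentBaseChange L F₀ →ₐ[L] laurentBaseChange L F₀')
    (hφ : ∀ f : laurentBaseChange L F₀, ((φ f : laurentBaseChange L F₀') : LaurentSeries L) =
      (f : LaurentSeries L))
    (σ : L ≃ₐ[ℚ] L) (f : laurentBaseChange L F₀) :
    φ (arithmeticGalois F₀ σ • f) = arithmeticGalois F₀' σ • φ f := by
  apply Subtype.ext
  rw [hφ, coe_arithmeticGalois_smul, coe_arithmeticGalois_smul, hφ]

/-- a homomorphism which is `f ↦ f(q^p)` on underlying Laurent series commutes with the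
arithmetic Galois action. -/
theorem map_arithmeticGalois_smul_of_coe_qExpand (p : ℕ) [NeZero p]
    (φ : laurentBaseChange L F₀ →ₐ[L] laurentBaseChange L F₀')
    (hφ : ∀ f : laurentBaseChange L F₀, ((φ f : laurentBaseChange L F₀') : LaurentSeries L) =
      qExpand L p (f : LaurentSeries L))
    (σ : L ≃ₐ[ℚ] L) (f : laurentBaseChange L F₀) :
    φ (arithmeticGalois F₀ σ • f) = arithmeticGalois F₀' σ • φ f := by
  apply Subtype.ext
  rw [hφ, coe_arithmeticGalois_smul, coe_arithmeticGalois_smul, hφ,
    Fermat.Agent.X0.CuspGood.coeffMap_qExpand]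

end Natural

section Corr

variable {L : Type*} [Field L] [Algebra ℚ L] [IsAlgClosed L] [CharZero L]
variable (F₀ F₀' : IntermediateField ℚ (LaurentSeries ℚ))
variable [HasPrincipalDivisors L (laurentBaseChange L F₀')]

open Fermat.Agent.X0.FF in
/-- **`ψ_* φ^*` commutes with `Gal(L/ℚ)` on `Pic⁰`**, for coefficientwise natural `φ`, `ψ`. -/
theorem pic0_correspondence_galois_smul
    (φ ψ : laurentBaseChange L F₀ →ₐ[L] laurentBaseChange L F₀')
    (hφ : φ.toRingHom.IsIntegral) (hψ : ψ.toRingHom.IsIntegral)
    (hFI : FundamentalIdentityAlong L φ hφ) (hfin : FiniteAlong L ψ)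
    (hN : NormFormulaAlong L ψ hfin)
    (hcφ : ∀ (σ : L ≃ₐ[ℚ] L) (f : laurentBaseChange L F₀),
      φ (arithmeticGalois F₀ σ • f) = arithmeticGalois F₀' σ • φ f)
    (hcψ : ∀ (σ : L ≃ₐ[ℚ] L) (f : laurentBaseChange L F₀),
      ψ (arithmeticGalois F₀ σ • f) = arithmeticGalois F₀' σ • ψ f)
    {x : laurentBaseChange L F₀} (hx : IsGen L x)
    (σ : L ≃ₐ[ℚ] L) (y : Pic0 L (laurentBaseChange L F₀)) :
    Pic0.correspondence φ ψ hφ hψ hFI hfin hN (σ • y) =
      σ • Pic0.correspondence φ ψ hφ hψ hFI hfin hN y := by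
  rw [galois_smul_pic0_def, galois_smul_pic0_def]
  exact Fermat.Agent.ES.HECKE.HeckeGalois12.pic0_correspondence_smul φ ψ hφ hψ
    (arithmeticGalois F₀ σ) (arithmeticGalois F₀' σ) hFI hfin hN (hcφ σ) (hcψ σ)
    (fun w => Fermat.Agent.ES.HECKE.FundId12.inertiaDegAlong_eq_one ψ hψ hfin hx w) y

end Corr

end Fermat.Agent.DS.G.HECKE.Galois
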