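/-
Programme DS (S48), chapter G-HECKE (generic twins of `J/DESC`, `ES/HECKE`, `ES/HEQ`),
brick H00 (helper19): **the interface of the chapter**.

Everything is keyed by a rational function field `F₀ ⊆ ℚ((q))` (an
`IntermediateField ℚ (LaurentSeries ℚ)`), so that the file depends neither on `DS/G/Level.lean`
nor on any concrete group; for `L : LevelData` one has `FFK L.F₀ = FFL L` by `Iff.rfl`.

* `FFc Lc F₀ = Lc · F₀ ⊆ Lc((q))`, `FFK F₀ = FFc ℚbar F₀`: the function fields;
* `HeckePair F₀ F₀' p`: `F₀ ≤ F₀'` and `y(q) ∈ F₀ ⟹ y(q^p) ∈ F₀'`; it yields the two degeneracy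
  embeddings `alphaG Lc P` (inclusion), `betaG Lc P` (`q ↦ q^p`) `: FFc Lc F₀ →ₐ[Lc] FFc Lc F₀'`
  (the verbatim generalisations of the Prelude's `heckeAlphaBar`, `heckeBetaBar`);
* `ArithModel F₀`: an analytic realisation `an : FFK F₀ →+* MerH` of the function field over `ℚbar`
  in the field of meromorphic functions on the upper half plane, such that `an f` has the Laurent
  expansion `f` (after `ι : ℚbar → ℂ`), with `Gam`-invariant values, and such that `Gam` is exactly
  the stabiliser of the realisation (DISTINCT).  For `Γ₀(N)` this is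
  `(Gamma0 N, RealBar19.anBar N, …)`; chapter G-X0 supplies it for every level with analytic
  generators.
* consequences: `an` is injective, `an c = ι c` on constants, `distinct`, and the two
  compatibilities `an' ∘ α = an`, `an' ∘ β = (· ∘ (z ↦ p z)) ∘ an` of two models with the
  degeneracy embeddings (uniqueness of the meromorphic function with a given expansion: NO
  compatibility of analytic generators is needed).
-/
import Fermat.Agent.ES.HEQ.QExpMer19
import Fermat.Prelude.Def_ModularCurve_HeckeOperator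

set_option autoImplicit false
set_option linter.unusedSectionVars false
set_option linter.style.haveILetI false

open UpperHalfPlane hiding I
open scoped MatrixGroups

noncomputable section

namespace Fermat.Agent.DS.G.HECKE.Iface

open Fermat.Agent.X0 Fermat.Agent.X0.Analytic Fermat.Agent.X0.SurjPoint Fermat.Agent.ES.KUM
open Fermat.Agent.ES.HEQ.DoubleCoset27 Fermat.Agent.ES.HEQ.BetaMer19
open Fermat.Agent.ES.HEQ.QExpMer19 ModularCurve HahnSeries

/-! ### The function fields -/

/-- The function field `Lc · F₀ ⊆ Lc((q))`. -/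
abbrev FFc (Lc : Type*) [Field Lc] [Algebra ℚ Lc] (F₀ : IntermediateField ℚ (LaurentSeries ℚ)) :
    Type _ :=
  ↥(laurentBaseChange Lc F₀)

/-- The function field `ℚbar · F₀ ⊆ ℚbar((q))`. -/
abbrev FFK (F₀ : IntermediateField ℚ (LaurentSeries ℚ)) : Type := FFc Kbar F₀

/-! ### Public versions of the Prelude's private supply lemmas -/

section Supply

variable (Lc : Type*) [Field Lc] [Algebra ℚ Lc]

theorem coeffEmb_qExpand (n : ℕ) [NeZero n] (x : LaurentSeries ℚ) :
    coeffEmb Lc (qExpand ℚ n x) = qExpand Lc n (coeffEmb Lc x) :=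
  Analytic.coeffMap_qExpand _ n x

theorem laurentBaseChange_mono {F₀ F₁ : IntermediateField ℚ (LaurentSeries ℚ)} (h : F₀ ≤ F₁) :
    laurentBaseChange Lc F₀ ≤ laurentBaseChange Lc F₁ := by
  rw [laurentBaseChange, IntermediateField.adjoin_le_iff]
  rintro _ ⟨y, hy, rfl⟩
  exact coeffEmb_mem_laurentBaseChange Lc (h hy)

variable {Lc}

theorem qExpand_mem_laurentBaseChange {F₀ F₁ : IntermediateField ℚ (LaurentSeries ℚ)} (n : ℕ)
    [NeZero n] (hF : ∀ y ∈ F₀, qExpand ℚ n y ∈ F₁) {x : LaurentSeries Lc}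
    (hx : x ∈ laurentBaseChange Lc F₀) : qExpand Lc n x ∈ laurentBaseChange Lc F₁ := by
  rw [mem_laurentBaseChange_iff] at hx
  induction hx using Subfield.closure_induction with
  | mem y hy =>
      rcases hy with ⟨a, rfl⟩ | ⟨z, hz, rfl⟩
      · rw [algebraMap_laurentSeries_eq_single, qExpand_single, mul_zero,
          ← algebraMap_laurentSeries_eq_single]
        exact (laurentBaseChange Lc F₁).algebraMap_mem _
      · rw [← coeffEmb_qExpand]
        exact coeffEmb_mem_laurentBaseChange Lc (hF z hz)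
  | one => simp
  | add x y _ _ hx hy => simpa using add_mem hx hy
  | neg x _ hx => simpa using neg_mem hx
  | inv x _ hx => simpa using inv_mem hx
  | mul x y _ _ hx hy => simpa using mul_mem hx hy

end Supply

/-! ### Hecke pairs and the two degeneracy embeddings -/

/-- `F₀ ⊆ F₀'` and `y(q) ∈ F₀ ⟹ y(q^p) ∈ F₀'`: the formal shadow of
`Gam' ≤ Gam`, `δ Gam' δ⁻¹ ≤ Gam` for `δ = diag(p, 1)`. -/
structure HeckePair (F₀ F₀' : IntermediateField ℚ (LaurentSeries ℚ)) (p : ℕ) [NeZero p] : Prop where
  le : F₀ ≤ F₀'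
  qExpand_mem : ∀ y ∈ F₀, qExpand ℚ p y ∈ F₀'

section Degeneracy

variable (Lc : Type*) [Field Lc] [Algebra ℚ Lc]
  {F₀ F₀' : IntermediateField ℚ (LaurentSeries ℚ)} {p : ℕ} [NeZero p] (P : HeckePair F₀ F₀' p)

/-- The degeneracy embedding `α` (the inclusion). -/
def alphaG : FFc Lc F₀ →ₐ[Lc] FFc Lc F₀' :=
  IntermediateField.inclusion (laurentBaseChange_mono Lc P.le)

@[simp] theorem coe_alphaG (x : FFc Lc F₀) :
    (alphaG Lc P x : LaurentSeries Lc) = (x : LaurentSeries Lc) :=
  IntermediateField.coe_inclusion _ x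

/-- The degeneracy embedding `β` (`q ↦ q^p`) as a ring hom. -/
def betaGRingHom : FFc Lc F₀ →+* FFc Lc F₀' where
  toFun x := ⟨qExpand Lc p (x : LaurentSeries Lc),
    qExpand_mem_laurentBaseChange p P.qExpand_mem x.2⟩
  map_one' := Subtype.ext (map_one (qExpand Lc p))
  map_mul' _ _ := Subtype.ext (map_mul (qExpand Lc p) _ _)
  map_zero' := Subtype.ext (map_zero (qExpand Lc p))
  map_add' _ _ := Subtype.ext (map_add (qExpand Lc p) _ _)

/-- The degeneracy embedding `β` (`q ↦ q^p`). -/
def betaG : FFc Lc F₀ →ₐ[Lc] FFc Lc F₀' :=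
  { betaGRingHom Lc P with
    commutes' := fun a => Subtype.ext <| by
      show qExpand Lc p (algebraMap Lc (LaurentSeries Lc) a) = algebraMap Lc (LaurentSeries Lc) a
      rw [algebraMap_laurentSeries_eq_single, qExpand_single, mul_zero] }

@[simp] theorem coe_betaG (x : FFc Lc F₀) :
    (betaG Lc P x : LaurentSeries Lc) = qExpand Lc p (x : LaurentSeries Lc) := rfl

end Degeneracy

/-- The Prelude's pair `(modularFunctionFieldFull N, modularFunctionFieldFull (N ℓ))` is a Hecke
pair. -/
theorem heckePair_full (N ℓ : ℕ) [NeZero N] [NeZero ℓ] :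
    HeckePair (modularFunctionFieldFull N) (modularFunctionFieldFull (N * ℓ)) ℓ where
  le := full_degeneracy_le (dvd_mul_right N ℓ)
  qExpand_mem y hy := full_degeneracy_map_le (N := N) ℓ ⟨y, hy, rfl⟩

theorem alphaG_full (Lc : Type*) [Field Lc] [Algebra ℚ Lc] (N ℓ : ℕ) [NeZero N] [NeZero ℓ] :
    alphaG Lc (heckePair_full N ℓ) = heckeAlphaBar Lc N ℓ := rfl

theorem betaG_full (Lc : Type*) [Field Lc] [Algebra ℚ Lc] (N ℓ : ℕ) [NeZero N] [NeZero ℓ] :
    betaG Lc (heckePair_full N ℓ) = heckeBetaBar Lc N ℓ := rfl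

/-! ### Arithmetic-analytic models -/

/-- **An analytic model of the function field `ℚbar · F₀`**: a realisation by meromorphic
functions on `ℍ` with prescribed Laurent expansions at `∞`, together with the group `Gam` of all
elements of `SL(2, ℤ)` fixing the realisation. -/
structure ArithModel (F₀ : IntermediateField ℚ (LaurentSeries ℚ)) where
  /-- the group -/
  Gam : Subgroup SL(2, ℤ)
  /-- the realisation -/
  an : FFK F₀ →+* MerH
  /-- `an f` has the Laurent expansion `f` -/
  hasQExpMer : ∀ f : FFK F₀, HasQExpMer (toC (f : LaurentSeries Kbar)) (an f)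
  /-- the values are `Gam`-invariant -/
  invariant : ∀ γ ∈ Gam, ∀ f : FFK F₀, slMer γ (an f) = an f
  /-- `Gam` is the full stabiliser -/
  stab : ∀ δ : SL(2, ℤ), (∀ f : FFK F₀, slMer δ (an f) = an f) → δ ∈ Gam

namespace ArithModel

variable {F₀ F₀' : IntermediateField ℚ (LaurentSeries ℚ)} (A : ArithModel F₀)

theorem an_injective : Function.Injective A.an := A.an.injective

theorem an_ne_zero {f : FFK F₀} (hf : f ≠ 0) : A.an f ≠ 0 := (map_ne_zero A.an).mpr hf

/-- The realisation is determined by the Laurent expansion. -/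
theorem an_eq_of_hasQExpMer {f : FFK F₀} {h : MerH}
    (H : HasQExpMer (toC (f : LaurentSeries Kbar)) h) : A.an f = h :=
  (A.hasQExpMer f).unique H

/-- Two models of (possibly) different fields agree on elements with the same Laurent series. -/
theorem an_eq_an_of_coe_eq (A' : ArithModel F₀') {f : FFK F₀} {f' : FFK F₀'}
    (h : (f : LaurentSeries Kbar) = (f' : LaurentSeries Kbar)) : A.an f = A'.an f' := by
  apply A.an_eq_of_hasQExpMer
  rw [h]
  exact A'.hasQExpMer f'

theorem toC_algebraMap (c : Kbar) :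
    toC (algebraMap Kbar (LaurentSeries Kbar) c) = HahnSeries.C (iotaK c) := by
  rw [algebraMap_laurentSeries_eq_single, toC, coeffMap_single]
  rfl

/-- `an c = ι c` on constants. -/
theorem an_algebraMap (c : Kbar) :
    A.an (algebraMap Kbar (FFK F₀) c) = algebraMap HolH MerH (algebraMap ℂ HolH (iotaK c)) := by
  apply A.an_eq_of_hasQExpMer
  have h1 : ((algebraMap Kbar (FFK F₀) c : FFK F₀) : LaurentSeries Kbar) =
      algebraMap Kbar (LaurentSeries Kbar) c := rfl
  rw [h1, toC_algebraMap]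
  exact hasQExpMer_of_hasQExp (a := algebraMap ℂ HolH (iotaK c)) (HasQExp.const (iotaK c))

/-- **DISTINCT**: if all `an f ∘ γ = an f ∘ γ'` then `γ' γ⁻¹ ∈ Gam`. -/
theorem distinct (γ γ' : SL(2, ℤ)) (h : ∀ f : FFK F₀, slMer γ (A.an f) = slMer γ' (A.an f)) :
    γ' * γ⁻¹ ∈ A.Gam := by
  apply A.stab
  intro f
  have h1 := congrArg (slMer γ⁻¹) (h f)
  rw [← slMer_mul, ← slMer_mul, mul_inv_cancel, slMer_one] at h1
  exact h1.symm

theorem slMer_an_of_mem {γ : SL(2, ℤ)} (hγ : γ ∈ A.Gam) (f : FFK F₀) :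
    slMer γ (A.an f) = A.an f := A.invariant γ hγ f

section Pair

variable {p : ℕ} [hp : Fact p.Prime] (A' : ArithModel F₀')

/-- `an' ∘ α = an`. -/
theorem an_alphaG (P : haveI : NeZero p := ⟨hp.out.ne_zero⟩; HeckePair F₀ F₀' p) (f : FFK F₀) :
    haveI : NeZero p := ⟨hp.out.ne_zero⟩
    A'.an (alphaG Kbar P f) = A.an f := by
  haveI : NeZero p := ⟨hp.out.ne_zero⟩
  exact A'.an_eq_an_of_coe_eq A (coe_alphaG Kbar P f)

/-- `an' ∘ β = (· ∘ (z ↦ p z)) ∘ an`. -/
theorem an_betaG (P : haveI : NeZero p := ⟨hp.out.ne_zero⟩; HeckePair F₀ F₀' p) (f : FFK F₀) :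
    haveI : NeZero p := ⟨hp.out.ne_zero⟩
    A'.an (betaG Kbar P f) = betaMer p none (A.an f) := by
  haveI : NeZero p := ⟨hp.out.ne_zero⟩
  apply A'.an_eq_of_hasQExpMer
  rw [coe_betaG, toC, Analytic.coeffMap_qExpand]
  exact (A.hasQExpMer f).betaMer_none

end Pair

end ArithModel

end Fermat.Agent.DS.G.HECKE.Iface
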