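/-
DS (S48) / GEO / chapter G-HECKE (lead helper19) / brick H01 `Inputs` (helper92).

GENERIC Hecke inputs: for ANY pair of `K`-embeddings `φ ψ : F →ₐ[K] F'` of function fields in one
variable over an algebraically closed field `K` of characteristic zero (`IsGen K x`, `IsGen K x'`),
all the hypotheses under which the Prelude's `Pic0.correspondence φ ψ` (`= ψ_* φ^*`) is defined hold:

* `finiteAlong_of_isGen`      : `F'` is finite over `φ F`;
* `isIntegral_of_isGen`       : `φ` is integral;
* `hasPrincipalDivisors_of_isGen`;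
* `fundamentalIdentityAlong_of_isGen`, `normFormulaAlong_of_isGen`;
* `heckeInputs`               : the package, in the shape of report 551 (H01);
* `corr φ ψ hx hx' : Pic0 K F →+ Pic0 K F`, `corr_mk`, `corr_eq_correspondence`;
* `divCorr`, `divCorr_eq_ord_norm` : `ψ_* φ^* div f = div N_ψ (φ f)` (divisor level);
* `divCorr_single` : the point formula `ψ_* φ^* [v] = ∑_{w | v} e(w | v) [ψ^* w]`.

This is the twin of `ES/HECKE/{InputsMain19, InputsFinal15, AlongDegree25 (finiteness part)}` with
the level-specific degree input (`DegreeL25`) REMOVED: finiteness comes from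
`IsGen.of_transcendental` (no degree computation is needed).
-/
import Mathlib
import Fermat.Prelude.Def_AlgebraicCurve_Correspondence
import Fermat.Agent.X0.FFGenus
import Fermat.Agent.ES.HECKE.FundIdentity19
import Fermat.Agent.ES.HECKE.NormFormula15
import Fermat.Agent.ES.HECKE.PointFormula28

set_option autoImplicit false
set_option linter.style.haveILetI false

open AlgebraicCurve IntermediateField

noncomputable section

namespace Fermat.Agent.DS.G.HECKE.Inputs

open Fermat.Agent.X0 Fermat.Agent.X0.FF

variable {K F F' : Type*} [Field K] [Field F] [Field F'] [Algebra K F] [Algebra K F']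

/-! ### finiteness of an embedding of function fields -/

/-- The image of a transcendental element under a `K`-embedding of fields is transcendental. -/
theorem transcendental_map (φ : F →ₐ[K] F') {x : F} (hx : Transcendental K x) :
    Transcendental K (φ x) := by
  intro h
  exact hx ((isAlgebraic_algHom_iff φ φ.toRingHom.injective).mp h)

/-- `φ x` is again a generator. -/
theorem isGen_map (φ : F →ₐ[K] F') {x : F} (hx : IsGen K x) {x' : F'} (hx' : IsGen K x') :
    IsGen K (φ x) :=
  hx'.of_transcendental (transcendental_map φ hx.transcendental)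

/-- **Finiteness**: any `K`-embedding of function fields in one variable is finite. -/
theorem finiteAlong_of_isGen (φ : F →ₐ[K] F') {x : F} (hx : IsGen K x) {x' : F'}
    (hx' : IsGen K x') : FiniteAlong K φ := by
  unfold FiniteAlong
  letI := algebraAlong φ
  have hg : IsGen K (φ x) := isGen_map φ hx hx'
  haveI : FiniteDimensional K⟮φ x⟯ F' := hg.finite
  obtain ⟨S, hS⟩ := (Module.finite_def (R := K⟮φ x⟯) (M := F')).mp inferInstance
  refine ⟨⟨S, ?_⟩⟩
  rw [eq_top_iff]
  intro y _
  have hy : y ∈ Submodule.span K⟮φ x⟯ (S : Set F') := by rw [hS]; trivial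
  -- every scalar of `K⟮φ x⟯` is the image of a scalar of `F`
  have hmap : (K⟮x⟯).map φ = K⟮φ x⟯ := by
    rw [IntermediateField.adjoin_map, Set.image_singleton]
  refine Submodule.span_induction (p := fun z _ => z ∈ Submodule.span F (S : Set F'))
    (fun z hz => Submodule.subset_span hz) (Submodule.zero_mem _)
    (fun _ _ _ _ h1 h2 => Submodule.add_mem _ h1 h2) ?_ hy
  intro c z _ hz
  have hc : (c : F') ∈ (K⟮x⟯).map φ := by rw [hmap]; exact c.2
  obtain ⟨c', _, hc'⟩ := hc
  have : c • z = c' • z := by
    rw [Algebra.smul_def, Algebra.smul_def]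
    change (c : F') * z = φ c' * z
    rw [← hc']
    rfl
  rw [this]
  exact Submodule.smul_mem _ _ hz

/-- A finite embedding is integral. -/
theorem isIntegral_of_isGen (φ : F →ₐ[K] F') {x : F} (hx : IsGen K x) {x' : F'}
    (hx' : IsGen K x') : φ.toRingHom.IsIntegral :=
  Fermat.Agent.ES.HECKE.FundIdentity19.isIntegral_of_finiteAlong φ (finiteAlong_of_isGen φ hx hx')

section AlgClosed

variable [IsAlgClosed K] [CharZero K]

/-- Principal divisors of a function field with a generator. -/
theorem hasPrincipalDivisors_of_isGen {x' : F'} (hx' : IsGen K x') : HasPrincipalDivisors K F' :=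
  FFGenus.hasPrincipalDivisors hx'

/-- The fundamental identity `∑ e f = n` along any embedding. -/
theorem fundamentalIdentityAlong_of_isGen [HasPrincipalDivisors K F'] (φ : F →ₐ[K] F') {x : F}
    (hx : IsGen K x) {x' : F'} (hx' : IsGen K x') (hφ : φ.toRingHom.IsIntegral) :
    FundamentalIdentityAlong K φ hφ :=
  Fermat.Agent.ES.HECKE.FundIdentity19.fundamentalIdentityAlong φ hφ
    (finiteAlong_of_isGen φ hx hx') hx hx'

/-- The norm formula `ψ_* div g = div N_ψ g` along any embedding. -/
theorem normFormulaAlong_of_isGen (ψ : F →ₐ[K] F') {x' : F'} (hx' : IsGen K x')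
    (hfin : FiniteAlong K ψ) : NormFormulaAlong K ψ hfin :=
  Fermat.Agent.ES.HECKE.NormFormula15.normFormulaAlong_of_isGen ψ hfin hx'

/-- **(H01) all Hecke inputs** for any pair of embeddings of function fields. -/
theorem heckeInputs (φ ψ : F →ₐ[K] F') {x : F} {x' : F'} (hx : IsGen K x) (hx' : IsGen K x') :
    ∃ (hφ : φ.toRingHom.IsIntegral) (_ : ψ.toRingHom.IsIntegral) (_ : HasPrincipalDivisors K F')
      (hfin : FiniteAlong K ψ),
      FundamentalIdentityAlong K φ hφ ∧ NormFormulaAlong K ψ hfin := by
  haveI := hasPrincipalDivisors_of_isGen hx'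
  exact ⟨isIntegral_of_isGen φ hx hx', isIntegral_of_isGen ψ hx hx', inferInstance,
    finiteAlong_of_isGen ψ hx hx',
    fundamentalIdentityAlong_of_isGen φ hx hx' _, normFormulaAlong_of_isGen ψ hx' _⟩

/-! ### the correspondence `ψ_* φ^*` -/

/-- **The correspondence `ψ_* φ^*` on divisors**, for any pair of embeddings of function fields. -/
def divCorr (φ ψ : F →ₐ[K] F') {x : F} {x' : F'} (hx : IsGen K x) (hx' : IsGen K x') :
    Divisor K F →+ Divisor K F :=
  haveI := hasPrincipalDivisors_of_isGen hx'
  Divisor.correspondence φ ψ (isIntegral_of_isGen φ hx hx') (isIntegral_of_isGen ψ hx hx')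

theorem divCorr_eq_correspondence [HasPrincipalDivisors K F'] (φ ψ : F →ₐ[K] F') {x : F}
    {x' : F'} (hx : IsGen K x) (hx' : IsGen K x') (hφ : φ.toRingHom.IsIntegral)
    (hψ : ψ.toRingHom.IsIntegral) :
    divCorr φ ψ hx hx' = Divisor.correspondence φ ψ hφ hψ := by
  unfold divCorr
  congr!

/-- **The correspondence `ψ_* φ^*` on `Pic⁰`**, for any pair of embeddings of function fields. -/
def corr (φ ψ : F →ₐ[K] F') {x : F} {x' : F'} (hx : IsGen K x) (hx' : IsGen K x') :
    Pic0 K F →+ Pic0 K F :=
  haveI := hasPrincipalDivisors_of_isGen hx'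
  Pic0.correspondence φ ψ (isIntegral_of_isGen φ hx hx') (isIntegral_of_isGen ψ hx hx')
    (fundamentalIdentityAlong_of_isGen φ hx hx' _) (finiteAlong_of_isGen ψ hx hx')
    (normFormulaAlong_of_isGen ψ hx' _)

/-- `corr` is the Prelude's `Pic0.correspondence`, whatever the proofs of its hypotheses. -/
theorem corr_eq_correspondence [HasPrincipalDivisors K F'] (φ ψ : F →ₐ[K] F') {x : F} {x' : F'}
    (hx : IsGen K x) (hx' : IsGen K x') (hφ : φ.toRingHom.IsIntegral)
    (hψ : ψ.toRingHom.IsIntegral) (hFI : FundamentalIdentityAlong K φ hφ)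
    (hfin : FiniteAlong K ψ) (hN : NormFormulaAlong K ψ hfin) :
    corr φ ψ hx hx' = Pic0.correspondence φ ψ hφ hψ hFI hfin hN := by
  unfold corr
  congr!

/-- `ψ_* φ^*` preserves degree-zero divisors. -/
theorem divCorr_mem_degZero (φ ψ : F →ₐ[K] F') {x : F} {x' : F'} (hx : IsGen K x)
    (hx' : IsGen K x') {D : Divisor K F} (hD : D ∈ Divisor.degZero (K := K) (F := F)) :
    divCorr φ ψ hx hx' D ∈ Divisor.degZero (K := K) (F := F) := by
  haveI := hasPrincipalDivisors_of_isGen hx'
  exact Divisor.correspondence_mem_degZero φ ψ _ _ (fundamentalIdentityAlong_of_isGen φ hx hx' _) hD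

/-- `corr` on the class of a degree-zero divisor. -/
theorem corr_mk (φ ψ : F →ₐ[K] F') {x : F} {x' : F'} (hx : IsGen K x) (hx' : IsGen K x')
    (D : Divisor.degZero (K := K) (F := F)) :
    corr φ ψ hx hx' (Pic0.mk D) =
      Pic0.mk ⟨divCorr φ ψ hx hx' D, divCorr_mem_degZero φ ψ hx hx' D.2⟩ :=
  rfl

/-- **`ψ_* φ^* div f = div N_ψ (φ f)`** (divisor level). -/
theorem divCorr_eq_ord_norm (φ ψ : F →ₐ[K] F') {x : F} {x' : F'} (hx : IsGen K x)
    (hx' : IsGen K x') {f : F} (hf : f ≠ 0) {D : Divisor K F}
    (hD : ∀ v : Place K F, D v = v.ord f) (v : Place K F) :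
    divCorr φ ψ hx hx' D v =
      v.ord (Fermat.Agent.ES.HECKE.PointFormula28.normAlong ψ (φ f)) := by
  haveI := hasPrincipalDivisors_of_isGen hx'
  exact Fermat.Agent.ES.HECKE.PointFormula28.correspondence_eq_ord_norm φ ψ _ _
    (finiteAlong_of_isGen ψ hx hx') (normFormulaAlong_of_isGen ψ hx' _) hf hD v

/-- **Point formula** `ψ_* φ^* (n [v]) = ∑_{w | v} n e(w | v) [w ∩ ψ F]`. -/
theorem divCorr_single (φ ψ : F →ₐ[K] F') {x : F} {x' : F'} (hx : IsGen K x)
    (hx' : IsGen K x') (v : Place K F) (n : ℤ) :
    haveI := hasPrincipalDivisors_of_isGen hx'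
    divCorr φ ψ hx hx' (Finsupp.single v n) =
      ∑ w ∈ Place.fiberAlong φ (isIntegral_of_isGen φ hx hx') v,
        Finsupp.single (w.restrictAlong ψ (isIntegral_of_isGen ψ hx hx'))
          (n * (w.ramificationIndexAlong φ : ℤ)) := by
  haveI := hasPrincipalDivisors_of_isGen hx'
  exact Fermat.Agent.ES.HECKE.PointFormula28.correspondence_single_of_deg φ ψ _ _
    (fun w => FF.deg_eq_one hx' w) v n

/-- The degree of the correspondence: `deg (ψ_* φ^* D) = [F' : φ F] deg D`. -/
theorem degree_divCorr (φ ψ : F →ₐ[K] F') {x : F} {x' : F'} (hx : IsGen K x)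
    (hx' : IsGen K x') (D : Divisor K F) :
    Divisor.degree (divCorr φ ψ hx hx' D) = (finrankAlong K φ : ℤ) * Divisor.degree D := by
  haveI := hasPrincipalDivisors_of_isGen hx'
  exact Divisor.degree_correspondence φ ψ _ _ (fundamentalIdentityAlong_of_isGen φ hx hx' _) D

end AlgClosed

end Fermat.Agent.DS.G.HECKE.Inputs
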