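/-
DS / GEO, chapter G-HECKE, brick H07 (helper34): **diamond automorphisms**.

Let `A : ArithModel F₀` (function field `F = ℚbar · F₀`, realisation `A.an : F → MerH`, group
`A.Gam`).  An element `s ∈ SL(2, ℤ)` *acts on the model* (`Acts A s`) if `A.an F` is stable under
`h ↦ h ∘ s` and `h ↦ h ∘ s⁻¹`.  Then

* `conj_mem` : `s` normalises `A.Gam` (automatic: `A.Gam` is the full stabiliser);
* `dia A s hs : F ≃ₐ[ℚbar] F` with `A.an (dia A s hs f) = slMer s (A.an f)` (`an_dia`),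
  `dia_of_mem` (trivial for `s ∈ A.Gam`), `dia_mul` (`dia (s t) = dia t ∘ dia s`), `dia_congr`;
* `acts_of_generators` : stability can be checked on generators of `F` over `ℚbar`;
* `arithmeticGalois_smul_dia` : `dia` commutes with the arithmetic Galois action as soon as it
  preserves the rational elements (`preservesRat_dia_of_generators`: check on generators of `F₀`);
* `diaPic A s hs hx : Pic⁰(F) →+ Pic⁰(F)` `:= Inputs.corr (dia s) id = id_* (dia s)^*`;
  `diaPic_galois_smul` : Galois equivariance;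
* `diaPic_apply` : `diaPic A s hs hx y = SemilinearAut.ofAlgAut (dia A s hs) • y` (the Prelude's
  action of the automorphism on `Pic⁰`; generic statement in `AutCorr`), `ofAlgAut_dia_mul_comm`,
  `ofAlgAut_dia_smul_comm` (Galois equivariance in this form), `kummer_dia_smul`;
* `kummer_dia` : for a Kummer map `κ` of the model,
  `κ (diaPic x) = (conjReps A.Gam s _).dMul (κ x)`, i.e. `κ (diaPic x) γ = κ x (s γ s⁻¹)`
  (`kummer_dia_apply`).  This is `KummerHeckeG.kummer_corr` with `I = Unit`, `F' = F`, `α = id`,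
  `β = dia s`, `H = conjReps`.
-/
import Fermat.Agent.DS.G.HECKE.Iface
import Fermat.Agent.DS.G.HECKE.Inputs
import Fermat.Agent.DS.G.HECKE.Galois
import Fermat.Agent.DS.G.HECKE.DiamondAbs
import Fermat.Agent.DS.G.HECKE.DiamondGal
import Fermat.Agent.DS.G.HECKE.AutCorr
import Fermat.Agent.DS.G.ES.HEQ.KummerHeckeG
import Fermat.Agent.DS.Per1.RepsGamma1

set_option autoImplicit false
set_option linter.unusedSectionVars false
set_option linter.style.haveILetI false
set_option linter.dupNamespace false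

open UpperHalfPlane hiding I
open scoped MatrixGroups
open AlgebraicCurve ModularCurve HahnSeries

noncomputable section

namespace Fermat.Agent.DS.G.HECKE.Diamond

open Fermat.Agent.X0 Fermat.Agent.X0.SurjPoint Fermat.Agent.X0.FF Fermat.Agent.ES.KUM
open Fermat.Agent.DS.G.HECKE.Iface Fermat.Agent.DS.G.HECKE.DiamondAbs
open Fermat.Agent.DS.G.HECKE.DiamondGal
open Fermat.Agent.DS.G.ES.HEQ.KummerHeckeG Fermat.Agent.ES.HEQ.KummerHeckeAbs19
open Fermat.Agent.DS.Per1.HeckeReps Fermat.Agent.DS.Per1.RepsGamma1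

variable {F₀ : IntermediateField ℚ (LaurentSeries ℚ)} (A : ArithModel F₀)

/-! ### Elements of `SL(2, ℤ)` acting on a model -/

/-- `s` acts on the model `A`: the image of the realisation is stable under `h ↦ h ∘ s` and
`h ↦ h ∘ s⁻¹`. -/
structure Acts (s : SL(2, ℤ)) : Prop where
  stable : Stable A.an (slMer s)
  stable_inv : Stable A.an (slMer s⁻¹)

variable {A}

theorem Acts.inv {s : SL(2, ℤ)} (hs : Acts A s) : Acts A s⁻¹ :=
  ⟨hs.stable_inv, by rw [inv_inv]; exact hs.stable⟩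

theorem Acts.of_mem {s : SL(2, ℤ)} (hs : s ∈ A.Gam) : Acts A s :=
  ⟨fun f => ⟨f, (A.invariant s hs f).symm⟩,
    fun f => ⟨f, (A.invariant s⁻¹ (inv_mem hs) f).symm⟩⟩

theorem Acts.one : Acts A 1 := Acts.of_mem (one_mem _)

theorem Acts.mul {s t : SL(2, ℤ)} (hs : Acts A s) (ht : Acts A t) : Acts A (s * t) := by
  refine ⟨fun f => ?_, fun f => ?_⟩
  · obtain ⟨f₁, h₁⟩ := hs.stable f
    obtain ⟨f₂, h₂⟩ := ht.stable f₁
    exact ⟨f₂, by rw [slMer_mul, ← h₁, h₂]⟩
  · obtain ⟨f₁, h₁⟩ := ht.stable_inv f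
    obtain ⟨f₂, h₂⟩ := hs.stable_inv f₁
    exact ⟨f₂, by rw [mul_inv_rev, slMer_mul, ← h₁, h₂]⟩

/-- If `A.an F` is stable under `h ↦ h ∘ s` and some positive power of `s` lies in `A.Gam`, then
`s` acts on the model. -/
theorem Acts.of_pow_mem {s : SL(2, ℤ)} (hs : Stable A.an (slMer s)) {k : ℕ}
    (hk : s ^ (k + 1) ∈ A.Gam) : Acts A s := by
  refine ⟨hs, ?_⟩
  have hpow : ∀ m : ℕ, Stable A.an (slMer (s ^ m)) := by
    intro m
    induction m with
    | zero => exact fun f => ⟨f, by rw [pow_zero, slMer_one]⟩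
    | succ m ih =>
        intro f
        obtain ⟨f₁, h₁⟩ := ih f
        obtain ⟨f₂, h₂⟩ := hs f₁
        exact ⟨f₂, by rw [pow_succ, slMer_mul, ← h₁, h₂]⟩
  intro f
  obtain ⟨f₁, h₁⟩ := hpow k f
  refine ⟨f₁, ?_⟩
  have e : s⁻¹ = (s ^ (k + 1))⁻¹ * s ^ k := by
    rw [pow_succ, mul_inv_rev, mul_assoc, inv_mul_cancel, mul_one]
  rw [h₁, e, slMer_mul, A.invariant _ (inv_mem hk) f]

/-- **Stability can be checked on generators** of `F` over `ℚbar`. -/
theorem acts_of_generators {s : SL(2, ℤ)} (S : Set (FFK F₀))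
    (hS : IntermediateField.adjoin Kbar S = ⊤)
    (hgen : ∀ g ∈ S, ∃ f' : FFK F₀, A.an f' = slMer s (A.an g))
    (hgen' : ∀ g ∈ S, ∃ f' : FFK F₀, A.an f' = slMer s⁻¹ (A.an g)) : Acts A s := by
  refine ⟨stable_of_generators (K := Kbar) A.an (slMer s) S hS (fun c => ?_) hgen,
    stable_of_generators (K := Kbar) A.an (slMer s⁻¹) S hS (fun c => ?_) hgen'⟩
  · exact ⟨algebraMap Kbar (FFK F₀) c, by rw [A.an_algebraMap, slMer_const]⟩
  · exact ⟨algebraMap Kbar (FFK F₀) c, by rw [A.an_algebraMap, slMer_const]⟩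

/-- An element acting on the model normalises `A.Gam` (which is the full stabiliser). -/
theorem conj_mem {s : SL(2, ℤ)} (hs : Acts A s) : ∀ γ ∈ A.Gam, s * γ * s⁻¹ ∈ A.Gam := by
  intro γ hγ
  apply A.stab
  intro f
  obtain ⟨f₁, h₁⟩ := hs.stable f
  rw [slMer_mul, slMer_mul, ← h₁, A.invariant γ hγ f₁, h₁, slMer_cancel_inv]

/-! ### The diamond automorphism -/

variable (A)

/-- **The diamond automorphism** `dia A s hs : F ≃ₐ[ℚbar] F` attached to `s` acting on the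
model: `A.an (dia A s hs f) = (A.an f) ∘ s`. -/
def dia (s : SL(2, ℤ)) (hs : Acts A s) : FFK F₀ ≃ₐ[Kbar] FFK F₀ :=
  pullAlgEquiv (K := Kbar) A.an (slMer s) (slMer s⁻¹) hs.stable hs.stable_inv
    (fun c => by rw [A.an_algebraMap, slMer_const])
    (fun f => slMer_cancel_inv s (A.an f)) (fun f => slMer_inv_cancel s (A.an f))

@[simp] theorem an_dia (s : SL(2, ℤ)) (hs : Acts A s) (f : FFK F₀) :
    A.an (dia A s hs f) = slMer s (A.an f) :=
  an_pullAlgEquiv (K := Kbar) A.an (slMer s) (slMer s⁻¹) hs.stable hs.stable_inv _ _ _ f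

@[simp] theorem an_dia_symm (s : SL(2, ℤ)) (hs : Acts A s) (f : FFK F₀) :
    A.an ((dia A s hs).symm f) = slMer s⁻¹ (A.an f) :=
  an_pullAlgEquiv_symm (K := Kbar) A.an (slMer s) (slMer s⁻¹) hs.stable hs.stable_inv _ _ _ f

/-- `dia A s hs f` is characterised by its realisation. -/
theorem dia_eq_of_an_eq {s : SL(2, ℤ)} (hs : Acts A s) {f f' : FFK F₀}
    (h : A.an f' = slMer s (A.an f)) : dia A s hs f = f' :=
  A.an_injective (by rw [an_dia, h])

theorem dia_symm (s : SL(2, ℤ)) (hs : Acts A s) : (dia A s hs).symm = dia A s⁻¹ hs.inv :=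
  AlgEquiv.ext fun f => (dia_eq_of_an_eq A hs.inv (an_dia_symm A s hs f)).symm

/-- The diamond automorphism of an element of `A.Gam` is trivial. -/
theorem dia_of_mem {s : SL(2, ℤ)} (hs : s ∈ A.Gam) (hs' : Acts A s) :
    dia A s hs' = AlgEquiv.refl :=
  AlgEquiv.ext fun f => dia_eq_of_an_eq A hs' (A.invariant s hs f).symm

theorem dia_one (h1 : Acts A 1) : dia A 1 h1 = AlgEquiv.refl := dia_of_mem A (one_mem _) h1

/-- `dia (s t) = dia t ∘ dia s` (a right action). -/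
theorem dia_mul {s t : SL(2, ℤ)} (hs : Acts A s) (ht : Acts A t) (hst : Acts A (s * t))
    (f : FFK F₀) : dia A (s * t) hst f = dia A t ht (dia A s hs f) :=
  dia_eq_of_an_eq A hst (by rw [an_dia, an_dia, slMer_mul])

/-- The diamond automorphism only depends on the class of `s` modulo `A.Gam`. -/
theorem dia_congr {s t : SL(2, ℤ)} (hs : Acts A s) (ht : Acts A t) (h : t * s⁻¹ ∈ A.Gam) :
    dia A s hs = dia A t ht := by
  refine AlgEquiv.ext fun f => ?_
  apply dia_eq_of_an_eq A hs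
  rw [an_dia]
  have e : t = t * s⁻¹ * s := by rw [inv_mul_cancel_right]
  conv_lhs => rw [e, slMer_mul, A.invariant _ h f]

/-- The diamond automorphisms of two elements acting on the model commute if the two elements
commute modulo `A.Gam`. -/
theorem dia_comm {s t : SL(2, ℤ)} (hs : Acts A s) (ht : Acts A t)
    (h : (t * s) * (s * t)⁻¹ ∈ A.Gam) (f : FFK F₀) :
    dia A s hs (dia A t ht f) = dia A t ht (dia A s hs f) := by
  rw [← dia_mul A hs ht (hs.mul ht), ← dia_mul A ht hs (ht.mul hs),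
    dia_congr A (hs.mul ht) (ht.mul hs) h]

/-! ### Galois equivariance on the function field -/

/-- `dia` preserves the rational elements as soon as it does so on generators of `F₀` over `ℚ`:
it suffices that `(A.an y) ∘ s` is again the realisation of a rational element. -/
theorem preservesRat_dia_of_generators {s : SL(2, ℤ)} (hs : Acts A s)
    (S : Set (LaurentSeries ℚ)) (hS : IntermediateField.adjoin ℚ S = F₀)
    (hgen : ∀ (y : LaurentSeries ℚ) (hy : y ∈ F₀), y ∈ S →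
      ∃ (y' : LaurentSeries ℚ) (hy' : y' ∈ F₀),
        A.an (ratElt F₀ y' hy') = slMer s (A.an (ratElt F₀ y hy))) :
    PreservesRat F₀ ((dia A s hs : FFK F₀ →ₐ[Kbar] FFK F₀) : FFK F₀ →+* FFK F₀) := by
  refine preservesRat_of_generators F₀ (dia A s hs : FFK F₀ →ₐ[Kbar] FFK F₀) S hS ?_
  intro y hy hyS
  obtain ⟨y', hy', h⟩ := hgen y hy hyS
  exact ⟨y', hy', dia_eq_of_an_eq A hs h⟩

/-- **`dia` commutes with the arithmetic Galois action** when it preserves the rational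
elements. -/
theorem arithmeticGalois_smul_dia {s : SL(2, ℤ)} (hs : Acts A s)
    (hrat : PreservesRat F₀ ((dia A s hs : FFK F₀ →ₐ[Kbar] FFK F₀) : FFK F₀ →+* FFK F₀))
    (σ : Kbar ≃ₐ[ℚ] Kbar) (f : FFK F₀) :
    dia A s hs (arithmeticGalois F₀ σ • f) = arithmeticGalois F₀ σ • dia A s hs f :=
  (arithmeticGalois_smul_comm F₀ (dia A s hs : FFK F₀ →ₐ[Kbar] FFK F₀) hrat σ f).symm

/-! ### The action on `Pic⁰` -/

variable {x : FFK F₀}

/-- **The diamond operator on `Pic⁰(F)`**: `id_* (dia s)^*`. -/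
def diaPic (s : SL(2, ℤ)) (hs : Acts A s) (hx : IsGen Kbar x) :
    Pic0 Kbar (FFK F₀) →+ Pic0 Kbar (FFK F₀) :=
  Inputs.corr (dia A s hs : FFK F₀ →ₐ[Kbar] FFK F₀) (AlgHom.id Kbar (FFK F₀)) hx hx

/-- `diaPic` is the Prelude's `Pic0.correspondence (dia s) id`, whatever the proofs of its
hypotheses. -/
theorem diaPic_eq_correspondence [HasPrincipalDivisors Kbar (FFK F₀)] (s : SL(2, ℤ))
    (hs : Acts A s) (hx : IsGen Kbar x)
    (hφ : (dia A s hs : FFK F₀ →ₐ[Kbar] FFK F₀).toRingHom.IsIntegral)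
    (hψ : (AlgHom.id Kbar (FFK F₀)).toRingHom.IsIntegral)
    (hFI : FundamentalIdentityAlong Kbar (dia A s hs : FFK F₀ →ₐ[Kbar] FFK F₀) hφ)
    (hfin : FiniteAlong Kbar (AlgHom.id Kbar (FFK F₀)))
    (hN : NormFormulaAlong Kbar (AlgHom.id Kbar (FFK F₀)) hfin) :
    diaPic A s hs hx = Pic0.correspondence (dia A s hs : FFK F₀ →ₐ[Kbar] FFK F₀)
      (AlgHom.id Kbar (FFK F₀)) hφ hψ hFI hfin hN :=
  Inputs.corr_eq_correspondence _ _ hx hx hφ hψ hFI hfin hN

theorem diaPic_mem_torsion (s : SL(2, ℤ)) (hs : Acts A s) (hx : IsGen Kbar x) (n : ℕ)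
    (y : ↥(Pic0.torsion Kbar (FFK F₀) n)) :
    diaPic A s hs hx (y : Pic0 Kbar (FFK F₀)) ∈ Pic0.torsion Kbar (FFK F₀) n := by
  rw [Pic0.mem_torsion, ← map_zsmul, Pic0.mem_torsion.mp y.2, map_zero]

/-- **Galois equivariance of the diamond operator on `Pic⁰`.** -/
theorem diaPic_galois_smul {s : SL(2, ℤ)} (hs : Acts A s) (hx : IsGen Kbar x)
    (hrat : PreservesRat F₀ ((dia A s hs : FFK F₀ →ₐ[Kbar] FFK F₀) : FFK F₀ →+* FFK F₀))
    (σ : Kbar ≃ₐ[ℚ] Kbar) (y : Pic0 Kbar (FFK F₀)) :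
    diaPic A s hs hx (σ • y) = σ • diaPic A s hs hx y := by
  haveI := Inputs.hasPrincipalDivisors_of_isGen hx
  obtain ⟨hφ, hψ, _, hfin, hFI, hN⟩ :=
    Inputs.heckeInputs (dia A s hs : FFK F₀ →ₐ[Kbar] FFK F₀) (AlgHom.id Kbar (FFK F₀)) hx hx
  rw [diaPic_eq_correspondence A s hs hx hφ hψ hFI hfin hN]
  exact Galois.pic0_correspondence_galois_smul F₀ F₀ _ _ hφ hψ hFI hfin hN
    (fun τ f => arithmeticGalois_smul_dia A hs hrat τ f) (fun τ f => rfl) hx σ y

/-! ### The Kummer map -/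

/-- `F` has degree one over itself along the identity. -/
theorem finrankAlong_id : finrankAlong Kbar (AlgHom.id Kbar (FFK F₀)) = 1 := by
  unfold finrankAlong
  letI := algebraAlong (AlgHom.id Kbar (FFK F₀))
  exact Module.finrank_self (FFK F₀)

/-- The analytic setup of the correspondence `(α, β) = (id, dia s)`. -/
def diaSetup (s : SL(2, ℤ)) (hs : Acts A s) :
    Setup (K := Kbar) (AlgHom.id Kbar (FFK F₀)) (dia A s hs : FFK F₀ →ₐ[Kbar] FFK F₀)
      (fun γ : A.Gam => (conjReps A.Gam s (conj_mem hs)).perm γ)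
      (fun (γ : A.Gam) (i : Unit) => (conjReps A.Gam s (conj_mem hs)).coc γ i) MerH ℂˣ where
  an := A.an
  σ _ := A.an
  R γ := slMer (γ : SL(2, ℤ))
  B _ := slMer s
  c := constHom
  σ_alpha _ _ := rfl
  σ_beta _ f := an_dia A s hs f
  σ_inj _ _ _ := Subsingleton.elim _ _
  card_eq := by rw [finrankAlong_id]; rfl
  R_B γ _ h := by
    show slMer (γ : SL(2, ℤ)) (slMer s h) = slMer s (slMer (s * (γ : SL(2, ℤ)) * s⁻¹) h)
    rw [← slMer_mul, ← slMer_mul, inv_mul_cancel_right]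
  R_c γ a := slMer_constHom _ a
  B_c _ a := slMer_constHom s a

/-- **The Kummer map intertwines the diamond operator with conjugation by `s`**:
`κ (diaPic x) = (conjReps A.Gam s _).dMul (κ x)`. -/
theorem kummer_dia {s : SL(2, ℤ)} (hs : Acts A s) (hx : IsGen Kbar x) {n : ℕ}
    {κ : ↥(Pic0.torsion Kbar (FFK F₀) n) → (A.Gam →* ℂˣ)} (hκ : IsKummerMap A.Gam A.an n κ)
    (y : ↥(Pic0.torsion Kbar (FFK F₀) n))
    (hy : diaPic A s hs hx (y : Pic0 Kbar (FFK F₀)) ∈ Pic0.torsion Kbar (FFK F₀) n) :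
    κ ⟨diaPic A s hs hx (y : Pic0 Kbar (FFK F₀)), hy⟩ =
      (conjReps A.Gam s (conj_mem hs)).dMul (κ y) := by
  haveI := Inputs.hasPrincipalDivisors_of_isGen hx
  obtain ⟨hφ, hψ, _, hfin, hFI, hN⟩ :=
    Inputs.heckeInputs (dia A s hs : FFK F₀ →ₐ[Kbar] FFK F₀) (AlgHom.id Kbar (FFK F₀)) hx hx
  have e := diaPic_eq_correspondence A s hs hx hφ hψ hFI hfin hN
  have hy' : Pic0.correspondence (dia A s hs : FFK F₀ →ₐ[Kbar] FFK F₀)
      (AlgHom.id Kbar (FFK F₀)) hφ hψ hFI hfin hN (y : Pic0 Kbar (FFK F₀)) ∈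
        Pic0.torsion Kbar (FFK F₀) n := by rw [← e]; exact hy
  have key := kummer_corr' (H := conjReps A.Gam s (conj_mem hs)) (diaSetup A s hs)
    (fun _ _ => rfl) (fun _ => rfl) hψ hφ hFI hfin hN hκ y hy'
  rw [← key]
  congr 1

/-- `κ (diaPic x) γ = κ x (s γ s⁻¹)`. -/
theorem kummer_dia_apply {s : SL(2, ℤ)} (hs : Acts A s) (hx : IsGen Kbar x) {n : ℕ}
    {κ : ↥(Pic0.torsion Kbar (FFK F₀) n) → (A.Gam →* ℂˣ)} (hκ : IsKummerMap A.Gam A.an n κ)
    (y : ↥(Pic0.torsion Kbar (FFK F₀) n))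
    (hy : diaPic A s hs hx (y : Pic0 Kbar (FFK F₀)) ∈ Pic0.torsion Kbar (FFK F₀) n)
    (γ : A.Gam) :
    κ ⟨diaPic A s hs hx (y : Pic0 Kbar (FFK F₀)), hy⟩ γ =
      κ y ⟨s * (γ : SL(2, ℤ)) * s⁻¹, conj_mem hs γ γ.2⟩ := by
  rw [kummer_dia A hs hx hκ y hy, HeckeReps.dMul_apply, Fintype.prod_unique]
  rfl

/-! ### The semilinear form of the diamond operator -/

/-- **`diaPic` is the Prelude's action of the automorphism `dia s` on `Pic⁰`.** -/
theorem diaPic_apply (s : SL(2, ℤ)) (hs : Acts A s) (hx : IsGen Kbar x)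
    (y : Pic0 Kbar (FFK F₀)) :
    diaPic A s hs hx y = SemilinearAut.ofAlgAut (dia A s hs) • y := by
  haveI := Inputs.hasPrincipalDivisors_of_isGen hx
  obtain ⟨hφ, hψ, _, hfin, hFI, hN⟩ :=
    Inputs.heckeInputs (dia A s hs : FFK F₀ →ₐ[Kbar] FFK F₀) (AlgHom.id Kbar (FFK F₀)) hx hx
  rw [diaPic_eq_correspondence A s hs hx hφ hψ hFI hfin hN]
  exact AutCorr.correspondence_algEquiv_id (dia A s hs) hx hφ hψ hFI hfin hN y

/-- The automorphism `dia s` commutes with the arithmetic Galois action, as elements of the group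
of semilinear automorphisms of `F`. -/
theorem ofAlgAut_dia_mul_comm {s : SL(2, ℤ)} (hs : Acts A s)
    (hrat : PreservesRat F₀ ((dia A s hs : FFK F₀ →ₐ[Kbar] FFK F₀) : FFK F₀ →+* FFK F₀))
    (σ : Kbar ≃ₐ[ℚ] Kbar) :
    SemilinearAut.ofAlgAut (dia A s hs) * arithmeticGalois F₀ σ =
      arithmeticGalois F₀ σ * SemilinearAut.ofAlgAut (dia A s hs) := by
  apply Subtype.ext
  refine Prod.ext (RingEquiv.ext fun f => ?_) ?_
  · exact arithmeticGalois_smul_dia A hs hrat σ f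
  · show (1 : RingAut Kbar) * _ = _ * (1 : RingAut Kbar)
    rw [one_mul, mul_one]

/-- Galois equivariance of the diamond operator (semilinear form). -/
theorem ofAlgAut_dia_smul_comm {s : SL(2, ℤ)} (hs : Acts A s)
    (hrat : PreservesRat F₀ ((dia A s hs : FFK F₀ →ₐ[Kbar] FFK F₀) : FFK F₀ →+* FFK F₀))
    (σ : Kbar ≃ₐ[ℚ] Kbar) (y : Pic0 Kbar (FFK F₀)) :
    SemilinearAut.ofAlgAut (dia A s hs) • (σ • y) =
      σ • (SemilinearAut.ofAlgAut (dia A s hs) • y) := by
  rw [galois_smul_pic0_def, galois_smul_pic0_def, ← mul_smul, ← mul_smul,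
    ofAlgAut_dia_mul_comm A hs hrat σ]

/-- The Kummer map and the diamond operator, semilinear form:
`κ (dia s • y) = (conjReps A.Gam s _).dMul (κ y)`. -/
theorem kummer_dia_smul {s : SL(2, ℤ)} (hs : Acts A s) (hx : IsGen Kbar x) {n : ℕ}
    {κ : ↥(Pic0.torsion Kbar (FFK F₀) n) → (A.Gam →* ℂˣ)} (hκ : IsKummerMap A.Gam A.an n κ)
    (y : ↥(Pic0.torsion Kbar (FFK F₀) n)) :
    κ (SemilinearAut.ofAlgAut (dia A s hs) • y) =
      (conjReps A.Gam s (conj_mem hs)).dMul (κ y) := by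
  rw [← kummer_dia A hs hx hκ y (diaPic_mem_torsion A s hs hx n y)]
  congr 1
  exact Subtype.ext (diaPic_apply A s hs hx (y : Pic0 Kbar (FFK F₀))).symm

end Fermat.Agent.DS.G.HECKE.Diamond
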