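/-
Programme DS (S48), chapter G-HECKE, brick H09d (helper19): **analytic models versus analytic
generators.**

Let `L : LevelData`, `A : ArithModel L.F₀` ANY analytic model of `FFL L` and
`G : AnalyticGens L Lc ι` ANY analytic package of the level.  By uniqueness of the meromorphic
function with a given Laurent expansion:

* `an_genc` : `A.an (genc L ℚbar g) = G.gFun g` (as an element of `MerH`);
* `acts_of_perm` : if `s ∈ SL(2, ℤ)` and `s⁻¹` permute the analytic generators
  (`∀ g, ∃ g', G.gFun g ∘ s = G.gFun g'`), then `s` acts on the model (`Diamond.Acts A s`), so that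
  the diamond automorphism `Diamond.dia A s _` and the diamond operator on the Jacobian exist;
* `preservesRat_dia_of_perm` : this diamond automorphism preserves the rational elements, hence
  commutes with the Galois action (`Diamond.arithmeticGalois_smul_dia`, `diaPic_galois_smul`);
* `dia_genc` : `dia A s _ (genc g) = genc g'` when `G.gFun g ∘ s = G.gFun g'`.
-/
import Fermat.Agent.DS.G.HECKE.Diamond
import Fermat.Agent.DS.G.X0.FracR
import Fermat.Agent.DS.G.X0.Realize

set_option autoImplicit false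
set_option linter.unusedSectionVars false

open UpperHalfPlane hiding I
open scoped MatrixGroups

noncomputable section

namespace Fermat.Agent.DS.G.HECKE.ModelGens

open Fermat.Agent.X0 Fermat.Agent.X0.Analytic Fermat.Agent.X0.SurjPoint Fermat.Agent.ES.KUM
open Fermat.Agent.ES.HEQ.QExpMer19
open Fermat.Agent.DS.G.Level Fermat.Agent.DS.G.X0
open Fermat.Agent.DS.G.HECKE.Iface Fermat.Agent.DS.G.HECKE.Diamond
open Fermat.Agent.DS.G.HECKE.DiamondGal
open ModularCurve

variable {L : LevelData} (A : ArithModel L.F₀)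
  {Lc : Type} [Field Lc] [Algebra ℚ Lc] {ι : Lc →+* ℂ} (G : AnalyticGens L Lc ι)

/-- The analytic generator as a holomorphic function. -/
def gHol (g : L.gensQ) : HolH := ⟨G.gFun g, (G.hasQExp g).mdifferentiable⟩

@[simp] theorem coe_gHol (g : L.gensQ) : ((gHol G g : HolH) : ℍ → ℂ) = G.gFun g := rfl

theorem toC_coeffEmb (x : LaurentSeries ℚ) : toC (coeffEmb Kbar x) = coeffEmb ℂ x :=
  Realize.toCι_coeffEmb iotaK x

/-- **Every model realises the formal generators by the analytic generators.** -/
theorem an_genc (g : L.gensQ) :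
    A.an (genc L Kbar g) = algebraMap HolH MerH (gHol G g) := by
  apply A.an_eq_of_hasQExpMer
  rw [coe_genc, toC_coeffEmb]
  exact hasQExpMer_of_hasQExp (a := gHol G g) (G.hasQExp g)

theorem slMer_an_genc (s : SL(2, ℤ)) (g : L.gensQ) :
    slMer s (A.an (genc L Kbar g)) = algebraMap HolH MerH (compSLHom s (gHol G g)) := by
  rw [an_genc A G, slMer_algebraMap]

/-- If `G.gFun g ∘ s = G.gFun g'` then `(A.an (genc g)) ∘ s = A.an (genc g')`. -/
theorem slMer_an_genc_eq {s : SL(2, ℤ)} {g g' : L.gensQ}
    (h : compSL (G.gFun g) s = G.gFun g') :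
    A.an (genc L Kbar g') = slMer s (A.an (genc L Kbar g)) := by
  rw [slMer_an_genc A G, an_genc A G]
  congr 1
  exact Subtype.ext h.symm

theorem adjoin_range_genc :
    IntermediateField.adjoin Kbar (Set.range (genc L Kbar)) = ⊤ :=
  (FracR.FFc_eq_adjoin L Kbar).symm

/-- **Elements permuting the analytic generators act on every model.** -/
theorem acts_of_perm {s : SL(2, ℤ)}
    (h : ∀ g : L.gensQ, ∃ g' : L.gensQ, compSL (G.gFun g) s = G.gFun g')
    (h' : ∀ g : L.gensQ, ∃ g' : L.gensQ, compSL (G.gFun g) s⁻¹ = G.gFun g') : Acts A s := by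
  refine acts_of_generators (Set.range (genc L Kbar)) adjoin_range_genc ?_ ?_
  · rintro _ ⟨g, rfl⟩
    obtain ⟨g', hg'⟩ := h g
    exact ⟨genc L Kbar g', slMer_an_genc_eq A G hg'⟩
  · rintro _ ⟨g, rfl⟩
    obtain ⟨g', hg'⟩ := h' g
    exact ⟨genc L Kbar g', slMer_an_genc_eq A G hg'⟩

variable {A}

/-- The diamond automorphism permutes the formal generators. -/
theorem dia_genc {s : SL(2, ℤ)} (hs : Acts A s) {g g' : L.gensQ}
    (h : compSL (G.gFun g) s = G.gFun g') : dia A s hs (genc L Kbar g) = genc L Kbar g' :=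
  dia_eq_of_an_eq A hs (slMer_an_genc_eq A G h)

theorem ratElt_eq_genc (y : LaurentSeries ℚ) (hy : y ∈ L.F₀) (hyS : y ∈ L.gensQ) :
    ratElt (L := Kbar) L.F₀ y hy = genc L Kbar ⟨y, hyS⟩ := rfl

/-- **The diamond automorphism of an element permuting the analytic generators preserves the
rational elements** (hence commutes with the Galois action). -/
theorem preservesRat_dia_of_perm {s : SL(2, ℤ)} (hs : Acts A s)
    (h : ∀ g : L.gensQ, ∃ g' : L.gensQ, compSL (G.gFun g) s = G.gFun g') :
    PreservesRat L.F₀ ((dia A s hs : FFK L.F₀ →ₐ[Kbar] FFK L.F₀) : FFK L.F₀ →+* FFK L.F₀) := by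
  refine preservesRat_dia_of_generators A hs L.gensQ L.adjoin_eq ?_
  intro y hy hyS
  obtain ⟨g', hg'⟩ := h ⟨y, hyS⟩
  refine ⟨g', L.gensQ_subset g'.2, ?_⟩
  rw [ratElt_eq_genc y hy hyS, ratElt_eq_genc (g' : LaurentSeries ℚ) _ g'.2]
  exact slMer_an_genc_eq A G hg'

end Fermat.Agent.DS.G.HECKE.ModelGens
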