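/-
DS / GEO, chapter G-HECKE, brick H07 (helper34), identification lemma: **the diamond automorphism
`Diamond.dia A s hs` is THE `ℚbar`-algebra endomorphism of the function field whose values on the
generators have the `q`-expansions of the translated analytic generators.**

For `L : LevelData`, `A : ArithModel L.F₀`, `G : AnalyticGens L Lc ι` and `s ∈ SL(2, ℤ)` permuting
the analytic generators:

* `hasQExp_dia_genc` : `(G.gFun g) ∘ s` has the `q`-expansion `dia A s hs (genc g)`;
* `algHom_ext_genc`  : two `ℚbar`-algebra homs out of `FFK L.F₀` agreeing on the generators agree;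
* `dia_eq_of_hasQExp` : any `d : FFK L.F₀ →ₐ[ℚbar] FFK L.F₀` such that `(G.gFun g) ∘ s` has the
  `q`-expansion `d (genc g)` for all `g` IS `dia A s hs`.

* `dia_jFc`, `dia_of_mem_Kjc` : every diamond automorphism fixes `j`, hence `ℚbar(j)` pointwise
  (input of the uniqueness-of-the-Gauss-valuation argument for the reduction of the diamond).

This identifies the homomorphism `dia'` of `DS/G/ES/KRON/ConjPlug90.exists_hasW'_up` (KRON side,
`Lc = ℚbar`, `ι = iotaK`) with `Diamond.dia A γ hs` (Hecke side).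
-/
import Fermat.Agent.DS.G.HECKE.ModelGens

set_option autoImplicit false
set_option linter.unusedSectionVars false

open UpperHalfPlane hiding I
open scoped MatrixGroups

noncomputable section

namespace Fermat.Agent.DS.G.HECKE.DiaIdent

open Fermat.Agent.X0 Fermat.Agent.X0.Analytic Fermat.Agent.X0.SurjPoint Fermat.Agent.ES.KUM
open Fermat.Agent.DS.G.Level Fermat.Agent.DS.G.X0
open Fermat.Agent.DS.G.HECKE.Iface Fermat.Agent.DS.G.HECKE.Diamond
open Fermat.Agent.DS.G.HECKE.ModelGens
open ModularCurve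

variable {L : LevelData} (A : ArithModel L.F₀)
  {Lc : Type} [Field Lc] [Algebra ℚ Lc] {ι : Lc →+* ℂ} (G : AnalyticGens L Lc ι)

/-- The translated analytic generator `(G.gFun g) ∘ s` has the `q`-expansion
`dia A s hs (genc g)`. -/
theorem hasQExp_dia_genc {s : SL(2, ℤ)} (hs : Acts A s)
    (hperm : ∀ g : L.gensQ, ∃ g' : L.gensQ, compSL (G.gFun g) s = G.gFun g') (g : L.gensQ) :
    HasQExp (coeffMap iotaK ((dia A s hs (genc L Kbar g) : FFK L.F₀) : LaurentSeries Kbar))
      (compSL (G.gFun g) s) := by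
  obtain ⟨g', hg'⟩ := hperm g
  rw [dia_genc G hs hg', hg', coe_genc]
  have h := toC_coeffEmb (g' : LaurentSeries ℚ)
  rw [toC] at h
  rw [h]
  exact G.hasQExp g'

set_option synthInstance.maxHeartbeats 400000 in
/-- Two `ℚbar`-algebra homs out of the function field which agree on the generators are equal. -/
theorem algHom_ext_genc {E : Type*} [Field E] [Algebra Kbar E] (φ ψ : FFK L.F₀ →ₐ[Kbar] E)
    (h : ∀ g : L.gensQ, φ (genc L Kbar g) = ψ (genc L Kbar g)) : φ = ψ := by
  refine AlgHom.ext fun f => ?_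
  have hf := FracR.mem_adjoin_genSetc L Kbar f
  induction hf using IntermediateField.adjoin_induction with
  | mem x hx =>
      obtain ⟨g, rfl⟩ := hx
      exact h g
  | algebraMap c => rw [φ.commutes, ψ.commutes]
  | add x y _ _ hx hy => rw [map_add, map_add, hx, hy]
  | inv x _ hx => rw [map_inv₀, map_inv₀, hx]
  | mul x y _ _ hx hy => rw [map_mul, map_mul, hx, hy]

/-- The coefficientwise embedding `ℚbar((q)) → ℂ((q))` is injective. -/
theorem coeffMap_iotaK_injective :
    Function.Injective (coeffMap iotaK : LaurentSeries Kbar → LaurentSeries ℂ) := by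
  intro x y hxy
  ext k
  apply iotaK_injective
  have := congrArg (fun s => HahnSeries.coeff s k) hxy
  simpa using this

/-- **Identification of the diamond automorphism** by the `q`-expansions of its values on the
generators. -/
theorem dia_eq_of_hasQExp {s : SL(2, ℤ)} (hs : Acts A s)
    (hperm : ∀ g : L.gensQ, ∃ g' : L.gensQ, compSL (G.gFun g) s = G.gFun g')
    (d : FFK L.F₀ →ₐ[Kbar] FFK L.F₀)
    (hd : ∀ g : L.gensQ,
      HasQExp (coeffMap iotaK ((d (genc L Kbar g) : FFK L.F₀) : LaurentSeries Kbar))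
        (compSL (G.gFun g) s)) :
    ((dia A s hs : FFK L.F₀ ≃ₐ[Kbar] FFK L.F₀) : FFK L.F₀ →ₐ[Kbar] FFK L.F₀) = d := by
  refine algHom_ext_genc _ _ fun g => ?_
  apply Subtype.ext
  exact coeffMap_iotaK_injective ((hasQExp_dia_genc A G hs hperm g).unique_left (hd g))

/-- Pointwise form. -/
theorem dia_apply_eq_of_hasQExp {s : SL(2, ℤ)} (hs : Acts A s)
    (hperm : ∀ g : L.gensQ, ∃ g' : L.gensQ, compSL (G.gFun g) s = G.gFun g')
    (d : FFK L.F₀ →ₐ[Kbar] FFK L.F₀)
    (hd : ∀ g : L.gensQ,
      HasQExp (coeffMap iotaK ((d (genc L Kbar g) : FFK L.F₀) : LaurentSeries Kbar))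
        (compSL (G.gFun g) s)) (f : FFK L.F₀) : dia A s hs f = d f :=
  DFunLike.congr_fun (dia_eq_of_hasQExp A G hs hperm d hd) f

/-- The realisation of `d f` is the translate of the realisation of `f`. -/
theorem an_eq_slMer_of_hasQExp {s : SL(2, ℤ)} (hs : Acts A s)
    (hperm : ∀ g : L.gensQ, ∃ g' : L.gensQ, compSL (G.gFun g) s = G.gFun g')
    (d : FFK L.F₀ →ₐ[Kbar] FFK L.F₀)
    (hd : ∀ g : L.gensQ,
      HasQExp (coeffMap iotaK ((d (genc L Kbar g) : FFK L.F₀) : LaurentSeries Kbar))
        (compSL (G.gFun g) s)) (f : FFK L.F₀) : A.an (d f) = slMer s (A.an f) := by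
  rw [← dia_apply_eq_of_hasQExp A G hs hperm d hd f, an_dia]

include G in
/-- **Every diamond automorphism fixes `j`** (`j ∘ s = j`). -/
theorem dia_jFc {s : SL(2, ℤ)} (hs : Acts A s) : dia A s hs (jFc L Kbar) = jFc L Kbar := by
  refine dia_genc (A := A) G hs ?_
  rw [G.j_eq]
  funext z
  exact jFun_smul s z

include G in
/-- Every diamond automorphism fixes `ℚbar(j)` pointwise. -/
theorem dia_of_mem_Kjc {s : SL(2, ℤ)} (hs : Acts A s) {f : FFK L.F₀} (hf : f ∈ Kjc L Kbar) :
    dia A s hs f = f := by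
  unfold Kjc at hf
  induction hf using IntermediateField.adjoin_induction with
  | mem x hx =>
      rw [Set.mem_singleton_iff] at hx
      rw [hx]
      exact dia_jFc A G hs
  | algebraMap c => exact (dia A s hs).commutes c
  | add x y _ _ hx hy => rw [map_add, hx, hy]
  | inv x _ hx => rw [map_inv₀, hx]
  | mul x y _ _ hx hy => rw [map_mul, hx, hy]

end Fermat.Agent.DS.G.HECKE.DiaIdent
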