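/-
DS programme (S48), chapter G-HECKE, brick H04 (helper99): **Hecke representatives from cosets.**

Pure group theory (Mathlib + `DS/Per1/HeckeReps`).  Let `Γ' ≤ Γ ≤ SL(2, ℤ)` and `δ ∈ GL(2, ℝ)` with
`δ Γ' δ⁻¹ ⊆ Γ`, given by a conjugation homomorphism `c : Γ' →* Γ`,
`δ * γ' = c γ' * δ` (`ConjData`; `ConjData.ofExists` builds `c` from the bare existence statement,
`mapGL ℝ : SL(2, ℤ) → GL(2, ℝ)` being injective).  Put

* `I = Γ ⧸ Γ'` (`CosetIdx Γ Γ'`, left cosets `x Γ'`; the right cosets are `Γ' x⁻¹`),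
  `base = [1]`, representatives `rep i = (xrep i)⁻¹ ∈ Γ` with `[xrep i] = i`, `xrep base = 1`;
* `α i = δ * rep i`, `perm γ i = γ⁻¹ • i`, `coc γ i = c (rep i * γ * (rep (perm γ i))⁻¹)`.

Then `repsOfCosets : HeckeReps Γ (CosetIdx Γ Γ')` (`α i * γ = coc γ i * α (perm γ i)`, `perm` a right
action, `coc` a cocycle); this is the family of left-coset representatives `δ γᵢ` of the double coset
`Γ δ Γ` (when `Γ' = Γ ∩ δ⁻¹ Γ δ`).  Exports for the consumers (H05 sigma family, H08 convention):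

* `repsOfCosets_α`, `repsOfCosets_perm`, `repsOfCosets_coc`, `repsOfCosets_α_base`;
* `perm_rep_base : perm (rep i) base = i` (transitivity), `perm_base_eq_iff :
  perm γ base = perm γ' base ↔ γ' γ⁻¹ ∈ Γ'` (separation), `perm_base_eq_base_iff`;
* `coc_base_of_mem` : on `Γ'` and at the base point the cocycle is the conjugation `c`;
* `card_cosetIdx : Nat.card I = Γ'.relIndex Γ`, `finite_cosetIdx`.

The reindexing lemmas (`dHom` only depends on the left `Γ`-cosets `Γ α i`; left translation by an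
element normalising `Γ`) are in `DS/G/HECKE/RepsReindex.lean`.
-/
import Mathlib
import Fermat.Agent.DS.Per1.HeckeReps

set_option autoImplicit false
set_option linter.dupNamespace false
set_option linter.unusedSectionVars false

open Matrix
open scoped MatrixGroups

noncomputable section

namespace Fermat.Agent.DS.G.HECKE.CosetReps

open Fermat.Agent.DS.Per1.HeckeReps

/-- Abbreviation for the embedding `SL(2, ℤ) → GL(2, ℝ)`. -/
local notation "ι" => Matrix.SpecialLinearGroup.mapGL (n := Fin 2) (R := ℤ) ℝ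

theorem mapGL_injective : Function.Injective (ι) :=
  Matrix.SpecialLinearGroup.mapGL_injective

/-! ### Conjugation data -/

/-- `δ ∈ GL(2, ℝ)` conjugates `Γ'` into `Γ`: `δ * γ' = c γ' * δ`. -/
structure ConjData (Γ Γ' : Subgroup SL(2, ℤ)) where
  /-- the matrix -/
  δ : GL (Fin 2) ℝ
  /-- conjugation by `δ` -/
  c : Γ' →* Γ
  /-- the defining relation -/
  hc : ∀ γ' : Γ', δ * ι (γ' : SL(2, ℤ)) = ι ((c γ' : Γ) : SL(2, ℤ)) * δ

/-- the chosen conjugate `δ γ' δ⁻¹ ∈ Γ`. -/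
def conjChoice {Γ Γ' : Subgroup SL(2, ℤ)} (δ : GL (Fin 2) ℝ)
    (h : ∀ γ' ∈ Γ', ∃ η ∈ Γ, δ * ι γ' = ι η * δ) (γ' : Γ') : Γ :=
  ⟨(h γ'.1 γ'.2).choose, (h γ'.1 γ'.2).choose_spec.1⟩

theorem conjChoice_spec {Γ Γ' : Subgroup SL(2, ℤ)} (δ : GL (Fin 2) ℝ)
    (h : ∀ γ' ∈ Γ', ∃ η ∈ Γ, δ * ι γ' = ι η * δ) (γ' : Γ') :
    δ * ι (γ' : SL(2, ℤ)) = ι ((conjChoice δ h γ' : Γ) : SL(2, ℤ)) * δ :=
  (h γ'.1 γ'.2).choose_spec.2

/-- `ConjData` from the bare existence statement. -/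
def ConjData.ofExists {Γ Γ' : Subgroup SL(2, ℤ)} (δ : GL (Fin 2) ℝ)
    (h : ∀ γ' ∈ Γ', ∃ η ∈ Γ, δ * ι γ' = ι η * δ) : ConjData Γ Γ' where
  δ := δ
  c :=
    { toFun := conjChoice δ h
      map_one' := by
        apply Subtype.ext
        apply mapGL_injective
        have h1 := conjChoice_spec δ h 1
        rw [Subgroup.coe_one, map_one, mul_one] at h1
        rw [Subgroup.coe_one, map_one]
        exact (mul_right_cancel (b := δ) (by rw [one_mul]; exact h1)).symm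
      map_mul' := by
        intro a b
        apply Subtype.ext
        apply mapGL_injective
        have hab := conjChoice_spec δ h (a * b)
        have ha := conjChoice_spec δ h a
        have hb := conjChoice_spec δ h b
        rw [Subgroup.coe_mul, map_mul]
        rw [Subgroup.coe_mul, map_mul, ← mul_assoc, ha, mul_assoc, hb, ← mul_assoc] at hab
        exact (mul_right_cancel hab).symm }
  hc γ' := conjChoice_spec δ h γ'

@[simp] theorem ConjData.ofExists_δ {Γ Γ' : Subgroup SL(2, ℤ)} (δ : GL (Fin 2) ℝ)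
    (h : ∀ γ' ∈ Γ', ∃ η ∈ Γ, δ * ι γ' = ι η * δ) : (ConjData.ofExists δ h).δ = δ := rfl

/-- The conjugation homomorphism is determined by `δ`. -/
theorem ConjData.c_unique {Γ Γ' : Subgroup SL(2, ℤ)} (C : ConjData Γ Γ') (γ' : Γ') {η : SL(2, ℤ)}
    (hη : C.δ * ι (γ' : SL(2, ℤ)) = ι η * C.δ) : ((C.c γ' : Γ) : SL(2, ℤ)) = η := by
  apply mapGL_injective
  have h := C.hc γ'
  rw [hη] at h
  exact (mul_right_cancel h).symm

/-! ### The index set and the representatives -/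

section Reps

variable (Γ Γ' : Subgroup SL(2, ℤ))

/-- The index set: left cosets `x Γ'`, `x ∈ Γ` (equivalently, the right cosets `Γ' x⁻¹`). -/
abbrev CosetIdx : Type := ↥Γ ⧸ Γ'.subgroupOf Γ

theorem card_cosetIdx : Nat.card (CosetIdx Γ Γ') = Γ'.relIndex Γ := rfl

theorem finite_cosetIdx (h : Γ'.relIndex Γ ≠ 0) : Finite (CosetIdx Γ Γ') :=
  Nat.finite_of_card_ne_zero (by rw [card_cosetIdx]; exact h)

/-- The base point: the coset of `1`. -/
def base : CosetIdx Γ Γ' := ((1 : Γ) : CosetIdx Γ Γ')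

open Classical in
/-- A section `I → Γ` of the quotient map, normalised at the base point. -/
def xrep (i : CosetIdx Γ Γ') : Γ := if i = base Γ Γ' then 1 else Quotient.out i

theorem mk_xrep (i : CosetIdx Γ Γ') : ((xrep Γ Γ' i : Γ) : CosetIdx Γ Γ') = i := by
  unfold xrep
  split_ifs with h
  · exact h.symm
  · exact QuotientGroup.out_eq' i

@[simp] theorem xrep_base : xrep Γ Γ' (base Γ Γ') = 1 := by
  unfold xrep
  rw [if_pos rfl]

/-- The right coset representatives `γᵢ = xᵢ⁻¹`. -/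
def rep (i : CosetIdx Γ Γ') : Γ := (xrep Γ Γ' i)⁻¹

@[simp] theorem rep_base : rep Γ Γ' (base Γ Γ') = 1 := by
  rw [rep, xrep_base, inv_one]

theorem mk_inv_rep (i : CosetIdx Γ Γ') : (((rep Γ Γ' i)⁻¹ : Γ) : CosetIdx Γ Γ') = i := by
  rw [rep, inv_inv, mk_xrep]

/-- The permutation action: `perm γ i = γ⁻¹ • i`. -/
def permC (γ : Γ) : Equiv.Perm (CosetIdx Γ Γ') := MulAction.toPerm (γ⁻¹)

theorem permC_apply (γ : Γ) (i : CosetIdx Γ Γ') : permC Γ Γ' γ i = γ⁻¹ • i := rfl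

theorem permC_mk (γ x : Γ) :
    permC Γ Γ' γ ((x : Γ) : CosetIdx Γ Γ') = ((γ⁻¹ * x : Γ) : CosetIdx Γ Γ') := rfl

theorem permC_mul (γ γ₂ : Γ) (i : CosetIdx Γ Γ') :
    permC Γ Γ' (γ * γ₂) i = permC Γ Γ' γ₂ (permC Γ Γ' γ i) := by
  rw [permC_apply, permC_apply, permC_apply, _root_.mul_inv_rev, mul_smul]

theorem permC_base (γ : Γ) : permC Γ Γ' γ (base Γ Γ') = ((γ⁻¹ : Γ) : CosetIdx Γ Γ') := by
  rw [base, permC_mk, mul_one]

/-- Transitivity: `perm (rep i) base = i`. -/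
theorem permC_rep_base (i : CosetIdx Γ Γ') : permC Γ Γ' (rep Γ Γ' i) (base Γ Γ') = i := by
  rw [permC_base, mk_inv_rep]

/-- Separation: `perm γ base = perm γ' base ↔ γ' γ⁻¹ ∈ Γ'`. -/
theorem permC_base_eq_iff (γ γ' : Γ) :
    permC Γ Γ' γ (base Γ Γ') = permC Γ Γ' γ' (base Γ Γ') ↔
      ((γ' : SL(2, ℤ)) * (γ : SL(2, ℤ))⁻¹) ∈ Γ' := by
  rw [permC_base, permC_base, QuotientGroup.eq, Subgroup.mem_subgroupOf, inv_inv]
  constructor
  · intro h
    have h2 := Γ'.inv_mem h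
    simpa [_root_.mul_inv_rev] using h2
  · intro h
    have h2 := Γ'.inv_mem h
    simpa [_root_.mul_inv_rev] using h2

theorem permC_base_eq_base_iff (γ : Γ) :
    permC Γ Γ' γ (base Γ Γ') = base Γ Γ' ↔ (γ : SL(2, ℤ)) ∈ Γ' := by
  have h := permC_base_eq_iff Γ Γ' 1 γ
  have h1 : permC Γ Γ' 1 (base Γ Γ') = base Γ Γ' := by
    rw [permC_apply, inv_one, one_smul]
  rw [h1] at h
  rw [eq_comm, h]
  simp

/-- The middle element `γᵢ γ γⱼ⁻¹ ∈ Γ`, `j = perm γ i`. -/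
def midVal (γ : Γ) (i : CosetIdx Γ Γ') : Γ :=
  rep Γ Γ' i * γ * (rep Γ Γ' (permC Γ Γ' γ i))⁻¹

theorem midVal_mem (γ : Γ) (i : CosetIdx Γ Γ') :
    ((midVal Γ Γ' γ i : Γ) : SL(2, ℤ)) ∈ Γ' := by
  have h : (((γ⁻¹ * xrep Γ Γ' i : Γ)) : CosetIdx Γ Γ') =
      ((xrep Γ Γ' (permC Γ Γ' γ i) : Γ) : CosetIdx Γ Γ') := by
    rw [mk_xrep, ← permC_mk, mk_xrep]
  rw [QuotientGroup.eq, Subgroup.mem_subgroupOf] at h
  have h2 : midVal Γ Γ' γ i = (γ⁻¹ * xrep Γ Γ' i)⁻¹ * xrep Γ Γ' (permC Γ Γ' γ i) := by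
    rw [midVal, rep, rep, inv_inv, _root_.mul_inv_rev, inv_inv]
  rw [h2]
  exact h

/-- The middle element, in `Γ'`. -/
def mid (γ : Γ) (i : CosetIdx Γ Γ') : Γ' := ⟨(midVal Γ Γ' γ i : Γ), midVal_mem Γ Γ' γ i⟩

theorem coe_mid (γ : Γ) (i : CosetIdx Γ Γ') :
    ((mid Γ Γ' γ i : Γ') : SL(2, ℤ)) =
      (rep Γ Γ' i : SL(2, ℤ)) * γ * ((rep Γ Γ' (permC Γ Γ' γ i) : Γ) : SL(2, ℤ))⁻¹ := rfl

theorem midVal_mul (γ γ₂ : Γ) (i : CosetIdx Γ Γ') :
    midVal Γ Γ' (γ * γ₂) i = midVal Γ Γ' γ i * midVal Γ Γ' γ₂ (permC Γ Γ' γ i) := by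
  rw [midVal, midVal, midVal, permC_mul]
  group

theorem mid_mul (γ γ₂ : Γ) (i : CosetIdx Γ Γ') :
    mid Γ Γ' (γ * γ₂) i = mid Γ Γ' γ i * mid Γ Γ' γ₂ (permC Γ Γ' γ i) := by
  apply Subtype.ext
  rw [Subgroup.coe_mul]
  show ((midVal Γ Γ' (γ * γ₂) i : Γ) : SL(2, ℤ)) = _
  rw [midVal_mul, Subgroup.coe_mul]
  rfl

/-- On `Γ'` and at the base point the middle element is `γ` itself. -/
theorem coe_mid_base_of_mem (γ : Γ) (hγ : (γ : SL(2, ℤ)) ∈ Γ') :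
    ((mid Γ Γ' γ (base Γ Γ') : Γ') : SL(2, ℤ)) = γ := by
  rw [coe_mid, (permC_base_eq_base_iff Γ Γ' γ).mpr hγ, rep_base]
  simp

end Reps

/-! ### The Hecke representatives -/

section Main

variable {Γ Γ' : Subgroup SL(2, ℤ)} (C : ConjData Γ Γ')

/-- **The Hecke representatives attached to `Γ' ≤ Γ` and `δ`**: `α i = δ * γᵢ`. -/
def repsOfCosets : HeckeReps Γ (CosetIdx Γ Γ') where
  α i := C.δ * ι ((rep Γ Γ' i : Γ) : SL(2, ℤ))
  perm := permC Γ Γ'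
  coc γ i := C.c (mid Γ Γ' γ i)
  rel γ i := by
    have h1 : ((rep Γ Γ' i : Γ) : SL(2, ℤ)) * (γ : SL(2, ℤ)) =
        ((mid Γ Γ' γ i : Γ') : SL(2, ℤ)) * ((rep Γ Γ' (permC Γ Γ' γ i) : Γ) : SL(2, ℤ)) := by
      rw [coe_mid, inv_mul_cancel_right]
    rw [mul_assoc, ← map_mul, h1, map_mul, ← mul_assoc, C.hc, mul_assoc]
  perm_mul := permC_mul Γ Γ'
  coc_mul γ γ₂ i := by rw [mid_mul, map_mul]

@[simp] theorem repsOfCosets_α (i : CosetIdx Γ Γ') :
    (repsOfCosets C).α i = C.δ * ι ((rep Γ Γ' i : Γ) : SL(2, ℤ)) := rfl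

@[simp] theorem repsOfCosets_perm (γ : Γ) : (repsOfCosets C).perm γ = permC Γ Γ' γ := rfl

theorem repsOfCosets_coc (γ : Γ) (i : CosetIdx Γ Γ') :
    (repsOfCosets C).coc γ i = C.c (mid Γ Γ' γ i) := rfl

theorem repsOfCosets_α_base : (repsOfCosets C).α (base Γ Γ') = C.δ := by
  rw [repsOfCosets_α, rep_base, Subgroup.coe_one, map_one, mul_one]

/-- Transitivity of `perm` on the index set, through the representatives. -/
theorem perm_rep_base (i : CosetIdx Γ Γ') :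
    (repsOfCosets C).perm (rep Γ Γ' i) (base Γ Γ') = i := permC_rep_base Γ Γ' i

/-- Separation: `perm γ base = perm γ' base ↔ γ' γ⁻¹ ∈ Γ'`. -/
theorem perm_base_eq_iff (γ γ' : Γ) :
    (repsOfCosets C).perm γ (base Γ Γ') = (repsOfCosets C).perm γ' (base Γ Γ') ↔
      ((γ' : SL(2, ℤ)) * (γ : SL(2, ℤ))⁻¹) ∈ Γ' := permC_base_eq_iff Γ Γ' γ γ'

theorem perm_base_eq_base_iff (γ : Γ) :
    (repsOfCosets C).perm γ (base Γ Γ') = base Γ Γ' ↔ (γ : SL(2, ℤ)) ∈ Γ' :=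
  permC_base_eq_base_iff Γ Γ' γ

/-- On `Γ'`, at the base point, the cocycle is conjugation by `δ`. -/
theorem coc_base_of_mem (γ : Γ) (hγ : (γ : SL(2, ℤ)) ∈ Γ') :
    (repsOfCosets C).coc γ (base Γ Γ') = C.c ⟨(γ : SL(2, ℤ)), hγ⟩ := by
  rw [repsOfCosets_coc]
  congr 1
  exact Subtype.ext (coe_mid_base_of_mem Γ Γ' γ hγ)

/-- The relation `α i = δ * γᵢ` read on `GL(2, ℝ)`: `α i = α base * γᵢ`. -/
theorem repsOfCosets_α_eq (i : CosetIdx Γ Γ') :
    (repsOfCosets C).α i = (repsOfCosets C).α (base Γ Γ') * ι ((rep Γ Γ' i : Γ) : SL(2, ℤ)) := by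
  rw [repsOfCosets_α_base, repsOfCosets_α]

end Main

end Fermat.Agent.DS.G.HECKE.CosetReps
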