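/-
Programme DS (S48), chapter G-HECKE, brick H12 (helper31): **the degree of the degeneracy
embedding is the number of cosets** (twin of `ES/HECKE/AlongDegree25`).

For an embedding `φ : F →ₐ[K] F'` of function fields with `[F : K(j)] = [SL₂(ℤ) : Γ]` and
`[F' : K(φ j)] = [SL₂(ℤ) : Γ']`, `Γ' ≤ Γ` of finite index, the tower law gives
`[F' : φ F] = [Γ : Γ'] = #(Γ ⧸ Γ')`.  The two degree facts are the output of the G-X0 `Degree`
twin (`finrank Kbar⟮jF⟯ (FFL L) = L.Gam.index`); they are explicit hypotheses here.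

* `finrankAlong_eq_relIndex` : the generic statement;
* `card_cosetIdx_eq_finrankAlong` : `Nat.card (CosetIdx Γ Γ') = finrankAlong K φ`
  (`hcard` of `KummerHeckeG.kummer_corr` / `SigmaFamily`);
* `card_cosetIdx_eq_finrankAlong_alphaG` : the case `φ = alphaG Kbar P` of a `HeckePair`.
-/
import Mathlib
import Fermat.Agent.ES.HECKE.FundId12
import Fermat.Agent.DS.G.HECKE.Iface
import Fermat.Agent.DS.G.HECKE.CosetReps

set_option autoImplicit false
set_option linter.unusedSectionVars false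

open scoped MatrixGroups

noncomputable section

open AlgebraicCurve IntermediateField

namespace Fermat.Agent.DS.G.HECKE.DegreeAlong

section Generic

variable {K F F' : Type*} [Field K] [Field F] [Field F'] [Algebra K F] [Algebra K F']
variable {G : Type*} [Group G]

/-- **Tower law**: `[F' : φ F] = [Γ : Γ']`. -/
theorem finrankAlong_eq_relIndex (φ : F →ₐ[K] F') (Γ Γ' : Subgroup G) (hle : Γ' ≤ Γ)
    (hfi : Γ'.index ≠ 0) (j : F)
    (h : Module.finrank K⟮j⟯ F = Γ.index)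
    (h' : Module.finrank K⟮φ j⟯ F' = Γ'.index) :
    finrankAlong K φ = Γ'.relIndex Γ := by
  have h1 := Fermat.Agent.ES.HECKE.FundId12.finrank_adjoin_along φ j
  rw [h, h'] at h1
  have h2 := Subgroup.relIndex_mul_index hle
  have hΓ : Γ.index ≠ 0 := by
    intro h0
    rw [h0, mul_zero] at h2
    exact hfi h2.symm
  have h3 : Γ.index * finrankAlong K φ = Γ.index * Γ'.relIndex Γ := by
    rw [← h1, ← h2, mul_comm]
  exact Nat.eq_of_mul_eq_mul_left (Nat.pos_of_ne_zero hΓ) h3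

end Generic

section Coset

open Fermat.Agent.DS.G.HECKE.CosetReps Fermat.Agent.DS.G.HECKE.Iface

variable {K F F' : Type*} [Field K] [Field F] [Field F'] [Algebra K F] [Algebra K F']

/-- **`#(Γ ⧸ Γ') = [F' : φ F]`.** -/
theorem card_cosetIdx_eq_finrankAlong (φ : F →ₐ[K] F') (Γ Γ' : Subgroup SL(2, ℤ)) (hle : Γ' ≤ Γ)
    (hfi : Γ'.index ≠ 0) (j : F)
    (h : Module.finrank K⟮j⟯ F = Γ.index)
    (h' : Module.finrank K⟮φ j⟯ F' = Γ'.index) :
    Nat.card (CosetIdx Γ Γ') = finrankAlong K φ := by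
  rw [card_cosetIdx, finrankAlong_eq_relIndex φ Γ Γ' hle hfi j h h']

/-- The case of the degeneracy embedding `α` of a Hecke pair. -/
theorem card_cosetIdx_eq_finrankAlong_alphaG {Lc : Type*} [Field Lc] [Algebra ℚ Lc]
    {F₀ F₀' : IntermediateField ℚ (LaurentSeries ℚ)} {p : ℕ} [NeZero p]
    (P : HeckePair F₀ F₀' p) (Γ Γ' : Subgroup SL(2, ℤ)) (hle : Γ' ≤ Γ) (hfi : Γ'.index ≠ 0)
    (j : FFc Lc F₀)
    (h : Module.finrank Lc⟮j⟯ (FFc Lc F₀) = Γ.index)
    (h' : Module.finrank Lc⟮alphaG Lc P j⟯ (FFc Lc F₀') = Γ'.index) :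
    Nat.card (CosetIdx Γ Γ') = finrankAlong Lc (alphaG Lc P) :=
  card_cosetIdx_eq_finrankAlong (alphaG Lc P) Γ Γ' hle hfi j h h'

/-- finiteness of the index set. -/
theorem finite_cosetIdx_of_index_ne_zero (Γ Γ' : Subgroup SL(2, ℤ)) (hle : Γ' ≤ Γ)
    (hfi : Γ'.index ≠ 0) : Finite (CosetIdx Γ Γ') := by
  apply finite_cosetIdx
  intro h0
  have h2 := Subgroup.relIndex_mul_index hle
  rw [h0, zero_mul] at h2
  exact hfi h2.symm

end Coset

end Fermat.Agent.DS.G.HECKE.DegreeAlong
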