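/-
Programme DS (S48), chapter G-HECKE, brick H10a (helper19): **the upper level `(L ; p)`**.

For an abstract level `L : LevelData` and a prime `p`, the level "`L` with `Γ₀(p)`-structure":

* `upGam Gam p = Gam ⊓ δ⁻¹ Gam δ`, `δ = diag(p, 1)`, written with helper27's double coset
  combinatorics on `SL(2, ℤ)` (`ES/HEQ/DoubleCoset27`: `β_∞ γ = coc γ ∞ · β_{perm γ ∞}`):
  `γ ∈ upGam Gam p ↔ γ ∈ Gam ∧ perm γ ∞ = ∞ ∧ coc γ ∞ ∈ Gam`; explicitly (`mem_upGam_iff`):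
  `γ = (a, b; p c, d)` with `γ ∈ Gam` and `(a, p b; c, d) ∈ Gam`;
* `conjData Gam p : CosetReps.ConjData Gam (upGam Gam p)`: `δ = glBeta p none`, `c γ = coc γ ∞`
  (so helper99's `repsOfCosets (conjData Gam p)` are the Hecke representatives `δ γᵢ` of `Gam δ Gam`);
* `up L p : LevelData`: generators `L.gensQ ∪ {g(q^p) : g ∈ L.gensQ}`, group `upGam L.Gam p`, width
  `L.w * p`;
* `heckePair_up L p : HeckePair L.F₀ (up L p).F₀ p`, whence the two degeneracy embeddings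
  `alphaG Lc (heckePair_up L p)`, `betaG Lc (heckePair_up L p) : FFc Lc L.F₀ →ₐ[Lc] FFc Lc (up L p).F₀`.

The analytic package of the upper level is in `DS/G/HECKE/UpAnalytic.lean`.
-/
import Fermat.Agent.DS.G.Level
import Fermat.Agent.ES.HEQ.RepGamma19
import Fermat.Agent.DS.G.HECKE.CosetReps
import Fermat.Agent.DS.G.HECKE.Iface

set_option autoImplicit false
set_option linter.unusedSectionVars false

open scoped MatrixGroups

noncomputable section

namespace Fermat.Agent.DS.G.HECKE.UpLevel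

open Fermat.Agent.ES.HEQ.DoubleCoset27 Fermat.Agent.ES.HEQ.RepGamma19
open Fermat.Agent.DS.G.Level Fermat.Agent.DS.G.HECKE.Iface Fermat.Agent.DS.G.HECKE.CosetReps
open ModularCurve

variable {p : ℕ} [hp : Fact p.Prime]

/-! ### The cocycle at `∞` on `Γ₀(p)` -/

/-- `δ γ δ⁻¹ = (a, p b; c, d)` for `γ = (a, b; p c, d)`. -/
def conjMat (g : SL(2, ℤ)) (c : ℤ) (hc : g 1 0 = (p : ℤ) * c) : SL(2, ℤ) :=
  ⟨!![g 0 0, (p : ℤ) * g 0 1; c, g 1 1], by
    have hdet : g 0 0 * g 1 1 - g 0 1 * g 1 0 = 1 := by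
      have := g.2
      rwa [Matrix.det_fin_two] at this
    rw [Matrix.det_fin_two_of]
    rw [hc] at hdet
    linear_combination hdet⟩

omit hp in
theorem beta_none_mul_eq (g : SL(2, ℤ)) (c : ℤ) (hc : g 1 0 = (p : ℤ) * c) :
    beta p none * (g : Matrix (Fin 2) (Fin 2) ℤ)
      = (conjMat g c hc : Matrix (Fin 2) (Fin 2) ℤ) * beta p none := by
  ext a b
  fin_cases a <;> fin_cases b <;>
    simp [conjMat, beta_none, Matrix.mul_apply, Fin.sum_univ_two, hc] <;> ring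

theorem perm_none_eq (g : SL(2, ℤ)) (c : ℤ) (hc : g 1 0 = (p : ℤ) * c) :
    perm g (none : Option (ZMod p)) = none :=
  (eq_of_beta_mul (beta_none_mul_eq g c hc)).1

theorem coc_none_eq (g : SL(2, ℤ)) (c : ℤ) (hc : g 1 0 = (p : ℤ) * c) :
    coc g (none : Option (ZMod p)) = conjMat g c hc :=
  (eq_of_beta_mul (beta_none_mul_eq g c hc)).2

/-- `perm γ ∞ = ∞` iff `p ∣ γ₁₀`. -/
theorem dvd_of_perm_none {g : SL(2, ℤ)} (h : perm g (none : Option (ZMod p)) = none) :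
    (p : ℤ) ∣ g 1 0 := by
  have h1 := beta_mul g (none : Option (ZMod p))
  rw [h] at h1
  have h2 := congrFun (congrFun h1 1) 0
  simp [beta_none, Matrix.mul_apply, Fin.sum_univ_two] at h2
  exact ⟨_, by rw [h2]; ring⟩

theorem perm_none_iff (g : SL(2, ℤ)) :
    perm g (none : Option (ZMod p)) = none ↔ (p : ℤ) ∣ g 1 0 :=
  ⟨dvd_of_perm_none, perm_none_of_dvd g⟩

/-! ### The upper group -/

/-- **The upper group** `Gam ⊓ δ⁻¹ Gam δ`, `δ = diag(p, 1)`. -/
def upGam (Gam : Subgroup SL(2, ℤ)) (p : ℕ) [Fact p.Prime] : Subgroup SL(2, ℤ) where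
  carrier := {γ | γ ∈ Gam ∧ perm γ (none : Option (ZMod p)) = none ∧
    coc γ (none : Option (ZMod p)) ∈ Gam}
  one_mem' := ⟨one_mem _, perm_one _, by rw [coc_one]; exact one_mem _⟩
  mul_mem' := by
    rintro a b ⟨ha, hpa, hca⟩ ⟨hb, hpb, hcb⟩
    refine ⟨mul_mem ha hb, ?_, ?_⟩
    · rw [perm_mul, hpa, hpb]
    · rw [coc_mul, hpa]
      exact mul_mem hca hcb
  inv_mem' := by
    rintro a ⟨ha, hpa, hca⟩
    have h1 : perm a⁻¹ (none : Option (ZMod p)) = none := by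
      have h := perm_mul a a⁻¹ (none : Option (ZMod p))
      rw [mul_inv_cancel, perm_one, hpa] at h
      exact h.symm
    refine ⟨inv_mem ha, h1, ?_⟩
    have h := coc_mul a a⁻¹ (none : Option (ZMod p))
    rw [mul_inv_cancel, coc_one, hpa] at h
    have h2 : coc a⁻¹ (none : Option (ZMod p)) = (coc a none)⁻¹ :=
      eq_inv_of_mul_eq_one_right h.symm
    rw [h2]
    exact inv_mem hca

variable (Gam : Subgroup SL(2, ℤ))

theorem mem_upGam {γ : SL(2, ℤ)} :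
    γ ∈ upGam Gam p ↔ γ ∈ Gam ∧ perm γ (none : Option (ZMod p)) = none ∧
      coc γ (none : Option (ZMod p)) ∈ Gam := Iff.rfl

theorem upGam_le : upGam Gam p ≤ Gam := fun _ h => h.1

theorem perm_none_of_mem_upGam {γ : SL(2, ℤ)} (h : γ ∈ upGam Gam p) :
    perm γ (none : Option (ZMod p)) = none := h.2.1

theorem coc_none_mem_of_mem_upGam {γ : SL(2, ℤ)} (h : γ ∈ upGam Gam p) :
    coc γ (none : Option (ZMod p)) ∈ Gam := h.2.2

/-- Explicit form of the upper group. -/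
theorem mem_upGam_iff {γ : SL(2, ℤ)} :
    γ ∈ upGam Gam p ↔ γ ∈ Gam ∧ ∃ (c : ℤ) (hc : γ 1 0 = (p : ℤ) * c), conjMat γ c hc ∈ Gam := by
  constructor
  · rintro ⟨h1, h2, h3⟩
    obtain ⟨c, hc⟩ := dvd_of_perm_none h2
    refine ⟨h1, c, hc, ?_⟩
    rw [← coc_none_eq γ c hc]
    exact h3
  · rintro ⟨h1, c, hc, h3⟩
    refine ⟨h1, perm_none_eq γ c hc, ?_⟩
    rw [coc_none_eq γ c hc]
    exact h3

theorem mem_upGam_of_dvd {γ : SL(2, ℤ)} (h1 : γ ∈ Gam) (c : ℤ) (hc : γ 1 0 = (p : ℤ) * c)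
    (h3 : conjMat γ c hc ∈ Gam) : γ ∈ upGam Gam p :=
  (mem_upGam_iff Gam).mpr ⟨h1, c, hc, h3⟩

/-- The upper group is contained in `Γ₀(p)`. -/
theorem upGam_le_Gamma0 : upGam Gam p ≤ CongruenceSubgroup.Gamma0 p := by
  intro γ hγ
  rw [CongruenceSubgroup.Gamma0_mem, ZMod.intCast_zmod_eq_zero_iff_dvd]
  exact dvd_of_perm_none hγ.2.1

theorem neg_one_mem_upGam (h : (-1 : SL(2, ℤ)) ∈ Gam) : (-1 : SL(2, ℤ)) ∈ upGam Gam p := by
  have hc : ((-1 : SL(2, ℤ)) : Matrix (Fin 2) (Fin 2) ℤ) 1 0 = (p : ℤ) * 0 := by simp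
  refine mem_upGam_of_dvd Gam h 0 hc ?_
  have e : conjMat (-1 : SL(2, ℤ)) 0 hc = -1 := by
    apply Subtype.ext
    ext a b
    fin_cases a <;> fin_cases b <;> simp [conjMat]
  rw [e]
  exact h

/-! ### The conjugation datum of `δ = diag(p, 1)` -/

/-- conjugation by `δ` on the upper group: `γ ↦ coc γ ∞ = δ γ δ⁻¹`. -/
def conjHomUp : upGam Gam p →* Gam where
  toFun γ := ⟨coc (γ : SL(2, ℤ)) (none : Option (ZMod p)), coc_none_mem_of_mem_upGam Gam γ.2⟩
  map_one' := Subtype.ext (by simp)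
  map_mul' a b := Subtype.ext (by
    have h := coc_mul (a : SL(2, ℤ)) (b : SL(2, ℤ)) (none : Option (ZMod p))
    rw [perm_none_of_mem_upGam Gam a.2] at h
    exact h)

@[simp] theorem coe_conjHomUp (γ : upGam Gam p) :
    ((conjHomUp Gam γ : Gam) : SL(2, ℤ)) = coc (γ : SL(2, ℤ)) (none : Option (ZMod p)) := rfl

/-- **The conjugation datum** of `δ = diag(p, 1)` for the pair `upGam Gam p ≤ Gam`. -/
def conjData (Gam : Subgroup SL(2, ℤ)) (p : ℕ) [Fact p.Prime] : ConjData Gam (upGam Gam p) where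
  δ := glBeta p none
  c := conjHomUp Gam
  hc γ' := by
    have h := glBeta_mul (γ' : SL(2, ℤ)) (none : Option (ZMod p))
    rw [perm_none_of_mem_upGam Gam γ'.2] at h
    exact h

@[simp] theorem conjData_δ : (conjData Gam p).δ = glBeta p none := rfl

@[simp] theorem coe_conjData_c (γ : upGam Gam p) :
    (((conjData Gam p).c γ : Gam) : SL(2, ℤ)) = coc (γ : SL(2, ℤ)) (none : Option (ZMod p)) := rfl

/-! ### Principal congruence subgroups -/

omit hp in
theorem mem_Gamma_iff_dvd (N : ℕ) (γ : SL(2, ℤ)) :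
    γ ∈ CongruenceSubgroup.Gamma N ↔ (N : ℤ) ∣ γ 0 0 - 1 ∧ (N : ℤ) ∣ γ 0 1 ∧ (N : ℤ) ∣ γ 1 0 ∧
      (N : ℤ) ∣ γ 1 1 - 1 := by
  rw [CongruenceSubgroup.Gamma_mem]
  have e : ∀ a : ℤ, ((a : ZMod N) = 1) ↔ (N : ℤ) ∣ a - 1 := by
    intro a
    rw [← ZMod.intCast_zmod_eq_zero_iff_dvd, Int.cast_sub, Int.cast_one, sub_eq_zero]
  rw [e, e, ZMod.intCast_zmod_eq_zero_iff_dvd, ZMod.intCast_zmod_eq_zero_iff_dvd]

theorem Gamma_mul_le_upGam {w : ℕ} (h : CongruenceSubgroup.Gamma w ≤ Gam) :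
    CongruenceSubgroup.Gamma (w * p) ≤ upGam Gam p := by
  intro γ hγ
  rw [mem_Gamma_iff_dvd] at hγ
  obtain ⟨h00, h01, h10, h11⟩ := hγ
  have hw : (w : ℤ) ∣ ((w * p : ℕ) : ℤ) := ⟨p, by push_cast; ring⟩
  obtain ⟨c', hc'⟩ := h10
  have hc : γ 1 0 = (p : ℤ) * ((w : ℤ) * c') := by
    rw [hc']
    push_cast
    ring
  refine mem_upGam_of_dvd Gam (h ?_) ((w : ℤ) * c') hc (h ?_)
  · rw [mem_Gamma_iff_dvd]
    exact ⟨hw.trans h00, hw.trans h01, hw.trans ⟨c', hc'⟩, hw.trans h11⟩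
  · rw [mem_Gamma_iff_dvd]
    refine ⟨?_, ?_, ?_, ?_⟩
    · simpa [conjMat] using hw.trans h00
    · have : (w : ℤ) ∣ (p : ℤ) * γ 0 1 := Dvd.dvd.mul_left (hw.trans h01) _
      simpa [conjMat] using this
    · simp [conjMat]
    · simpa [conjMat] using hw.trans h11

/-! ### The upper level -/

/-- The generators of the upper level: `g(q)` and `g(q^p)`. -/
def upGens (S : Set (LaurentSeries ℚ)) (p : ℕ) [NeZero p] : Set (LaurentSeries ℚ) :=
  S ∪ (qExpand ℚ p) '' S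

/-- **The upper level** `(L ; p)`. -/
def up (L : LevelData) (p : ℕ) [hp : Fact p.Prime] : LevelData where
  F₀ := IntermediateField.adjoin ℚ (upGens L.gensQ p)
  gensQ := upGens L.gensQ p
  adjoin_eq := rfl
  jq_mem := Or.inl L.jq_mem
  Gam := upGam L.Gam p
  neg_one_mem := neg_one_mem_upGam L.Gam L.neg_one_mem
  w := L.w * p
  w_neZero := ⟨Nat.mul_ne_zero (NeZero.ne L.w) hp.out.ne_zero⟩
  gamma_le := Gamma_mul_le_upGam L.Gam L.gamma_le

variable (L : LevelData)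

@[simp] theorem up_Gam : (up L p).Gam = upGam L.Gam p := rfl

@[simp] theorem up_w : (up L p).w = L.w * p := rfl

@[simp] theorem up_gensQ : (up L p).gensQ = upGens L.gensQ p := rfl

theorem up_F₀ : (up L p).F₀ = IntermediateField.adjoin ℚ (upGens L.gensQ p) := rfl

theorem mem_up_gensQ_left {g : LaurentSeries ℚ} (hg : g ∈ L.gensQ) : g ∈ (up L p).gensQ :=
  Or.inl hg

theorem mem_up_gensQ_right {g : LaurentSeries ℚ} (hg : g ∈ L.gensQ) :
    qExpand ℚ p g ∈ (up L p).gensQ :=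
  Or.inr ⟨g, hg, rfl⟩

/-- The generator `g(q)` of the upper level. -/
def genLeft (g : L.gensQ) : (up L p).gensQ := ⟨g, mem_up_gensQ_left L g.2⟩

/-- The generator `g(q^p)` of the upper level. -/
def genRight (g : L.gensQ) : (up L p).gensQ := ⟨qExpand ℚ p g, mem_up_gensQ_right L g.2⟩

@[simp] theorem coe_genLeft (g : L.gensQ) :
    ((genLeft (p := p) L g : (up L p).gensQ) : LaurentSeries ℚ) = g := rfl

@[simp] theorem coe_genRight (g : L.gensQ) :
    ((genRight (p := p) L g : (up L p).gensQ) : LaurentSeries ℚ) = qExpand ℚ p g := rfl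

/-- Every generator of the upper level is a `g(q)` or a `g(q^p)`. -/
theorem up_gensQ_cases {P : (up L p).gensQ → Prop} (h1 : ∀ g : L.gensQ, P (genLeft L g))
    (h2 : ∀ g : L.gensQ, P (genRight L g)) (g' : (up L p).gensQ) : P g' := by
  obtain ⟨x, hx⟩ := g'
  rcases hx with hx | ⟨g, hg, rfl⟩
  · exact h1 ⟨x, hx⟩
  · exact h2 ⟨g, hg⟩

theorem up_jGen : (up L p).jGen = genLeft L L.jGen := rfl

/-- **The Hecke pair** of the level and its upper level. -/
theorem heckePair_up : HeckePair L.F₀ (up L p).F₀ p where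
  le := by
    rw [← L.adjoin_eq]
    exact IntermediateField.adjoin.mono ℚ _ _ Set.subset_union_left
  qExpand_mem := by
    intro y hy
    have h : (L.F₀).map (qExpandₐ p) ≤ (up L p).F₀ := by
      rw [← L.adjoin_eq, IntermediateField.adjoin_map, IntermediateField.adjoin_le_iff]
      rintro x ⟨g, hg, rfl⟩
      exact IntermediateField.subset_adjoin ℚ _ (Or.inr ⟨g, hg, rfl⟩)
    exact h ⟨y, hy, rfl⟩

/-- The level `Γ₀(p)` lies below every upper level `(L ; p)`. -/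
theorem L0_F₀_le_up : (L0 p).F₀ ≤ (up L p).F₀ := by
  show ModularCurve.modularFunctionFieldFull p ≤ _
  rw [ModularCurve.modularFunctionFieldFull, IntermediateField.adjoin_le_iff]
  rintro x ⟨d, hne, hdvd, rfl⟩
  rcases (Nat.dvd_prime hp.out).mp hdvd with rfl | rfl
  · rw [ModularCurve.qExpand_one_apply]
    exact IntermediateField.subset_adjoin ℚ _ (Or.inl L.jq_mem)
  · exact IntermediateField.subset_adjoin ℚ _ (Or.inr ⟨_, L.jq_mem, rfl⟩)

end Fermat.Agent.DS.G.HECKE.UpLevel
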