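/-
Programme DS (S48), chapter G-HECKE, brick H10b (helper19): **the analytic package of the upper
level `(L ; p)`**.

From the per-generator analytic package `G : AnalyticGens L Lc ι` of a level `L` (analytic generators
`gFun g`, their `q`-expansions at `∞`, `L.Gam`-invariance, expansions at all cusps with coefficients
in `ι Lc`, DISTINCT) we build the package `upAnalyticGens G hζ : AnalyticGens (up L p) Lc ι` of the
upper level `up L p` (`DS/G/HECKE/UpLevel.lean`): the analytic generators are `gFun g` and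
`z ↦ gFun g (p z)`;

* invariance under `upGam L.Gam p` : `p (γ z) = (δ γ δ⁻¹) (p z)`;
* cusp expansions: `p (γ z) = coc γ ∞ (β_i z)` (helper27's decomposition `δ γ = coc γ ∞ · β_i`), and
  `f ∘ β_i` has a `q_{w p}`-expansion when `f` has a `q_w`-expansion (coefficients multiplied by
  powers of `ζ_{w p}`, whence the hypothesis `hζ : ζ_{w p} ∈ ι Lc`);
* DISTINCT: `j(p ·) ∘ γ = j(p ·) ∘ γ'` forces `γ' γ⁻¹ ∈ Γ₀(p)` (chapter X0, level `p`), and then
  `δ γ' γ⁻¹ δ⁻¹ ∈ L.Gam` by DISTINCT at the level `L`.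

All generic twins (G-X0, G-KUM, G-RED, …) therefore apply to `up L p` as soon as they apply to `L`.
-/
import Fermat.Agent.DS.G.HECKE.UpLevel
import Fermat.Agent.X0.Degree
import Fermat.Agent.X0.CuspExpand

set_option autoImplicit false
set_option linter.unusedSectionVars false

open UpperHalfPlane hiding I
open scoped MatrixGroups Real

noncomputable section

namespace Fermat.Agent.DS.G.HECKE.UpAnalytic

open Fermat.Agent.X0 Fermat.Agent.X0.Analytic
open Fermat.Agent.ES.HEQ.DoubleCoset27 Fermat.Agent.ES.HEQ.RepGamma19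
open Fermat.Agent.ES.HEQ.QExpMer19
open Fermat.Agent.DS.G.Level Fermat.Agent.DS.G.HECKE.Iface Fermat.Agent.DS.G.HECKE.UpLevel
open ModularCurve PowerSeries

/-! ### `q`-expansions under substitutions -/

section Subst

variable {h h' : ℕ} {f : ℍ → ℂ} {m : ℕ} {P : PowerSeries ℂ}

/-- The twisted power series `∑ ζ^{n - m} a_n X^n`. -/
def twistP {R : Type*} [Field R] (ζ : R) (m : ℕ) (P : PowerSeries R) : PowerSeries R :=
  PowerSeries.mk fun n => ζ⁻¹ ^ m * ζ ^ n * PowerSeries.coeff n P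

theorem map_twistP {R S : Type*} [Field R] [Field S] (ι : R →+* S) (ζ : R) (m : ℕ)
    (P : PowerSeries R) : (twistP ζ m P).map ι = twistP (ι ζ) m (P.map ι) := by
  ext n
  simp [twistP, PowerSeries.coeff_map, map_mul, map_pow, map_inv₀]

/-- If `q_h (φ z) = ζ q_{h'} z` then `f ∘ φ` has the twisted `q_{h'}`-expansion. -/
theorem isQExp_comp_twist (hP : IsQExp h f m P) (φ : ℍ → ℍ) {ζ : ℂ} (hζ : ζ ≠ 0)
    (hq : ∀ z, qh h (φ z) = ζ * qh h' z) :
    IsQExp h' (fun z => f (φ z)) m (twistP ζ m P) := by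
  intro z
  have h1 := (hP (φ z)).mul_left (ζ⁻¹ ^ m)
  rw [hq] at h1
  have e : ζ⁻¹ ^ m * (f (φ z) * (ζ * qh h' z) ^ m) = f (φ z) * qh h' z ^ m := by
    rw [mul_pow, inv_pow]
    field_simp
  rw [e] at h1
  refine h1.congr_fun fun n => ?_
  rw [twistP, PowerSeries.coeff_mk, mul_pow]
  ring

/-- If `q_h (φ z) = (q_{h'} z)^k` then `f ∘ φ` has the expanded `q_{h'}`-expansion. -/
theorem isQExp_comp_pow (hP : IsQExp h f m P) (φ : ℍ → ℍ) (k : ℕ) [hk : NeZero k]
    (hq : ∀ z, qh h (φ z) = qh h' z ^ k) :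
    IsQExp h' (fun z => f (φ z)) (m * k) (P.expand k hk.ne) := by
  intro z
  have hinj : Function.Injective (fun n : ℕ => k * n) := mul_right_injective₀ hk.ne
  have h1 := hP (φ z)
  rw [hq] at h1
  rw [mul_comm m k, pow_mul, ← hinj.hasSum_iff]
  · convert h1 using 2 with n
    simp only [Function.comp_apply, coeff_expand_mul, pow_mul]
  · intro n hn
    have : ¬ k ∣ n := fun ⟨d, hd⟩ => hn ⟨d, hd.symm⟩
    rw [coeff_expand_of_not_dvd k hk.ne P this, zero_mul]

end Subst

section QParam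

variable {p : ℕ} [hp : Fact p.Prime]

/-- `q_w (p z) = q_{w p}(z)^{p²}`. -/
theorem qh_glBeta_none (w : ℕ) [NeZero w] (z : ℍ) :
    qh w (glBeta p none • z) = qh (w * p) z ^ (p * p) := by
  have hp0 : (p : ℂ) ≠ 0 := by exact_mod_cast hp.out.ne_zero
  have hw0 : (w : ℂ) ≠ 0 := by exact_mod_cast NeZero.ne w
  rw [glBeta_none_smul]
  unfold qh Function.Periodic.qParam
  rw [← Complex.exp_nat_mul, coe_scaleH]
  congr 1
  push_cast
  field_simp

/-- `q_w ((z + j)/p) = ζ_{w p}^j q_{w p}(z)`. -/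
theorem qh_glBeta_some (w : ℕ) [NeZero w] (j : ZMod p) (z : ℍ) :
    qh w (glBeta p (some j) • z) =
      Complex.exp (2 * π * Complex.I / ((w * p : ℕ) : ℂ)) ^ j.val * qh (w * p) z := by
  have hp0 : (p : ℂ) ≠ 0 := by exact_mod_cast hp.out.ne_zero
  have hw0 : (w : ℂ) ≠ 0 := by exact_mod_cast NeZero.ne w
  rw [glBeta_some]
  unfold qh Function.Periodic.qParam
  rw [ModularForm.coe_heckeMatrix_smul hp.out.ne_zero, ← Complex.exp_nat_mul, ← Complex.exp_add]
  congr 1
  push_cast
  field_simp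
  ring

end QParam

/-! ### DISTINCT at the level `Γ₀(N)`, function form -/

/-- If `j(N ·) ∘ γ = j(N ·) ∘ γ'` then `γ' γ⁻¹ ∈ Γ₀(N)`. -/
theorem mem_Gamma0_of_compSL_jdFun_eq (N : ℕ) [NeZero N] (γ γ' : SL(2, ℤ))
    (h : compSL (jdFun N) γ = compSL (jdFun N) γ') :
    γ' * γ⁻¹ ∈ CongruenceSubgroup.Gamma0 N := by
  apply CuspDistinct.mem_Gamma0_of_T_jdF_eq (realizeData N) (cuspData N) γ γ'
  have h1 : ((jdR N N (dvd_refl N) : Rsub N) : FF N) = jdF N N (dvd_refl N) := rfl
  rw [← h1]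
  apply intg_T_eq_of_qn
  have h2 : (realizeData N).Θ (jdR N N (dvd_refl N)) = jdFun N :=
    (realizeData N).jd_eq N (dvd_refl N)
  rw [h2, h, ← h2]
  exact intg_T_spec N (realizeData N) (cuspData N) γ' _

/-! ### The analytic generators of the upper level -/

section Up

variable {p : ℕ} [hp : Fact p.Prime]
variable {L : LevelData} {Lc : Type} [Field Lc] [Algebra ℚ Lc] {ι : Lc →+* ℂ}
variable (G : AnalyticGens L Lc ι)

theorem exists_of_not_mem {g' : (up L p).gensQ} (h : (g' : LaurentSeries ℚ) ∉ L.gensQ) :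
    ∃ g : L.gensQ, qExpand ℚ p (g : LaurentSeries ℚ) = (g' : LaurentSeries ℚ) := by
  obtain ⟨g, hg, hgg⟩ := g'.2.resolve_left h
  exact ⟨⟨g, hg⟩, hgg⟩

open Classical in
/-- The analytic generators of the upper level: `gFun g` and `z ↦ gFun g (p z)`. -/
def upFun (g' : (up L p).gensQ) : ℍ → ℂ :=
  if h : (g' : LaurentSeries ℚ) ∈ L.gensQ then G.gFun ⟨g', h⟩
  else fun z => G.gFun (exists_of_not_mem h).choose (scaleH p z)

theorem hasQExp_upFun (g' : (up L p).gensQ) :
    HasQExp (coeffEmb ℂ (g' : LaurentSeries ℚ)) (upFun G g') := by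
  unfold upFun
  split_ifs with h
  · exact G.hasQExp ⟨g', h⟩
  · have h1 := (G.hasQExp (exists_of_not_mem h).choose).qExpand p
    rw [← coeffEmb_qExpand, (exists_of_not_mem h).choose_spec] at h1
    exact h1

theorem upFun_genLeft (g : L.gensQ) : upFun G (genLeft (p := p) L g) = G.gFun g := by
  unfold upFun
  rw [dif_pos (show ((genLeft (p := p) L g : (up L p).gensQ) : LaurentSeries ℚ) ∈ L.gensQ from g.2)]
  rfl

theorem upFun_genRight (g : L.gensQ) :
    upFun G (genRight (p := p) L g) = fun z => G.gFun g (scaleH p z) := by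
  have h1 := hasQExp_upFun G (genRight (p := p) L g)
  have h2 := (G.hasQExp g).qExpand p
  rw [← coeffEmb_qExpand] at h2
  exact h1.unique_right h2

/-- `p (γ z) = coc γ ∞ (β_{perm γ ∞} z)`. -/
theorem scaleH_smul (γ : SL(2, ℤ)) (z : ℍ) :
    scaleH p (γ • z) = coc γ (none : Option (ZMod p)) • (glBeta p (perm γ none) • z) := by
  rw [← glBeta_none_smul, glBeta_smul_smul]

theorem upFun_invariant (g' : (up L p).gensQ) (γ : SL(2, ℤ)) (hγ : γ ∈ (up L p).Gam) :
    compSL (upFun G g') γ = upFun G g' := by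
  induction g' using up_gensQ_cases with
  | h1 g =>
    rw [upFun_genLeft]
    exact G.invariant g γ (upGam_le L.Gam hγ)
  | h2 g =>
    rw [upFun_genRight]
    funext z
    show G.gFun g (scaleH p (γ • z)) = G.gFun g (scaleH p z)
    rw [scaleH_smul, perm_none_of_mem_upGam L.Gam hγ, glBeta_none_smul]
    exact congrFun (G.invariant g _ (coc_none_mem_of_mem_upGam L.Gam hγ)) (scaleH p z)

theorem upFun_cusp
    (hζ : ∃ ζ' : Lc, ι ζ' = Complex.exp (2 * π * Complex.I / ((L.w * p : ℕ) : ℂ)))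
    (g' : (up L p).gensQ) (γ : SL(2, ℤ)) :
    ∃ (m : ℕ) (P : PowerSeries Lc), IsQExp (up L p).w (compSL (upFun G g') γ) m (P.map ι) := by
  induction g' using up_gensQ_cases with
  | h1 g =>
    rw [upFun_genLeft]
    obtain ⟨m, P, hP⟩ := G.cusp g γ
    refine ⟨m * p, P.expand p hp.out.ne_zero, ?_⟩
    rw [PowerSeries.map_expand]
    exact hP.level_mul p
  | h2 g =>
    rw [upFun_genRight]
    obtain ⟨m, P, hP⟩ := G.cusp g (coc γ (none : Option (ZMod p)))
    have hfun : compSL (fun z => G.gFun g (scaleH p z)) γ =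
        fun z => compSL (G.gFun g) (coc γ (none : Option (ZMod p)))
          (glBeta p (perm γ none) • z) := by
      funext z
      show G.gFun g (scaleH p (γ • z)) = _
      rw [scaleH_smul]
      rfl
    rw [hfun]
    cases hi : perm γ (none : Option (ZMod p)) with
    | none =>
      have : NeZero (p * p) := ⟨Nat.mul_ne_zero hp.out.ne_zero hp.out.ne_zero⟩
      refine ⟨m * (p * p), P.expand (p * p) (NeZero.ne _), ?_⟩
      rw [PowerSeries.map_expand]
      exact isQExp_comp_pow hP (fun z => glBeta p none • z) (p * p)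
        (fun z => qh_glBeta_none L.w z)
    | some j =>
      obtain ⟨ζ', hζ'⟩ := hζ
      refine ⟨m, twistP (ζ' ^ j.val) m P, ?_⟩
      rw [map_twistP, map_pow, hζ']
      exact isQExp_comp_twist hP (fun z => glBeta p (some j) • z)
        (pow_ne_zero _ (Complex.exp_ne_zero _)) (fun z => qh_glBeta_some L.w j z)

theorem upFun_distinct (γ γ' : SL(2, ℤ))
    (h : ∀ g' : (up L p).gensQ, compSL (upFun G g') γ = compSL (upFun G g') γ') :
    γ' * γ⁻¹ ∈ (up L p).Gam := by
  have hL : γ' * γ⁻¹ ∈ L.Gam := G.distinct γ γ' (fun g => by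
    have := h (genLeft L g)
    rwa [upFun_genLeft] at this)
  have hR : ∀ (g : L.gensQ) (z : ℍ),
      G.gFun g (scaleH p (γ • z)) = G.gFun g (scaleH p (γ' • z)) := by
    intro g z
    have h1 := congrFun (h (genRight L g)) z
    rw [upFun_genRight] at h1
    exact h1
  have h0 : γ' * γ⁻¹ ∈ CongruenceSubgroup.Gamma0 p := by
    apply mem_Gamma0_of_compSL_jdFun_eq p γ γ'
    funext z
    have h1 := hR L.jGen z
    rw [G.j_eq] at h1
    exact h1
  rw [CongruenceSubgroup.Gamma0_mem, ZMod.intCast_zmod_eq_zero_iff_dvd] at h0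
  obtain ⟨c, hc⟩ := h0
  refine mem_upGam_of_dvd L.Gam hL c hc ?_
  rw [← coc_none_eq _ c hc]
  have hperm : perm (γ' * γ⁻¹) (none : Option (ZMod p)) = none := perm_none_eq _ c hc
  have key := G.distinct 1 (coc (γ' * γ⁻¹) (none : Option (ZMod p))) (fun g => ?_)
  · simpa using key
  · funext z''
    -- write `z'' = p z'` and `z' = γ z₀`
    set z' : ℍ := (glBeta p none)⁻¹ • z'' with hz'
    have hz'' : z'' = scaleH p z' := by
      rw [← glBeta_none_smul, hz', smul_inv_smul]
    set z₀ : ℍ := γ⁻¹ • z' with hz₀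
    have e1 : γ • z₀ = z' := by rw [hz₀, smul_inv_smul]
    have e2 : γ' • z₀ = (γ' * γ⁻¹) • z' := by rw [hz₀, mul_smul]
    have h1 := hR g z₀
    rw [e1, e2, scaleH_smul (γ' * γ⁻¹) z', hperm, glBeta_none_smul, ← hz''] at h1
    show G.gFun g ((1 : SL(2, ℤ)) • z'') = G.gFun g (coc (γ' * γ⁻¹) (none : Option (ZMod p)) • z'')
    rw [one_smul]
    exact h1

/-- **The analytic package of the upper level.** -/
def upAnalyticGens
    (hζ : ∃ ζ' : Lc, ι ζ' = Complex.exp (2 * π * Complex.I / ((L.w * p : ℕ) : ℂ))) :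
    AnalyticGens (up L p) Lc ι where
  gFun := upFun G
  hasQExp := hasQExp_upFun G
  j_eq := by
    rw [up_jGen, upFun_genLeft]
    exact G.j_eq
  invariant := upFun_invariant G
  cusp := upFun_cusp G hζ
  distinct := upFun_distinct G

@[simp] theorem upAnalyticGens_gFun
    (hζ : ∃ ζ' : Lc, ι ζ' = Complex.exp (2 * π * Complex.I / ((L.w * p : ℕ) : ℂ))) :
    (upAnalyticGens G hζ).gFun = upFun G := rfl

end Up

/-! ### The hypothesis on roots of unity for `ℚbar` and `ℂ` -/

theorem exists_zeta_Kbar (N : ℕ) [NeZero N] :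
    ∃ ζ' : Kbar, iotaK ζ' = Complex.exp (2 * π * Complex.I / ((N : ℕ) : ℂ)) :=
  ⟨zetaK N, iotaK_zetaK N⟩

theorem exists_zeta_C (N : ℕ) :
    ∃ ζ' : ℂ, (RingHom.id ℂ) ζ' = Complex.exp (2 * π * Complex.I / ((N : ℕ) : ℂ)) :=
  ⟨_, rfl⟩

end Fermat.Agent.DS.G.HECKE.UpAnalytic
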