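/-
Programme DS (S48), chapter G-HECKE, brick H09b (helper19): **the level package of an arbitrary level
with analytic generators** (generic version of `DS/X1/Inst13`, which does it for `L1 M`).

For `L : LevelData`, a coefficient field `Lc` with an injective `ι : Lc →+* ℂ` and
`G : AnalyticGens L Lc ι`:
* `realizeOf G hι : RealizeDataL L Lc ι` (`G/X0/Realize`), `realizeOf_genR`;
* `cuspOf G hι : CuspDataL L Lc ι (realizeOf G hι)` (`G/X0/CuspExpand` + `G/X0/FracR`);
* `cuspOf_distinct : (cuspOf G hι).Distinct`;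
and for `Lc = ℚbar`, `ι = iotaK` the output of the G-X0 `Degree` twin:
* `isGen_jFL G : FF.IsGen ℚbar (jFL L)`, `finrank_jFL G : [FFL L : ℚbar(j)] = [SL(2,ℤ) : L.Gam]`.

In particular all of this applies to the upper level `up L p` with `UpAnalytic.upAnalyticGens G _`:
`isGen_up`, `finrank_up`; with `DegreeAlong` this gives the degree of the degeneracy embedding
`card_cosetIdx_up : #(L.Gam ⧸ upGam L.Gam p) = finrankAlong ℚbar (alphaG ℚbar (heckePair_up L))`.
-/
import Fermat.Agent.DS.G.X0.Realize
import Fermat.Agent.DS.G.X0.CuspExpand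
import Fermat.Agent.DS.G.X0.FracR
import Fermat.Agent.DS.G.X0.Degree
import Fermat.Agent.DS.G.HECKE.UpAnalytic
import Fermat.Agent.DS.G.HECKE.DegreeAlong

set_option autoImplicit false
set_option linter.unusedSectionVars false

open UpperHalfPlane hiding I
open scoped MatrixGroups Real IntermediateField

noncomputable section

namespace Fermat.Agent.DS.G.HECKE.LevelPack

open Fermat.Agent.X0 Fermat.Agent.X0.Analytic
open Fermat.Agent.DS.G.Level Fermat.Agent.DS.G.X0
open Fermat.Agent.DS.G.HECKE.Iface Fermat.Agent.DS.G.HECKE.UpLevel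
open Fermat.Agent.DS.G.HECKE.UpAnalytic Fermat.Agent.DS.G.HECKE.CosetReps
open AlgebraicCurve

section General

variable {L : LevelData} {Lc : Type} [Field Lc] [Algebra ℚ Lc] {ι : Lc →+* ℂ}
  (G : AnalyticGens L Lc ι) (hι : Function.Injective ι)

/-- The analytic realisation of `Lc[generators]`. -/
def realizeOf : RealizeDataL L Lc ι := Realize.realizeDataL ι L G hι

theorem realizeOf_genR (g : L.gensQ) : (realizeOf G hι).Θ (genR L Lc g) = G.gFun g :=
  Realize.realizeDataL_genR ι L G hι g

theorem genCuspOf : CuspExpand.GenCusp (realizeOf G hι) := by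
  intro g γ
  rw [realizeOf_genR]
  exact G.cusp g γ

/-- The cusp expansions. -/
def cuspOf : CuspDataL L Lc ι (realizeOf G hι) :=
  CuspExpand.cuspDataOf (realizeOf G hι) (genCuspOf G hι) hι

/-- **HYP3 / DISTINCT.** -/
theorem cuspOf_distinct : (cuspOf G hι).Distinct := by
  refine CuspExpand.distinct_of (realizeOf G hι) (cuspOf G hι) ?_
  intro γ γ' h
  refine G.distinct γ γ' fun g => ?_
  have := h g
  rwa [realizeOf_genR] at this

end General

section Kbar

variable {L : LevelData} (G : AnalyticGens L Kbar iotaK)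

include G in
/-- `j` is a transcendental generator of `FFL L / ℚbar`. -/
theorem isGen_jFL : FF.IsGen Kbar (jFL L) :=
  Fermat.Agent.DS.G.X0.Degree.isGen_jF L (realizeOf G iotaK_injective) (cuspOf G iotaK_injective)
    (cuspOf_distinct G iotaK_injective)

include G in
/-- `[FFL L : ℚbar(j)] = [SL(2,ℤ) : L.Gam]`. -/
theorem finrank_jFL : Module.finrank Kbar⟮jFL L⟯ (FFL L) = L.Gam.index :=
  Fermat.Agent.DS.G.X0.Degree.finrank_adjoin_eq_index L (realizeOf G iotaK_injective) (cuspOf G iotaK_injective)
    (cuspOf_distinct G iotaK_injective)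

variable {p : ℕ} [hp : Fact p.Prime]

/-- The analytic package of the upper level over `ℚbar`. -/
def upGensK : AnalyticGens (up L p) Kbar iotaK :=
  upAnalyticGens G (exists_zeta_Kbar (L.w * p))

include G in
theorem isGen_up : FF.IsGen Kbar (jFL (up L p)) := isGen_jFL (upGensK G)

include G in
theorem finrank_up :
    Module.finrank Kbar⟮jFL (up L p)⟯ (FFL (up L p)) = (upGam L.Gam p).index :=
  finrank_jFL (upGensK G)

/-- `α j = j`. -/
theorem alphaG_jFL : alphaG Kbar (heckePair_up (p := p) L) (jFL L) = jFL (up L p) :=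
  Subtype.ext (coe_alphaG Kbar (heckePair_up (p := p) L) (jFL L))

include G in
/-- **The degree of the degeneracy embedding `α`** is the number of cosets. -/
theorem card_cosetIdx_up :
    Nat.card (CosetIdx L.Gam (upGam L.Gam p)) =
      finrankAlong Kbar (alphaG Kbar (heckePair_up (p := p) L)) := by
  refine DegreeAlong.card_cosetIdx_eq_finrankAlong_alphaG (heckePair_up (p := p) L) L.Gam
    (upGam L.Gam p) (upGam_le L.Gam) ?_ (jFL L) (finrank_jFL G) ?_
  · exact (Subgroup.FiniteIndex.index_ne_zero (H := (up L p).Gam))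
  · rw [alphaG_jFL]
    exact finrank_up G

theorem finite_cosetIdx_up : Finite (CosetIdx L.Gam (upGam L.Gam p)) :=
  DegreeAlong.finite_cosetIdx_of_index_ne_zero L.Gam (upGam L.Gam p) (upGam_le L.Gam)
    (Subgroup.FiniteIndex.index_ne_zero (H := (up L p).Gam))

end Kbar

end Fermat.Agent.DS.G.HECKE.LevelPack
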