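/-
Programme DS (S48), chapter G-HECKE, brick H11 (helper88): **the arithmetic-analytic model of an
abstract level** (generic twin of the paragraph `Level` of `ES/HEQ/RealBar19`).

For `L : LevelData`, an analytic realisation over `ℂ` (`D : RealizeDataL L ℂ (RingHom.id ℂ)`,
chapter G-X0) with the two hypotheses of `G/ES/KUM/OfLevel` (`hgen : GenCusp D`, `hstab`) and
`[IsFractionRing (Rsubc L ℂ) (FFc L ℂ)]`, we get `ofLevel L D hgen hstab : ArithModel L.F₀` with
`Gam = L.Gam` and `an = realMer ∘ bcBar`, where `bcBar L : FFK L.F₀ →+* FFc L ℂ` is the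
coefficientwise base change along `ι : ℚbar → ℂ` and `realMer` is the realisation of the analytic
model `KUM.OfLevel.ofLevel L D hgen hstab : CModel (FFc L ℂ)` of the Kummer chapter.

`arithModel L G : ArithModel L.F₀` is the same from the per-generator package
`G : AnalyticGens L ℂ (RingHom.id ℂ)` alone, with `an = KumQG.anQ (OfGens.ofGens L G)` (by `rfl`), so
that the Kummer adapter `KumQG.isKummerMap_kumQ` applies verbatim.
-/
import Fermat.Agent.DS.G.HECKE.Iface
import Fermat.Agent.DS.G.ES.KUM.OfLevel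
import Fermat.Agent.RED.DESC.CoeffDescent1
import Fermat.Agent.X0.Integrality
import Fermat.Agent.DS.G.ES.KUM.OfGens
import Fermat.Agent.DS.G.HECKE.KumQG

set_option autoImplicit false
set_option linter.unusedSectionVars false
set_option linter.style.haveILetI false

open UpperHalfPlane hiding I
open scoped MatrixGroups

noncomputable section

namespace Fermat.Agent.DS.G.HECKE.OfLevel

open Fermat.Agent.X0 Fermat.Agent.X0.Analytic Fermat.Agent.X0.SurjPoint Fermat.Agent.ES.KUM
open Fermat.Agent.ES.HEQ.QExpMer19 ModularCurve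
open Fermat.Agent.RED.DESC
open Fermat.Agent.DS.G.Level Fermat.Agent.DS.G.X0.CuspExpand Fermat.Agent.DS.G.ES.KUM.Iface
open Fermat.Agent.DS.G.HECKE.Iface

/-! ### Laurent expansions of the realisation of an analytic model over `ℂ` -/

section CModelQExp

variable {F₀ : IntermediateField ℚ (LaurentSeries ℚ)}
  (A : CModel (Iface.FFc ℂ F₀))

/-- If the realisation of every element of `R` has the formal element as `q`-expansion, then
`realMer A y` has the Laurent expansion `y`, for every element `y` of the function field.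
(Generic twin of `QExpMer19.hasQExpMer_realMer`.) -/
theorem hasQExpMer_realMer
    (hq : ∀ u : A.R, HasQExp (((u : Iface.FFc ℂ F₀)) : LaurentSeries ℂ) ((A.Theta u : HolH) : ℍ → ℂ))
    (y : Iface.FFc ℂ F₀) :
    HasQExpMer (y : LaurentSeries ℂ) (DS.G.ES.KUM.CReal5.realMer A y) := by
  obtain ⟨r, s, hs, rfl⟩ := DS.G.ES.KUM.CReal5.exists_divC_ne_zero A y
  have hs' : (s : Iface.FFc ℂ F₀) ≠ 0 := fun h => hs (Subtype.ext h)
  refine ⟨A.Theta r, A.Theta s, ((r : Iface.FFc ℂ F₀) : LaurentSeries ℂ),
    ((s : Iface.FFc ℂ F₀) : LaurentSeries ℂ), ?_, hq r, hq s, ?_, ?_⟩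
  · intro h
    exact hs' (Subtype.ext h)
  · have h1 : ((r : Iface.FFc ℂ F₀) / (s : Iface.FFc ℂ F₀)) * (s : Iface.FFc ℂ F₀) =
        (r : Iface.FFc ℂ F₀) := div_mul_cancel₀ _ hs'
    exact congrArg (Subtype.val) h1
  · rw [map_div₀, DS.G.ES.KUM.CReal5.realMer_coe, DS.G.ES.KUM.CReal5.realMer_coe]
    have h2 : algebraMap HolH MerH (A.Theta s) ≠ 0 :=
      (map_ne_zero_iff _ (IsFractionRing.injective HolH MerH)).mpr
        ((map_ne_zero_iff _ A.Theta_injective).mpr hs)
    exact div_mul_cancel₀ _ h2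

end CModelQExp

/-! ### The model of a level -/

section Level

variable (L : LevelData)

/-- Coefficientwise base change `ℚbar · F₀ → ℂ · F₀` along `ι : ℚbar → ℂ`. -/
def bcBar : FFK L.F₀ →+* Level.FFc L ℂ :=
  RingHom.codRestrict ((coeffMap iotaK).comp (laurentBaseChange Kbar L.F₀).val.toRingHom)
    (laurentBaseChange ℂ L.F₀)
    (fun f => CoeffDescent1.coeffMap_mem_laurentBaseChange_of_algHom iotaK L.F₀ f.2)

@[simp] theorem coe_bcBar (f : FFK L.F₀) :
    ((bcBar L f : Level.FFc L ℂ) : LaurentSeries ℂ) = toC (f : LaurentSeries Kbar) := rfl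

/-- The base change of the generator over `ℚbar` is the generator over `ℂ`. -/
theorem bcBar_genc (g : L.gensQ) : bcBar L (genc L Kbar g) = genc L ℂ g := by
  apply Subtype.ext
  rw [coe_bcBar, coe_genc, coe_genc]
  exact CoeffDescent1.coeffMap_coeffEmb_of_algHom iotaK (g : LaurentSeries ℚ)

variable (D : RealizeDataL L ℂ (RingHom.id ℂ)) [IsFractionRing (Rsubc L ℂ) (Level.FFc L ℂ)]
  (hgen : GenCusp D)
  (hstab : ∀ δ : SL(2, ℤ),
    (∀ g : L.gensQ, compSL (D.Θ (genR L ℂ g)) δ = D.Θ (genR L ℂ g)) → δ ∈ L.Gam)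

/-- The analytic model over `ℂ` of the Kummer chapter. -/
abbrev cModel : CModel (Level.FFc L ℂ) := DS.G.ES.KUM.OfLevel.ofLevel L D hgen hstab

include hgen hstab in
/-- The realisation of `u ∈ R = ℂ[generators]` has the formal element as `q`-expansion. -/
theorem hasQExp_theta (u : Rsubc L ℂ) :
    HasQExp (((u : Level.FFc L ℂ)) : LaurentSeries ℂ) (D.Θ u) := by
  obtain ⟨m, P, hP, hu⟩ := DS.G.ES.KUM.OfLevel.isQExp_ofLevel L D hgen hstab u
  rw [hu]
  exact intg_hasQExp_of_isQExp hP

/-- The realisation of `ℚbar · F₀` in `MerH`. -/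
def anL : FFK L.F₀ →+* MerH :=
  (DS.G.ES.KUM.CReal5.realMer (cModel L D hgen hstab)).comp (bcBar L)

theorem anL_apply (f : FFK L.F₀) :
    anL L D hgen hstab f = DS.G.ES.KUM.CReal5.realMer (cModel L D hgen hstab) (bcBar L f) := rfl

theorem hasQExpMer_anL (f : FFK L.F₀) :
    HasQExpMer (toC (f : LaurentSeries Kbar)) (anL L D hgen hstab f) :=
  hasQExpMer_realMer (F₀ := L.F₀) (cModel L D hgen hstab)
    (fun u => hasQExp_theta L D hgen hstab u) (bcBar L f)

theorem slMer_anL_of_mem (γ : SL(2, ℤ)) (hγ : γ ∈ L.Gam) (f : FFK L.F₀) :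
    slMer γ (anL L D hgen hstab f) = anL L D hgen hstab f :=
  DS.G.ES.KUM.CReal5.slMer_realMer_of_mem (cModel L D hgen hstab) γ hγ _

/-- On the generators the realisation is the analytic generator. -/
theorem anL_genc (g : L.gensQ) :
    anL L D hgen hstab (genc L Kbar g) =
      algebraMap HolH MerH ⟨D.Θ (genR L ℂ g), D.mem_HolH (genR L ℂ g)⟩ := by
  rw [anL_apply, bcBar_genc]
  exact DS.G.ES.KUM.CReal5.realMer_coe (cModel L D hgen hstab) (genR L ℂ g)

/-- **The arithmetic-analytic model of the level `L`.** -/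
def ofLevel : ArithModel L.F₀ where
  Gam := L.Gam
  an := anL L D hgen hstab
  hasQExpMer := hasQExpMer_anL L D hgen hstab
  invariant γ hγ f := slMer_anL_of_mem L D hgen hstab γ hγ f
  stab δ h := by
    apply hstab δ
    intro g
    have h1 := h (genc L Kbar g)
    rw [anL_genc, slMer_algebraMap] at h1
    have h2 := IsFractionRing.injective HolH MerH h1
    exact congrArg Subtype.val h2

@[simp] theorem ofLevel_Gam : (ofLevel L D hgen hstab).Gam = L.Gam := rfl

@[simp] theorem ofLevel_an : (ofLevel L D hgen hstab).an = anL L D hgen hstab := rfl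

end Level

/-! ### The model of a level from the per-generator package -/

section Gens

open Fermat.Agent.DS.G.ES.KUM.OfGens Fermat.Agent.DS.G.HECKE.DescG Fermat.Agent.DS.G.HECKE.KumQG

variable (L : LevelData) (G : AnalyticGens L ℂ (RingHom.id ℂ))

/-- The base change `bcQC` has the complexified Laurent series. -/
theorem coe_bcQC_eq_toC (f : FFK L.F₀) :
    ((bcQC L.F₀ f : FCx L.F₀) : LaurentSeries ℂ) = toC (f : LaurentSeries Kbar) := rfl

/-- The base change of the generator over `ℚbar` is the generator over `ℂ`. -/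
theorem bcQC_genc (g : L.gensQ) : bcQC L.F₀ (genc L Kbar g) = genc L ℂ g := by
  apply Subtype.ext
  rw [coe_bcQC_eq_toC, coe_genc, coe_genc]
  exact CoeffDescent1.coeffMap_coeffEmb_of_algHom iotaK (g : LaurentSeries ℚ)

/-- The realisation of `u ∈ R = ℂ[generators]` has the formal element as `q`-expansion. -/
theorem hasQExp_theta_ofGens (u : Rsubc L ℂ) :
    HasQExp (((u : Level.FFc L ℂ)) : LaurentSeries ℂ) (((ofGens L G).Theta u : HolH) : ℍ → ℂ) := by
  obtain ⟨m, P, hP, hu⟩ := isQExp_ofGens L G u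
  rw [hu]
  exact intg_hasQExp_of_isQExp hP

theorem hasQExpMer_anQ_ofGens (f : FFK L.F₀) :
    HasQExpMer (toC (f : LaurentSeries Kbar)) (anQ (ofGens L G) f) :=
  hasQExpMer_realMer (F₀ := L.F₀) (ofGens L G) (fun u => hasQExp_theta_ofGens L G u)
    (bcQC L.F₀ f)

/-- On the generators the realisation is the analytic generator. -/
theorem anQ_ofGens_genc (g : L.gensQ) :
    anQ (ofGens L G) (genc L Kbar g) =
      algebraMap HolH MerH ((ofGens L G).Theta (genR L ℂ g)) := by
  rw [anQ_apply, bcQC_genc]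
  exact DS.G.ES.KUM.CReal5.realMer_coe (ofGens L G) (genR L ℂ g)

/-- **The arithmetic-analytic model of the level `L` attached to the analytic generators `G`.** -/
def arithModel : ArithModel L.F₀ where
  Gam := L.Gam
  an := anQ (ofGens L G)
  hasQExpMer := hasQExpMer_anQ_ofGens L G
  invariant γ hγ f := slMer_anQ (ofGens L G) γ hγ f
  stab δ h := by
    have h0 := G.distinct 1 δ (fun g => by
      have h1 := h (genc L Kbar g)
      rw [anQ_ofGens_genc, slMer_algebraMap] at h1
      have h2 := IsFractionRing.injective HolH MerH h1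
      have h3 := congrArg Subtype.val h2
      rw [compSL_one, ← ofGens_Theta_genR L G g]
      exact h3.symm)
    simpa using h0

@[simp] theorem arithModel_Gam : (arithModel L G).Gam = L.Gam := rfl

theorem arithModel_an : (arithModel L G).an = anQ (ofGens L G) := rfl

theorem arithModel_an_genc (g : L.gensQ) :
    (arithModel L G).an (genc L Kbar g) =
      algebraMap HolH MerH ((ofGens L G).Theta (genR L ℂ g)) :=
  anQ_ofGens_genc L G g

end Gens

end Fermat.Agent.DS.G.HECKE.OfLevel
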