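/-
Programme DS (S48), chapter G-HECKE, brick H09e (helper19): **an analytic model is nothing but a
realisation with the right Laurent expansions.**

Let `L : LevelData` with an analytic package `G : AnalyticGens L Lc ι` (any coefficient field).
For ANY ring hom `an : FFL L →+* MerH` such that `an f` has the Laurent expansion `f`
(`hq : ∀ f, HasQExpMer (toC f) (an f)`), the remaining fields of `Iface.ArithModel` are automatic:

* `an_genc'`    : `an (genc g) = G.gFun g`;
* `invariant'`  : `an f ∘ γ = an f` for `γ ∈ L.Gam` (check on constants and generators);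
* `stab'`       : an element of `SL(2, ℤ)` fixing all `an f` lies in `L.Gam` (`G.distinct`);
* `modelOfAn G an hq : ArithModel L.F₀` with `Gam = L.Gam` and `an = an` BY `rfl`.

So consumers may use whatever construction of `an` they like (`OfLevel.anL` of helper88,
`KumQG.anQ` of helper11, …): all give the same model (`ArithModel.an_eq_of_hasQExpMer`).
A default choice is provided: `anOfGens GC` for `GC : AnalyticGens L ℂ (RingHom.id ℂ)`
(through `OfLevel.anL`), `hasQExpMer_anOfGens`, and `defaultModel GC`.
-/
import Fermat.Agent.DS.G.HECKE.ModelGens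
import Fermat.Agent.DS.G.HECKE.LevelPack
import Fermat.Agent.DS.G.HECKE.OfLevel

set_option autoImplicit false
set_option linter.unusedSectionVars false

open UpperHalfPlane hiding I
open scoped MatrixGroups

noncomputable section

namespace Fermat.Agent.DS.G.HECKE.ModelOfAn

open Fermat.Agent.X0 Fermat.Agent.X0.Analytic Fermat.Agent.X0.SurjPoint Fermat.Agent.ES.KUM
open Fermat.Agent.ES.HEQ.QExpMer19
open Fermat.Agent.DS.G.Level Fermat.Agent.DS.G.X0
open Fermat.Agent.DS.G.HECKE.Iface Fermat.Agent.DS.G.HECKE.ModelGens
open Fermat.Agent.DS.G.HECKE.LevelPack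
open ModularCurve

section OfAn

variable {L : LevelData} {Lc : Type} [Field Lc] [Algebra ℚ Lc] {ι : Lc →+* ℂ}
  (G : AnalyticGens L Lc ι) (an : FFL L →+* MerH)
  (hq : ∀ f : FFL L, HasQExpMer (toC (f : LaurentSeries Kbar)) (an f))

include hq in
theorem an_algebraMap' (c : Kbar) :
    an (algebraMap Kbar (FFL L) c) = algebraMap HolH MerH (algebraMap ℂ HolH (iotaK c)) := by
  refine (hq _).unique ?_
  have h1 : ((algebraMap Kbar (FFL L) c : FFL L) : LaurentSeries Kbar) =
      algebraMap Kbar (LaurentSeries Kbar) c := rfl
  rw [h1, ArithModel.toC_algebraMap]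
  exact hasQExpMer_of_hasQExp (a := algebraMap ℂ HolH (iotaK c)) (HasQExp.const (iotaK c))

include hq in
theorem an_genc' (g : L.gensQ) : an (genc L Kbar g) = algebraMap HolH MerH (gHol G g) := by
  refine (hq _).unique ?_
  rw [coe_genc, toC_coeffEmb]
  exact hasQExpMer_of_hasQExp (a := gHol G g) (G.hasQExp g)

/-- An identity `R (an f) = an f` can be checked on constants and generators. -/
theorem eq_of_generators (R : MerH →+* MerH)
    (hconst : ∀ c : Kbar, R (an (algebraMap Kbar (FFL L) c)) = an (algebraMap Kbar (FFL L) c))
    (hgen : ∀ g : L.gensQ, R (an (genc L Kbar g)) = an (genc L Kbar g)) (f : FFL L) :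
    R (an f) = an f := by
  have hf : f ∈ IntermediateField.adjoin Kbar (Set.range (genc L Kbar)) := by
    rw [adjoin_range_genc]
    trivial
  induction hf using IntermediateField.adjoin_induction with
  | mem x hx =>
    obtain ⟨g, rfl⟩ := hx
    exact hgen g
  | algebraMap c => exact hconst c
  | add x y _ _ hx hy => rw [an.map_add, R.map_add, hx, hy]
  | inv x _ hx => rw [map_inv₀ an, map_inv₀ R, hx]
  | mul x y _ _ hx hy => rw [an.map_mul, R.map_mul, hx, hy]

include G hq in
theorem invariant' (γ : SL(2, ℤ)) (hγ : γ ∈ L.Gam) (f : FFL L) : slMer γ (an f) = an f := by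
  refine eq_of_generators an (slMer γ) ?_ ?_ f
  · intro c
    rw [an_algebraMap' an hq, slMer_const]
  · intro g
    rw [an_genc' G an hq, slMer_algebraMap]
    congr 1
    exact Subtype.ext (G.invariant g γ hγ)

include G hq in
theorem stab' (δ : SL(2, ℤ)) (h : ∀ f : FFL L, slMer δ (an f) = an f) : δ ∈ L.Gam := by
  have key := G.distinct 1 δ (fun g => ?_)
  · simpa using key
  · have h1 := h (genc L Kbar g)
    rw [an_genc' G an hq, slMer_algebraMap] at h1
    have h2 := congrArg Subtype.val (IsFractionRing.injective HolH MerH h1)
    rw [compSL_one]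
    exact h2.symm

/-- **The analytic model attached to a realisation with the right Laurent expansions.** -/
def modelOfAn : ArithModel L.F₀ where
  Gam := L.Gam
  an := an
  hasQExpMer := hq
  invariant := invariant' G an hq
  stab := stab' G an hq

@[simp] theorem modelOfAn_Gam : (modelOfAn G an hq).Gam = L.Gam := rfl

@[simp] theorem modelOfAn_an : (modelOfAn G an hq).an = an := rfl

end OfAn

/-! ### A default realisation -/

section Default

variable {L : LevelData} (GC : AnalyticGens L ℂ (RingHom.id ℂ))

theorem hstabOf (δ : SL(2, ℤ))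
    (h : ∀ g : L.gensQ, compSL ((realizeOf GC Function.injective_id).Θ (genR L ℂ g)) δ =
      (realizeOf GC Function.injective_id).Θ (genR L ℂ g)) : δ ∈ L.Gam := by
  have key := GC.distinct 1 δ (fun g => ?_)
  · simpa using key
  · have h1 := h g
    rw [realizeOf_genR] at h1
    rw [compSL_one]
    exact h1.symm

/-- The default realisation of `FFL L` in `MerH` (helper88's `OfLevel.anL`). -/
def anOfGens : FFL L →+* MerH :=
  OfLevel.anL L (realizeOf GC Function.injective_id) (genCuspOf GC Function.injective_id)
    (hstabOf GC)

theorem hasQExpMer_anOfGens (f : FFL L) :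
    HasQExpMer (toC (f : LaurentSeries Kbar)) (anOfGens GC f) :=
  OfLevel.hasQExpMer_anL L (realizeOf GC Function.injective_id)
    (genCuspOf GC Function.injective_id) (hstabOf GC) f

/-- The default analytic model of a level with analytic generators over `ℂ`. -/
def defaultModel : ArithModel L.F₀ := modelOfAn GC (anOfGens GC) (hasQExpMer_anOfGens GC)

@[simp] theorem defaultModel_Gam : (defaultModel GC).Gam = L.Gam := rfl

end Default

end Fermat.Agent.DS.G.HECKE.ModelOfAn
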