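/-
Programme DS (S48), chapter G-HECKE, brick H09a (helper19): **Hecke equivariance of the Kummer map
for the plain geometric correspondence `C_p = α_* β^*`, at an abstract level.**

Input: a Hecke pair `P : HeckePair F₀ F₀' p` (`Iface`), analytic models `A : ArithModel F₀`,
`A' : ArithModel F₀'` whose groups are related by `A'.Gam = upGam A.Gam p` (`UpLevel`), and the degree
`#(A.Gam ⧸ A'.Gam) = [F' : α F]` (`DegreeAlong`).  Output:

* `anData P A A' hGam hcard : SigmaFamily.AnData (alphaG Kbar P) (betaG Kbar P) (repsCp A.Gam p)`,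
  the analytic data of the correspondence relative to helper99's coset representatives
  `repsCp Gam p := repsOfCosets (conjData Gam p)` (`α base = diag(p, 1)`), index set
  `CosetIdx Gam (upGam Gam p)`;
* `kummer_Cp` : for generators `x`, `x'` of the two function fields and every Kummer map `κ` for
  `(A.Gam, A.an)`:  `κ (corr β α y) = (repsCp A.Gam p).dMul (κ y)`, where
  `corr β α = Inputs.corr (betaG Kbar P) (alphaG Kbar P) hx hx' = α_* β^*` on `Pic⁰`.

The comparison of `(repsCp (±Γ₁(M)) p).dMul` with helper78's `heckeRepsT` (one diamond twist) is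
helper51's `Conv51`; the instance at `L1 M` is `DS/G/HECKE/Top.lean`.
-/
import Fermat.Agent.DS.G.HECKE.UpLevel
import Fermat.Agent.DS.G.HECKE.Inputs
import Fermat.Agent.DS.G.ES.HEQ.SigmaFamily

set_option autoImplicit false
set_option linter.unusedSectionVars false
set_option linter.style.haveILetI false

open UpperHalfPlane hiding I
open scoped MatrixGroups
open AlgebraicCurve

noncomputable section

namespace Fermat.Agent.DS.G.HECKE.CpCompat

open Fermat.Agent.X0 Fermat.Agent.X0.SurjPoint Fermat.Agent.ES.KUM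
open Fermat.Agent.ES.HEQ.DoubleCoset27 Fermat.Agent.ES.HEQ.BetaMer19
open Fermat.Agent.DS.Per1.HeckeReps
open Fermat.Agent.DS.G.ES.HEQ.RepsMer Fermat.Agent.DS.G.ES.HEQ.KummerHeckeG
open Fermat.Agent.DS.G.ES.HEQ.SigmaFamily
open Fermat.Agent.DS.G.HECKE.Iface Fermat.Agent.DS.G.HECKE.UpLevel
open Fermat.Agent.DS.G.HECKE.CosetReps Fermat.Agent.DS.G.HECKE.Inputs

variable {p : ℕ} [hp : Fact p.Prime]

/-- **The Hecke representatives of the plain correspondence `C_p`**: the left coset representatives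
`δ γᵢ` of `Gam δ Gam`, `δ = diag(p, 1)`, indexed by `Gam ⧸ upGam Gam p`. -/
def repsCp (Gam : Subgroup SL(2, ℤ)) (p : ℕ) [Fact p.Prime] :
    HeckeReps Gam (CosetIdx Gam (upGam Gam p)) :=
  repsOfCosets (conjData Gam p)

theorem repsCp_α_base (Gam : Subgroup SL(2, ℤ)) :
    (repsCp Gam p).α (base Gam (upGam Gam p)) = glBeta p none :=
  repsOfCosets_α_base (conjData Gam p)

theorem posDet_repsCp (Gam : Subgroup SL(2, ℤ)) : PosDet (repsCp Gam p) := by
  intro i
  have h : (repsCp Gam p).α i = glBeta p none *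
      Matrix.SpecialLinearGroup.mapGL ℝ ((rep Gam (upGam Gam p) i : Gam) : SL(2, ℤ)) := rfl
  rw [h]
  exact det_mul_pos (det_glBeta_pos none) (det_mapGL_pos _)

/-- at the base index, `h ↦ h ∘ α_base` is `h ↦ h ∘ (z ↦ p z)`. -/
theorem aMer_repsCp_base (Gam : Subgroup SL(2, ℤ)) (h : MerH) :
    aMer (posDet_repsCp Gam) (base Gam (upGam Gam p)) h = betaMer p none h := by
  unfold aMer betaMer
  exact glMer_congr (repsCp_α_base Gam) _ h

section Data

variable {F₀ F₀' : IntermediateField ℚ (LaurentSeries ℚ)} (P : HeckePair F₀ F₀' p)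
  (A : ArithModel F₀) (A' : ArithModel F₀') (hGam : A'.Gam = upGam A.Gam p)
  [Fintype (CosetIdx A.Gam (upGam A.Gam p))]
  (hcard : Fintype.card (CosetIdx A.Gam (upGam A.Gam p)) = finrankAlong Kbar (alphaG Kbar P))

/-- **The analytic data of `C_p`** at an abstract level. -/
def anData : AnData (alphaG Kbar P) (betaG Kbar P) (repsCp A.Gam p) where
  hdet := posDet_repsCp A.Gam
  an := A.an
  an' := A'.an
  i₀ := base A.Gam (upGam A.Gam p)
  an'_alpha := A.an_alphaG A' P
  an'_beta x := by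
    rw [A.an_betaG A' P, aMer_repsCp_base]
  invariant γ x := A.invariant γ γ.2 x
  rep := rep A.Gam (upGam A.Gam p)
  perm_rep := perm_rep_base (conjData A.Gam p)
  separated := by
    refine separated_of_stab A'.an _ (upGam A.Gam p) ?_ ?_
    · intro γ γ' h
      have h1 := A'.distinct (γ : SL(2, ℤ)) (γ' : SL(2, ℤ)) h
      rw [hGam] at h1
      exact h1
    · intro δ hδ
      exact (perm_base_eq_base_iff (conjData A.Gam p) δ).mpr hδ
  card_eq := hcard

@[simp] theorem anData_an : (anData P A A' hGam hcard).an = A.an := rfl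

variable {x : FFK F₀} {x' : FFK F₀'} (hx : FF.IsGen Kbar x) (hx' : FF.IsGen Kbar x')

theorem corr_mem_torsion {n : ℕ} (y : ↥(Pic0.torsion Kbar (FFK F₀) n)) :
    corr (betaG Kbar P) (alphaG Kbar P) hx hx' (y : Pic0 Kbar (FFK F₀)) ∈
      Pic0.torsion Kbar (FFK F₀) n := by
  rw [Pic0.mem_torsion, ← map_zsmul, Pic0.mem_torsion.mp y.2, map_zero]

include A' hGam hcard in
/-- **Hecke equivariance of the Kummer map for `C_p = α_* β^*`**:
`κ (C_p y) = (repsCp A.Gam p).dMul (κ y)`. -/
theorem kummer_Cp {n : ℕ} {κ : ↥(Pic0.torsion Kbar (FFK F₀) n) → (A.Gam →* ℂˣ)}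
    (hκ : IsKummerMap A.Gam A.an n κ) (y : ↥(Pic0.torsion Kbar (FFK F₀) n)) :
    κ ⟨corr (betaG Kbar P) (alphaG Kbar P) hx hx' (y : Pic0 Kbar (FFK F₀)),
        corr_mem_torsion P hx hx' y⟩ = (repsCp A.Gam p).dMul (κ y) := by
  obtain ⟨hβ, hα, hP, hfin, hFI, hN⟩ :=
    heckeInputs (betaG Kbar P) (alphaG Kbar P) hx hx'
  haveI := hP
  have e := corr_eq_correspondence (betaG Kbar P) (alphaG Kbar P) hx hx' hβ hα hFI hfin hN
  have hy : Pic0.correspondence (betaG Kbar P) (alphaG Kbar P) hβ hα hFI hfin hN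
      (y : Pic0 Kbar (FFK F₀)) ∈ Pic0.torsion Kbar (FFK F₀) n := by
    rw [← e]
    exact corr_mem_torsion P hx hx' y
  have key := (anData P A A' hGam hcard).kummer_corr hα hβ hFI hfin hN hκ y hy
  rw [← key]
  congr 1

end Data

end Fermat.Agent.DS.G.HECKE.CpCompat
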