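/-
Programme DS (S48), chapter G-HECKE, brick H02 part 2 (helper31): **the Hecke correspondence of a
`HeckePair` commutes with the Galois action** (instances of `DS/G/HECKE/Galois.lean` for the
chapter interface `Iface` (helper19) and `Inputs.corr` (helper92)).

* `alphaG_smul`, `betaG_smul` : the degeneracy embeddings commute with the arithmetic Galois
  action (twins of `HeckeGalois12.heckeAlphaBar_smul / heckeBetaBar_smul`);
* `corr_smul` : `corr φ ψ (σ • y) = σ • corr φ ψ y` for any coefficientwise natural pair `φ ψ`;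
* `corr_betaG_alphaG_smul` : the case `C_p = α_* β^*` (twin of `heckeOperatorAlong_smul`);
* `corr_symm_smul` : the transposed correspondence `β_* α^*`.
-/
import Mathlib
import Fermat.Agent.DS.G.HECKE.Galois
import Fermat.Agent.DS.G.HECKE.Iface
import Fermat.Agent.DS.G.HECKE.Inputs

set_option autoImplicit false
set_option linter.unusedSectionVars false
set_option linter.style.haveILetI false

noncomputable section

open AlgebraicCurve ModularCurve HahnSeries

namespace Fermat.Agent.DS.G.HECKE.GaloisCorr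

open Fermat.Agent.DS.G.HECKE.Iface Fermat.Agent.DS.G.HECKE.Inputs Fermat.Agent.DS.G.HECKE.Galois
open Fermat.Agent.X0.FF

section Degeneracy

variable (Lc : Type*) [Field Lc] [Algebra ℚ Lc]
  {F₀ F₀' : IntermediateField ℚ (LaurentSeries ℚ)} {p : ℕ} [NeZero p] (P : HeckePair F₀ F₀' p)

/-- `α` commutes with the arithmetic Galois action. -/
theorem alphaG_smul (σ : Lc ≃ₐ[ℚ] Lc) (f : FFc Lc F₀) :
    alphaG Lc P (arithmeticGalois F₀ σ • f) = arithmeticGalois F₀' σ • alphaG Lc P f :=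
  map_arithmeticGalois_smul_of_coe_id F₀ F₀' (alphaG Lc P) (coe_alphaG Lc P) σ f

/-- `β` commutes with the arithmetic Galois action. -/
theorem betaG_smul (σ : Lc ≃ₐ[ℚ] Lc) (f : FFc Lc F₀) :
    betaG Lc P (arithmeticGalois F₀ σ • f) = arithmeticGalois F₀' σ • betaG Lc P f :=
  map_arithmeticGalois_smul_of_coe_qExpand F₀ F₀' p (betaG Lc P) (coe_betaG Lc P) σ f

end Degeneracy

section Corr

variable {Lc : Type*} [Field Lc] [Algebra ℚ Lc] [IsAlgClosed Lc] [CharZero Lc]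
  {F₀ F₀' : IntermediateField ℚ (LaurentSeries ℚ)}

/-- **`corr φ ψ` commutes with `Gal(Lc/ℚ)`** for every pair of embeddings commuting with the
arithmetic Galois action. -/
theorem corr_smul (φ ψ : FFc Lc F₀ →ₐ[Lc] FFc Lc F₀')
    (hcφ : ∀ (σ : Lc ≃ₐ[ℚ] Lc) (f : FFc Lc F₀),
      φ (arithmeticGalois F₀ σ • f) = arithmeticGalois F₀' σ • φ f)
    (hcψ : ∀ (σ : Lc ≃ₐ[ℚ] Lc) (f : FFc Lc F₀),
      ψ (arithmeticGalois F₀ σ • f) = arithmeticGalois F₀' σ • ψ f)
    {x : FFc Lc F₀} {x' : FFc Lc F₀'} (hx : IsGen Lc x) (hx' : IsGen Lc x')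
    (σ : Lc ≃ₐ[ℚ] Lc) (y : Pic0 Lc (FFc Lc F₀)) :
    corr φ ψ hx hx' (σ • y) = σ • corr φ ψ hx hx' y := by
  haveI := hasPrincipalDivisors_of_isGen hx'
  exact pic0_correspondence_galois_smul F₀ F₀' φ ψ _ _ _ _ _ hcφ hcψ hx σ y

variable {p : ℕ} [NeZero p] (P : HeckePair F₀ F₀' p)

/-- **`C_p = α_* β^*` commutes with `Gal(Lc/ℚ)`.** -/
theorem corr_betaG_alphaG_smul {x : FFc Lc F₀} {x' : FFc Lc F₀'} (hx : IsGen Lc x)
    (hx' : IsGen Lc x') (σ : Lc ≃ₐ[ℚ] Lc) (y : Pic0 Lc (FFc Lc F₀)) :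
    corr (betaG Lc P) (alphaG Lc P) hx hx' (σ • y) =
      σ • corr (betaG Lc P) (alphaG Lc P) hx hx' y :=
  corr_smul (betaG Lc P) (alphaG Lc P) (betaG_smul Lc P) (alphaG_smul Lc P) hx hx' σ y

/-- the transposed correspondence `β_* α^*` commutes with `Gal(Lc/ℚ)`. -/
theorem corr_alphaG_betaG_smul {x : FFc Lc F₀} {x' : FFc Lc F₀'} (hx : IsGen Lc x)
    (hx' : IsGen Lc x') (σ : Lc ≃ₐ[ℚ] Lc) (y : Pic0 Lc (FFc Lc F₀)) :
    corr (alphaG Lc P) (betaG Lc P) hx hx' (σ • y) =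
      σ • corr (alphaG Lc P) (betaG Lc P) hx hx' y :=
  corr_smul (alphaG Lc P) (betaG Lc P) (alphaG_smul Lc P) (betaG_smul Lc P) hx hx' σ y

end Corr

end Fermat.Agent.DS.G.HECKE.GaloisCorr
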