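/-
DS programme (S48), chapter G-HECKE, brick H08 part 1 (helper51): the REINDEXING lemma for the
transfer operator `dHom` of abstract Hecke representatives (`DS/Per1/HeckeReps`).

Let `H : HeckeReps Γ I`, `H' : HeckeReps Γ I'`, `τ : I' ≃ I`, `c : I' → Γ` and `s ∈ SL(2, ℤ)`
normalising `Γ`, with

  `H'.α i = s * c i * H.α (τ i)`        (in `GL(2, ℝ)`).

If the `H.α i` lie in distinct left `Γ`-cosets, then `H'.perm γ = τ⁻¹ ∘ H.perm γ ∘ τ`,
`H'.coc γ i = s (c i * H.coc γ (τ i) * (c i'')⁻¹) s⁻¹` (`perm_coc_of_alpha`), and therefore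

  `H'.dHom φ = H.dHom (φ ∘ conj_s)`,    `H'.dMul χ = H.dMul (χ ∘ conj_s)`

(`dHom_eq_of_alpha`, `dMul_eq_of_alpha`): left translation of the representatives by elements of `Γ`
and reindexing do not change the operator, left translation by an element `s` of the normaliser
composes it with the diamond-type operator `conjReps Γ s` (`dHom_eq_comp_conjReps`).
-/
import Mathlib
import Fermat.Agent.DS.Per1.HeckeReps
import Fermat.Agent.DS.Per1.RepsGamma1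

set_option autoImplicit false
set_option linter.dupNamespace false

open Matrix
open scoped MatrixGroups

namespace Fermat.Agent.DS.G.HECKE.Reindex51

open Fermat.Agent.DS.Per1.HeckeReps Fermat.Agent.DS.Per1.RepsGamma1

variable {Γ : Subgroup SL(2, ℤ)} {I I' : Type*}

/-- `SL(2, ℤ) → GL(2, ℝ)` is injective. -/
theorem mapGL_injective :
    Function.Injective (Matrix.SpecialLinearGroup.mapGL ℝ : SL(2, ℤ) → GL (Fin 2) ℝ) :=
  Matrix.SpecialLinearGroup.mapGL_injective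

/-- Conjugation by an element normalising `Γ`, as an endomorphism of `Γ`. -/
def conjHom (s : SL(2, ℤ)) (hs : ∀ γ ∈ Γ, s * γ * s⁻¹ ∈ Γ) : Γ →* Γ where
  toFun γ := ⟨s * (γ : SL(2, ℤ)) * s⁻¹, hs _ γ.2⟩
  map_one' := by
    apply Subtype.ext
    simp
  map_mul' γ δ := by
    apply Subtype.ext
    simp only [Subgroup.coe_mul]
    group

@[simp] theorem coe_conjHom (s : SL(2, ℤ)) (hs : ∀ γ ∈ Γ, s * γ * s⁻¹ ∈ Γ) (γ : Γ) :
    ((conjHom s hs γ : Γ) : SL(2, ℤ)) = s * (γ : SL(2, ℤ)) * s⁻¹ := rfl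

/-- The representatives lie in pairwise distinct left `Γ`-cosets. -/
def Distinct (H : HeckeReps Γ I) : Prop :=
  ∀ (i j : I) (g : Γ), H.α i = Matrix.SpecialLinearGroup.mapGL ℝ (g : SL(2, ℤ)) * H.α j → i = j

section Core

variable [Fintype I] [Fintype I']

/-- **Reindexing, cocycle form.**  If the cocycle of `H'` is the `ψ`-image of the cocycle of `H`
up to reindexing by `τ` and a coboundary `c`, then `H'.dHom φ = H.dHom (φ ∘ ψ)`. -/
theorem dHom_eq_of_coc (H : HeckeReps Γ I) (H' : HeckeReps Γ I') (τ : I' ≃ I) (c : I' → Γ)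
    (ψ : Γ →* Γ)
    (hcoc : ∀ (γ : Γ) (i : I'),
      H'.coc γ i = ψ (c i * H.coc γ (τ i) * (c (H'.perm γ i))⁻¹))
    {A : Type*} [AddCommGroup A] (φ : Additive Γ →+ A) :
    H'.dHom A φ = H.dHom A (φ.comp (MonoidHom.toAdditive ψ)) := by
  refine AddMonoidHom.ext fun γ' => ?_
  obtain ⟨γ, rfl⟩ := Additive.ofMul.surjective γ'
  rw [HeckeReps.dHom_apply, HeckeReps.dHom_apply]
  set f : Γ → A := fun x => φ (Additive.ofMul (ψ x)) with hf
  have hmul : ∀ x y : Γ, f (x * y) = f x + f y := fun x y => by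
    simp only [hf, map_mul, ofMul_mul, map_add]
  have hinv : ∀ x : Γ, f x⁻¹ = - f x := fun x => by
    simp only [hf, map_inv, ofMul_inv, map_neg]
  have h1 : ∀ i : I', φ (Additive.ofMul (H'.coc γ i))
      = f (c i) + f (H.coc γ (τ i)) - f (c (H'.perm γ i)) := by
    intro i
    rw [hcoc γ i]
    show f (c i * H.coc γ (τ i) * (c (H'.perm γ i))⁻¹) = _
    rw [hmul, hmul, hinv, sub_eq_add_neg]
  rw [Finset.sum_congr rfl fun i _ => h1 i, Finset.sum_sub_distrib, Finset.sum_add_distrib,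
    Equiv.sum_comp (H'.perm γ) (fun i => f (c i)), add_sub_cancel_left,
    Equiv.sum_comp τ (fun i => f (H.coc γ i))]
  rfl

/-- multiplicative form of `dHom_eq_of_coc`. -/
theorem dMul_eq_of_coc (H : HeckeReps Γ I) (H' : HeckeReps Γ I') (τ : I' ≃ I) (c : I' → Γ)
    (ψ : Γ →* Γ)
    (hcoc : ∀ (γ : Γ) (i : I'),
      H'.coc γ i = ψ (c i * H.coc γ (τ i) * (c (H'.perm γ i))⁻¹))
    {M : Type*} [CommGroup M] (χ : Γ →* M) :
    H'.dMul χ = H.dMul (χ.comp ψ) := by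
  ext γ
  rw [HeckeReps.dMul_eq_toMul_dHom, HeckeReps.dMul_eq_toMul_dHom,
    dHom_eq_of_coc H H' τ c ψ hcoc (MonoidHom.toAdditive χ)]
  rfl

end Core

section Alpha

/-- **The cocycle from the representatives.**  If `H'.α i = s * c i * H.α (τ i)` with `s`
normalising `Γ` and the `H.α i` lie in distinct left cosets, then `perm` and `coc` of `H'` are the
transported ones. -/
theorem perm_coc_of_alpha (H : HeckeReps Γ I) (H' : HeckeReps Γ I') (hd : Distinct H)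
    (τ : I' ≃ I) (c : I' → Γ) (s : SL(2, ℤ))
    (hs : ∀ γ ∈ Γ, s * γ * s⁻¹ ∈ Γ) (hs' : ∀ γ ∈ Γ, s⁻¹ * γ * s ∈ Γ)
    (hα : ∀ i : I', H'.α i = Matrix.SpecialLinearGroup.mapGL ℝ s
      * Matrix.SpecialLinearGroup.mapGL ℝ ((c i : Γ) : SL(2, ℤ)) * H.α (τ i))
    (γ : Γ) (i : I') :
    τ (H'.perm γ i) = H.perm γ (τ i) ∧
      H'.coc γ i = conjHom s hs (c i * H.coc γ (τ i) * (c (H'.perm γ i))⁻¹) := by
  set m : SL(2, ℤ) →* GL (Fin 2) ℝ := Matrix.SpecialLinearGroup.mapGL ℝ with hm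
  set i'' := H'.perm γ i with hi''
  -- the two expressions of `H'.α i * γ`
  have e1 : H'.α i * m (γ : SL(2, ℤ))
      = m s * m (c i : SL(2, ℤ)) * m ((H.coc γ (τ i) : Γ) : SL(2, ℤ)) * H.α (H.perm γ (τ i)) := by
    rw [hα i, mul_assoc, H.rel γ (τ i), ← mul_assoc]
  have e2 : H'.α i * m (γ : SL(2, ℤ))
      = m ((H'.coc γ i : Γ) : SL(2, ℤ)) * m s * m (c i'' : SL(2, ℤ)) * H.α (τ i'') := by
    rw [H'.rel γ i, hα i'', ← mul_assoc, ← mul_assoc]
  -- the element of `Γ` relating the two cosets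
  have hgmem : s⁻¹ * ((H'.coc γ i : Γ) : SL(2, ℤ)) * s ∈ Γ := hs' _ (H'.coc γ i).2
  set g : Γ := (c i * H.coc γ (τ i))⁻¹ * ⟨_, hgmem⟩ * c i'' with hg
  have e3 : H.α (H.perm γ (τ i)) = m (g : SL(2, ℤ)) * H.α (τ i'') := by
    have h12 := e1.symm.trans e2
    have hcoe : m (g : SL(2, ℤ)) = (m s * m (c i : SL(2, ℤ)) * m ((H.coc γ (τ i) : Γ) : SL(2, ℤ)))⁻¹
        * (m ((H'.coc γ i : Γ) : SL(2, ℤ)) * m s * m (c i'' : SL(2, ℤ))) := by
      simp only [hg, Subgroup.coe_mul, Subgroup.coe_inv, map_mul, map_inv, _root_.mul_inv_rev]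
      group
    rw [hcoe, mul_assoc, ← h12, ← mul_assoc, inv_mul_cancel, one_mul]
  have hperm : τ i'' = H.perm γ (τ i) := (hd _ _ g e3).symm
  refine ⟨hperm, ?_⟩
  -- cancel the representative
  rw [← hperm] at e1
  have h12 : m s * m (c i : SL(2, ℤ)) * m ((H.coc γ (τ i) : Γ) : SL(2, ℤ))
      = m ((H'.coc γ i : Γ) : SL(2, ℤ)) * m s * m (c i'' : SL(2, ℤ)) :=
    mul_right_cancel (e1.symm.trans e2)
  have h3 : s * (c i : SL(2, ℤ)) * ((H.coc γ (τ i) : Γ) : SL(2, ℤ))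
      = ((H'.coc γ i : Γ) : SL(2, ℤ)) * s * (c i'' : SL(2, ℤ)) := by
    apply mapGL_injective
    show m _ = m _
    simp only [map_mul]
    exact h12
  apply Subtype.ext
  rw [coe_conjHom]
  simp only [Subgroup.coe_mul, Subgroup.coe_inv]
  have h4 : ((H'.coc γ i : Γ) : SL(2, ℤ))
      = s * (c i : SL(2, ℤ)) * ((H.coc γ (τ i) : Γ) : SL(2, ℤ)) * (c i'' : SL(2, ℤ))⁻¹ * s⁻¹ := by
    rw [h3]
    group
  rw [h4]
  group

variable [Fintype I] [Fintype I']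

/-- **Reindexing lemma.**  `H'.α i = s * c i * H.α (τ i)` ⇒ `H'.dHom φ = H.dHom (φ ∘ conj_s)`. -/
theorem dHom_eq_of_alpha (H : HeckeReps Γ I) (H' : HeckeReps Γ I') (hd : Distinct H)
    (τ : I' ≃ I) (c : I' → Γ) (s : SL(2, ℤ))
    (hs : ∀ γ ∈ Γ, s * γ * s⁻¹ ∈ Γ) (hs' : ∀ γ ∈ Γ, s⁻¹ * γ * s ∈ Γ)
    (hα : ∀ i : I', H'.α i = Matrix.SpecialLinearGroup.mapGL ℝ s
      * Matrix.SpecialLinearGroup.mapGL ℝ ((c i : Γ) : SL(2, ℤ)) * H.α (τ i))
    {A : Type*} [AddCommGroup A] (φ : Additive Γ →+ A) :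
    H'.dHom A φ = H.dHom A (φ.comp (MonoidHom.toAdditive (conjHom s hs))) :=
  dHom_eq_of_coc H H' τ c (conjHom s hs)
    (fun γ i => (perm_coc_of_alpha H H' hd τ c s hs hs' hα γ i).2) φ

/-- the same, with the conjugation written as the operator of `conjReps Γ s`. -/
theorem dHom_eq_comp_conjReps (H : HeckeReps Γ I) (H' : HeckeReps Γ I') (hd : Distinct H)
    (τ : I' ≃ I) (c : I' → Γ) (s : SL(2, ℤ))
    (hs : ∀ γ ∈ Γ, s * γ * s⁻¹ ∈ Γ) (hs' : ∀ γ ∈ Γ, s⁻¹ * γ * s ∈ Γ)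
    (hα : ∀ i : I', H'.α i = Matrix.SpecialLinearGroup.mapGL ℝ s
      * Matrix.SpecialLinearGroup.mapGL ℝ ((c i : Γ) : SL(2, ℤ)) * H.α (τ i))
    {A : Type*} [AddCommGroup A] (φ : Additive Γ →+ A) :
    H'.dHom A φ = H.dHom A ((conjReps Γ s hs).dHom A φ) := by
  rw [dHom_eq_of_alpha H H' hd τ c s hs hs' hα φ]
  congr 1
  refine AddMonoidHom.ext fun γ' => ?_
  obtain ⟨γ, rfl⟩ := Additive.ofMul.surjective γ'
  rw [conjReps_dHom_apply]
  rfl

/-- multiplicative form. -/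
theorem dMul_eq_of_alpha (H : HeckeReps Γ I) (H' : HeckeReps Γ I') (hd : Distinct H)
    (τ : I' ≃ I) (c : I' → Γ) (s : SL(2, ℤ))
    (hs : ∀ γ ∈ Γ, s * γ * s⁻¹ ∈ Γ) (hs' : ∀ γ ∈ Γ, s⁻¹ * γ * s ∈ Γ)
    (hα : ∀ i : I', H'.α i = Matrix.SpecialLinearGroup.mapGL ℝ s
      * Matrix.SpecialLinearGroup.mapGL ℝ ((c i : Γ) : SL(2, ℤ)) * H.α (τ i))
    {M : Type*} [CommGroup M] (χ : Γ →* M) :
    H'.dMul χ = H.dMul (χ.comp (conjHom s hs)) :=
  dMul_eq_of_coc H H' τ c (conjHom s hs)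
    (fun γ i => (perm_coc_of_alpha H H' hd τ c s hs hs' hα γ i).2) χ

/-- **Pure reindexing** (`s = 1`): left translation of the representatives by elements of `Γ` and
a bijection of the index sets do not change the operator. -/
theorem dHom_eq_of_left_translate (H : HeckeReps Γ I) (H' : HeckeReps Γ I') (hd : Distinct H)
    (τ : I' ≃ I) (c : I' → Γ)
    (hα : ∀ i : I', H'.α i
      = Matrix.SpecialLinearGroup.mapGL ℝ ((c i : Γ) : SL(2, ℤ)) * H.α (τ i))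
    {A : Type*} [AddCommGroup A] (φ : Additive Γ →+ A) :
    H'.dHom A φ = H.dHom A φ := by
  have hs : ∀ γ ∈ Γ, (1 : SL(2, ℤ)) * γ * (1 : SL(2, ℤ))⁻¹ ∈ Γ := fun γ hγ => by simpa using hγ
  have hs' : ∀ γ ∈ Γ, (1 : SL(2, ℤ))⁻¹ * γ * (1 : SL(2, ℤ)) ∈ Γ := fun γ hγ => by simpa using hγ
  rw [dHom_eq_of_alpha H H' hd τ c 1 hs hs' (fun i => by rw [hα i, map_one, one_mul]) φ]
  congr 1
  refine AddMonoidHom.ext fun γ' => ?_
  obtain ⟨γ, rfl⟩ := Additive.ofMul.surjective γ'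
  show φ (Additive.ofMul (conjHom 1 hs γ)) = φ (Additive.ofMul γ)
  have : conjHom 1 hs γ = γ := by
    apply Subtype.ext
    simp
  rw [this]

/-- multiplicative form of the pure reindexing lemma. -/
theorem dMul_eq_of_left_translate (H : HeckeReps Γ I) (H' : HeckeReps Γ I') (hd : Distinct H)
    (τ : I' ≃ I) (c : I' → Γ)
    (hα : ∀ i : I', H'.α i
      = Matrix.SpecialLinearGroup.mapGL ℝ ((c i : Γ) : SL(2, ℤ)) * H.α (τ i))
    {M : Type*} [CommGroup M] (χ : Γ →* M) :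
    H'.dMul χ = H.dMul χ := by
  ext γ
  rw [HeckeReps.dMul_eq_toMul_dHom, HeckeReps.dMul_eq_toMul_dHom,
    dHom_eq_of_left_translate H H' hd τ c hα (MonoidHom.toAdditive χ)]

end Alpha

end Fermat.Agent.DS.G.HECKE.Reindex51
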