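/-
Programme DS (S48), chapter G-HECKE, brick H09c (helper19): **the Hecke operators on the Jacobian
of an abstract level, with their Kummer and Galois equivariance.**

For a level `L : LevelData` with analytic generators `G : AnalyticGens L ℚbar iotaK`, a prime `p`,
and analytic models `A : ArithModel L.F₀`, `A' : ArithModel (up L p).F₀` with
`A'.Gam = upGam A.Gam p`:

* `CpPic G : JL L →+ JL L`, the plain geometric correspondence `C_p = α_* β^*`
  (`Inputs.corr (betaG …) (alphaG …)` for the Hecke pair `heckePair_up L`, with the generator `j`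
  on both levels);  `CpPic_galois`; `CpPic_mk` (divisor level model);
  `kummer_CpPic : κ (C_p y) = (repsCp A.Gam p).dMul (κ y)`;
* for `s` acting on the model (`Diamond.Acts A s`): `heckePic G A s hs := C_p ∘ diaPic s`,
  `kummer_heckePic : κ (heckePic y) = (repsCp A.Gam p).dMul ((κ y) ∘ conj_s)`,
  `heckePic_galois`.

At `L = L1 M`, `s = σ_p ∈ Γ₀(M)` with lower right entry `p`, helper51's `ConvUp51.dMul_Tp` turns
the right hand side into `(heckeRepsTpm M hpM σ_p).dMul (κ y)`: file `DS/G/HECKE/Top.lean`.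
-/
import Fermat.Agent.DS.G.HECKE.CpCompat
import Fermat.Agent.DS.G.HECKE.LevelPack
import Fermat.Agent.DS.G.HECKE.Diamond
import Fermat.Agent.DS.G.HECKE.GaloisCorr
import Fermat.Agent.DS.G.HECKE.Reindex51

set_option autoImplicit false
set_option linter.unusedSectionVars false
set_option linter.style.haveILetI false

open UpperHalfPlane hiding I
open scoped MatrixGroups
open AlgebraicCurve

noncomputable section

namespace Fermat.Agent.DS.G.HECKE.TopG

open Fermat.Agent.X0 Fermat.Agent.X0.SurjPoint Fermat.Agent.ES.KUM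
open Fermat.Agent.DS.G.Level
open Fermat.Agent.DS.Per1.HeckeReps Fermat.Agent.DS.Per1.RepsGamma1
open Fermat.Agent.DS.G.ES.HEQ.KummerHeckeG
open Fermat.Agent.DS.G.HECKE.Iface Fermat.Agent.DS.G.HECKE.UpLevel
open Fermat.Agent.DS.G.HECKE.CosetReps Fermat.Agent.DS.G.HECKE.Inputs
open Fermat.Agent.DS.G.HECKE.CpCompat Fermat.Agent.DS.G.HECKE.LevelPack
open Fermat.Agent.DS.G.HECKE.Diamond Fermat.Agent.DS.G.HECKE.DiamondGal
open Fermat.Agent.DS.G.HECKE.Reindex51

/-- `conjReps` acts on characters by composition with the conjugation. -/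
theorem dMul_conjReps {Γ : Subgroup SL(2, ℤ)} (s : SL(2, ℤ)) (hs : ∀ γ ∈ Γ, s * γ * s⁻¹ ∈ Γ)
    {B : Type*} [CommGroup B] (χ : Γ →* B) :
    (conjReps Γ s hs).dMul χ = χ.comp (conjHom s hs) := by
  ext γ
  rw [HeckeReps.dMul_apply, Fintype.prod_unique]
  rfl

variable {L : LevelData} (G : AnalyticGens L Kbar iotaK) {p : ℕ} [hp : Fact p.Prime]

/-! ### The plain correspondence `C_p` -/

/-- **The geometric correspondence `C_p = α_* β^*` on the Jacobian of the level `L`.** -/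
def CpPic (p : ℕ) [Fact p.Prime] : JL L →+ JL L :=
  corr (betaG Kbar (heckePair_up (p := p) L)) (alphaG Kbar (heckePair_up (p := p) L))
    (isGen_jFL G) (isGen_up G)

/-- `C_p` commutes with the Galois action. -/
theorem CpPic_galois (σ : Kbar ≃ₐ[ℚ] Kbar) (y : JL L) : CpPic G p (σ • y) = σ • CpPic G p y :=
  GaloisCorr.corr_betaG_alphaG_smul (heckePair_up (p := p) L) (isGen_jFL G) (isGen_up G) σ y

/-- The divisor level model of `C_p`. -/
def CpDiv (p : ℕ) [Fact p.Prime] : Divisor Kbar (FFL L) →+ Divisor Kbar (FFL L) :=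
  divCorr (betaG Kbar (heckePair_up (p := p) L)) (alphaG Kbar (heckePair_up (p := p) L))
    (isGen_jFL G) (isGen_up G)

theorem CpPic_mk (D : Divisor.degZero (K := Kbar) (F := FFL L)) :
    CpPic G p (Pic0.mk D) = Pic0.mk ⟨CpDiv G p (D : Divisor Kbar (FFL L)),
      divCorr_mem_degZero _ _ (isGen_jFL G) (isGen_up G) D.2⟩ :=
  corr_mk _ _ (isGen_jFL G) (isGen_up G) D

theorem CpPic_mem_torsion {n : ℕ} (y : ↥(Pic0.torsion Kbar (FFL L) n)) :
    CpPic G p (y : JL L) ∈ Pic0.torsion Kbar (FFL L) n :=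
  corr_mem_torsion (heckePair_up (p := p) L) (isGen_jFL G) (isGen_up G) y

section Models

variable (A : ArithModel L.F₀) (A' : ArithModel (up L p).F₀) (hA : A.Gam = L.Gam)
  (hA' : A'.Gam = upGam A.Gam p)

include hA in
theorem finite_cosetIdx : Finite (CosetIdx A.Gam (upGam A.Gam p)) := by
  rw [hA]
  exact finite_cosetIdx_up (L := L) (p := p)

include G hA in
theorem card_cosetIdx [Fintype (CosetIdx A.Gam (upGam A.Gam p))] :
    Fintype.card (CosetIdx A.Gam (upGam A.Gam p)) =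
      finrankAlong Kbar (alphaG Kbar (heckePair_up (p := p) L)) := by
  rw [← Nat.card_eq_fintype_card]
  have h := card_cosetIdx_up (p := p) G
  rw [← hA] at h
  exact h

include A' hA hA' in
/-- **Kummer equivariance of `C_p`**: `κ (C_p y) = (repsCp A.Gam p).dMul (κ y)`. -/
theorem kummer_CpPic [Fintype (CosetIdx A.Gam (upGam A.Gam p))] {n : ℕ}
    {κ : ↥(Pic0.torsion Kbar (FFL L) n) → (A.Gam →* ℂˣ)}
    (hκ : IsKummerMap A.Gam A.an n κ) (y : ↥(Pic0.torsion Kbar (FFL L) n)) :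
    κ ⟨CpPic G p (y : JL L), CpPic_mem_torsion G y⟩ = (repsCp A.Gam p).dMul (κ y) :=
  kummer_Cp (heckePair_up (p := p) L) A A' hA' (card_cosetIdx G A hA) (isGen_jFL G) (isGen_up G)
    hκ y

/-! ### The Hecke operator `C_p ∘ ⟨s⟩` -/

variable {A}

/-- The diamond operator of `s` on the Jacobian. -/
def diaJ (s : SL(2, ℤ)) (hs : Acts A s) : JL L →+ JL L := diaPic A s hs (isGen_jFL G)

theorem diaJ_mem_torsion (s : SL(2, ℤ)) (hs : Acts A s) {n : ℕ}
    (y : ↥(Pic0.torsion Kbar (FFL L) n)) :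
    diaJ G s hs (y : JL L) ∈ Pic0.torsion Kbar (FFL L) n :=
  diaPic_mem_torsion A s hs (isGen_jFL G) n y

/-- **Kummer equivariance of the diamond operator**: `κ (⟨s⟩ y) = (κ y) ∘ conj_s`. -/
theorem kummer_diaJ {s : SL(2, ℤ)} (hs : Acts A s) {n : ℕ}
    {κ : ↥(Pic0.torsion Kbar (FFL L) n) → (A.Gam →* ℂˣ)}
    (hκ : IsKummerMap A.Gam A.an n κ) (y : ↥(Pic0.torsion Kbar (FFL L) n)) :
    κ ⟨diaJ G s hs (y : JL L), diaJ_mem_torsion G s hs y⟩ =
      (κ y).comp (conjHom s (conj_mem hs)) := by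
  rw [← dMul_conjReps]
  exact kummer_dia A hs (isGen_jFL G) hκ y _

theorem diaJ_galois {s : SL(2, ℤ)} (hs : Acts A s)
    (hrat : PreservesRat L.F₀ ((dia A s hs : FFK L.F₀ →ₐ[Kbar] FFK L.F₀) :
      FFK L.F₀ →+* FFK L.F₀))
    (σ : Kbar ≃ₐ[ℚ] Kbar) (y : JL L) : diaJ G s hs (σ • y) = σ • diaJ G s hs y :=
  diaPic_galois_smul A hs (isGen_jFL G) hrat σ y

/-- **The Hecke operator** `C_p ∘ ⟨s⟩` on the Jacobian. -/
def heckePic (p : ℕ) [Fact p.Prime] (s : SL(2, ℤ)) (hs : Acts A s) : JL L →+ JL L :=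
  (CpPic G p).comp (diaJ G s hs)

theorem heckePic_apply (s : SL(2, ℤ)) (hs : Acts A s) (y : JL L) :
    heckePic G p s hs y = CpPic G p (diaJ G s hs y) := rfl

theorem heckePic_mem_torsion (s : SL(2, ℤ)) (hs : Acts A s) {n : ℕ}
    (y : ↥(Pic0.torsion Kbar (FFL L) n)) :
    heckePic G p s hs (y : JL L) ∈ Pic0.torsion Kbar (FFL L) n :=
  CpPic_mem_torsion G ⟨diaJ G s hs (y : JL L), diaJ_mem_torsion G s hs y⟩

include A' hA hA' in
/-- **Kummer equivariance of `C_p ∘ ⟨s⟩`**: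
`κ (C_p ⟨s⟩ y) = (repsCp A.Gam p).dMul ((κ y) ∘ conj_s)`. -/
theorem kummer_heckePic [Fintype (CosetIdx A.Gam (upGam A.Gam p))] {s : SL(2, ℤ)}
    (hs : Acts A s) {n : ℕ} {κ : ↥(Pic0.torsion Kbar (FFL L) n) → (A.Gam →* ℂˣ)}
    (hκ : IsKummerMap A.Gam A.an n κ) (y : ↥(Pic0.torsion Kbar (FFL L) n)) :
    κ ⟨heckePic G p s hs (y : JL L), heckePic_mem_torsion G s hs y⟩ =
      (repsCp A.Gam p).dMul ((κ y).comp (conjHom s (conj_mem hs))) := by
  have h1 := kummer_CpPic G A A' hA hA' hκ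
    ⟨diaJ G s hs (y : JL L), diaJ_mem_torsion G s hs y⟩
  rw [kummer_diaJ G hs hκ y] at h1
  exact h1

theorem heckePic_galois {s : SL(2, ℤ)} (hs : Acts A s)
    (hrat : PreservesRat L.F₀ ((dia A s hs : FFK L.F₀ →ₐ[Kbar] FFK L.F₀) :
      FFK L.F₀ →+* FFK L.F₀))
    (σ : Kbar ≃ₐ[ℚ] Kbar) (y : JL L) :
    heckePic G p s hs (σ • y) = σ • heckePic G p s hs y := by
  rw [heckePic_apply, heckePic_apply, diaJ_galois G hs hrat, CpPic_galois]

end Models

end Fermat.Agent.DS.G.HECKE.TopG
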