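/-
Programme DS (S48), chapter G-HECKE, brick H09 (helper19): **the Hecke operators `T_p` and the
diamond operators `⟨d⟩` on the Jacobian `J₁(M) = JL (L1 M)` over `ℚbar`, with their Kummer and
Galois equivariance** — UNCONDITIONAL (every `M ≥ 1`).

Conventions (binding, = convention audit report 627): for `σ ∈ Γ₀(M)`
* `dia1 M σ hσ : J →+ J` is the diamond operator `id_* (dia σ)^*` of the automorphism `dia σ` of the
  function field with `an (dia σ f) = (an f) ∘ σ`; it is `⟨d⟩` for `d = σ₁₁ mod M` (lower right entry);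
* `T1 M p σ hσ := C_p ∘ dia1 M σ hσ`, `C_p = α_* β^*` the plain geometric correspondence of the
  Hecke pair `(L1 M, up (L1 M) p)`; it is `T_p` when `σ₁₁ ≡ p mod M`.

Results (`A1 M` the analytic model of `L1 M`, `Gam = ±Γ₁(M)` by `rfl`; `an` is unique:
`A1_an_eq`): for every Kummer map `κ` of `(±Γ₁(M), (A1 M).an)` on the `n`-torsion
* `kummer_T1`  : `κ (T1 y) = (heckeRepsTpm M hpM σ hσ hσp).dMul (κ y)`  (`σ₁₁ ≡ p`, `p ∤ M`);
* `kummer_dia1`: `κ (dia1 y) = (diamondRepsPm M σ hσ).dMul (κ y)`;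
* `T1_galois`, `dia1_galois` : both commute with `Gal(ℚbar/ℚ)`;
* `T1_mk`, `dia1_mk` : divisor level models (`T1Div`, `dia1Div`) for the reduction chapter.
The restriction to `Γ₁(M)` (`dMul_heckeRepsTpm_restrict`, `dMul_diamondRepsPm_restrict`) lands on
helper78's `heckeRepsT` / `diamondReps`, i.e. on `K2Reps.HeckeCompatT/D`.
-/
import Fermat.Agent.DS.G.HECKE.TopG
import Fermat.Agent.DS.G.HECKE.ModelOfAn
import Fermat.Agent.DS.G.HECKE.ConvUp51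
import Fermat.Agent.DS.X1.Inst13
import Fermat.Agent.DS.X1.Diamond13

set_option autoImplicit false
set_option linter.unusedSectionVars false
set_option linter.style.haveILetI false

open UpperHalfPlane hiding I
open scoped MatrixGroups
open AlgebraicCurve CongruenceSubgroup

noncomputable section

namespace Fermat.Agent.DS.G.HECKE.Top

open Fermat.Agent.X0 Fermat.Agent.X0.Analytic Fermat.Agent.X0.SurjPoint Fermat.Agent.ES.KUM
open Fermat.Agent.ES.HEQ.QExpMer19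
open Fermat.Agent.DS.G.Level Fermat.Agent.DS.X1.Level1 Fermat.Agent.DS.X1.Inst13
open Fermat.Agent.DS.X1.Diamond13
open Fermat.Agent.DS.Per1.HeckeReps Fermat.Agent.DS.Per1.RepsGamma1
open Fermat.Agent.DS.G.ES.HEQ.KummerHeckeG
open Fermat.Agent.DS.G.HECKE.Iface Fermat.Agent.DS.G.HECKE.UpLevel
open Fermat.Agent.DS.G.HECKE.UpAnalytic
open Fermat.Agent.DS.G.HECKE.CosetReps Fermat.Agent.DS.G.HECKE.Inputs
open Fermat.Agent.DS.G.HECKE.CpCompat Fermat.Agent.DS.G.HECKE.LevelPack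
open Fermat.Agent.DS.G.HECKE.Diamond Fermat.Agent.DS.G.HECKE.DiamondGal
open Fermat.Agent.DS.G.HECKE.Reindex51 Fermat.Agent.DS.G.HECKE.Gamma1pm51
open Fermat.Agent.DS.G.HECKE.ConvUp51 Fermat.Agent.DS.G.HECKE.Conv51
open Fermat.Agent.DS.G.HECKE.ModelGens Fermat.Agent.DS.G.HECKE.ModelOfAn
open Fermat.Agent.DS.G.HECKE.TopG

variable (M : ℕ) [NeZero M]

/-! ### The models -/

/-- **The analytic model of `L1 M`** (`Gam = ±Γ₁(M)`). -/
def A1 : ArithModel (L1 M).F₀ := defaultModel (analyticGensC M)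

theorem A1_Gam : (A1 M).Gam = Gamma1pm M := rfl

/-- The realisation is unique: any ring hom with the right Laurent expansions is `(A1 M).an`. -/
theorem A1_an_eq (an : FFL (L1 M) →+* MerH)
    (hq : ∀ f : FFL (L1 M), HasQExpMer (toC (f : LaurentSeries Kbar)) (an f)) :
    (A1 M).an = an :=
  RingHom.ext fun f => ((A1 M).hasQExpMer f).unique (hq f)

/-- The analytic model of the upper level `(L1 M ; p)`. -/
def A1up (p : ℕ) [Fact p.Prime] : ArithModel (up (L1 M) p).F₀ :=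
  defaultModel (upAnalyticGens (analyticGensC M) (exists_zeta_C ((L1 M).w * p)))

theorem A1up_Gam (p : ℕ) [Fact p.Prime] : (A1up M p).Gam = upGam (A1 M).Gam p := rfl

/-! ### `Γ₀(M)` acts on the model -/

theorem acts1 {σ : SL(2, ℤ)} (hσ : σ ∈ Gamma0 M) : Acts (A1 M) σ :=
  acts_of_perm (A1 M) (analyticGensC M)
    (fun g => exists_perm_of_analyticGens M (analyticGensC M) hσ g)
    (fun g => exists_perm_of_analyticGens M (analyticGensC M) ((Gamma0 M).inv_mem hσ) g)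

theorem preservesRat1 {σ : SL(2, ℤ)} (hσ : σ ∈ Gamma0 M) :
    PreservesRat (L1 M).F₀ ((dia (A1 M) σ (acts1 M hσ) :
      FFK (L1 M).F₀ →ₐ[Kbar] FFK (L1 M).F₀) : FFK (L1 M).F₀ →+* FFK (L1 M).F₀) :=
  preservesRat_dia_of_perm (analyticGensC M) (acts1 M hσ)
    (fun g => exists_perm_of_analyticGens M (analyticGensC M) hσ g)

/-! ### The operators -/

/-- **The diamond operator** of `σ ∈ Γ₀(M)` on `J₁(M)` (`= ⟨σ₁₁ mod M⟩`). -/
def dia1 (σ : SL(2, ℤ)) (hσ : σ ∈ Gamma0 M) : JL (L1 M) →+ JL (L1 M) :=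
  diaJ (analyticGensK M) σ (acts1 M hσ)

/-- **The Hecke operator** `C_p ∘ ⟨σ⟩` on `J₁(M)` (`= T_p` when `σ₁₁ ≡ p mod M`). -/
def T1 (p : ℕ) [Fact p.Prime] (σ : SL(2, ℤ)) (hσ : σ ∈ Gamma0 M) : JL (L1 M) →+ JL (L1 M) :=
  heckePic (analyticGensK M) p σ (acts1 M hσ)

theorem T1_apply (p : ℕ) [Fact p.Prime] (σ : SL(2, ℤ)) (hσ : σ ∈ Gamma0 M) (y : JL (L1 M)) :
    T1 M p σ hσ y = CpPic (analyticGensK M) p (dia1 M σ hσ y) := rfl

theorem dia1_mem_torsion (σ : SL(2, ℤ)) (hσ : σ ∈ Gamma0 M) {n : ℕ}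
    (y : ↥(Pic0.torsion Kbar (FFL (L1 M)) n)) :
    dia1 M σ hσ (y : JL (L1 M)) ∈ Pic0.torsion Kbar (FFL (L1 M)) n :=
  diaJ_mem_torsion (analyticGensK M) σ (acts1 M hσ) y

theorem T1_mem_torsion (p : ℕ) [Fact p.Prime] (σ : SL(2, ℤ)) (hσ : σ ∈ Gamma0 M) {n : ℕ}
    (y : ↥(Pic0.torsion Kbar (FFL (L1 M)) n)) :
    T1 M p σ hσ (y : JL (L1 M)) ∈ Pic0.torsion Kbar (FFL (L1 M)) n :=
  heckePic_mem_torsion (analyticGensK M) σ (acts1 M hσ) y

/-! ### Galois equivariance -/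

theorem dia1_galois (σ : SL(2, ℤ)) (hσ : σ ∈ Gamma0 M) (τ : Kbar ≃ₐ[ℚ] Kbar) (y : JL (L1 M)) :
    dia1 M σ hσ (τ • y) = τ • dia1 M σ hσ y :=
  diaJ_galois (analyticGensK M) (acts1 M hσ) (preservesRat1 M hσ) τ y

theorem T1_galois (p : ℕ) [Fact p.Prime] (σ : SL(2, ℤ)) (hσ : σ ∈ Gamma0 M)
    (τ : Kbar ≃ₐ[ℚ] Kbar) (y : JL (L1 M)) :
    T1 M p σ hσ (τ • y) = τ • T1 M p σ hσ y :=
  heckePic_galois (analyticGensK M) (acts1 M hσ) (preservesRat1 M hσ) τ y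

/-! ### Kummer equivariance -/

/-- **Kummer equivariance of the diamond operator.** -/
theorem kummer_dia1 (σ : SL(2, ℤ)) (hσ : σ ∈ Gamma0 M) {n : ℕ}
    {κ : ↥(Pic0.torsion Kbar (FFL (L1 M)) n) → (Gamma1pm M →* ℂˣ)}
    (hκ : IsKummerMap (Gamma1pm M) (A1 M).an n κ) (y : ↥(Pic0.torsion Kbar (FFL (L1 M)) n)) :
    κ ⟨dia1 M σ hσ (y : JL (L1 M)), dia1_mem_torsion M σ hσ y⟩ =
      (diamondRepsPm M σ hσ).dMul (κ y) := by
  have h := kummer_diaJ (A := A1 M) (analyticGensK M) (acts1 M hσ) hκ y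
  rw [diamondRepsPm, dMul_conjReps]
  exact h

/-- **Kummer equivariance of `T_p`**: for `σ ∈ Γ₀(M)` with lower right entry `≡ p mod M`, `p ∤ M`:
`κ (T1 y) = (heckeRepsTpm M hpM σ hσ hσp).dMul (κ y)`. -/
theorem kummer_T1 {p : ℕ} [Fact p.Prime] (hpM : ¬ p ∣ M) (σ : SL(2, ℤ)) (hσ : σ ∈ Gamma0 M)
    (hσp : ((σ 1 1 : ℤ) : ZMod M) = (p : ZMod M)) {n : ℕ}
    {κ : ↥(Pic0.torsion Kbar (FFL (L1 M)) n) → (Gamma1pm M →* ℂˣ)}
    (hκ : IsKummerMap (Gamma1pm M) (A1 M).an n κ) (y : ↥(Pic0.torsion Kbar (FFL (L1 M)) n)) :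
    κ ⟨T1 M p σ hσ (y : JL (L1 M)), T1_mem_torsion M p σ hσ y⟩ =
      (heckeRepsTpm M hpM σ hσ hσp).dMul (κ y) := by
  haveI : Finite (CosetIdx (Gamma1pm M) (upGam (Gamma1pm M) p)) := finite_cosetIdx_up M hpM
  letI inst1 : Fintype (CosetIdx (Gamma1pm M) (upGam (Gamma1pm M) p)) := Fintype.ofFinite _
  letI inst2 : Fintype (CosetIdx (A1 M).Gam (upGam (A1 M).Gam p)) := inst1
  have h := kummer_heckePic (A := A1 M) (analyticGensK M) (A1up M p) (A1_Gam M) (A1up_Gam M p)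
    (acts1 M hσ) hκ y
  rw [dMul_Tp M σ hpM hσ hσp (κ y)]
  exact h

/-! ### Divisor level models -/

/-- The divisor level model of the diamond operator. -/
def dia1Div (σ : SL(2, ℤ)) (hσ : σ ∈ Gamma0 M) :
    Divisor Kbar (FFL (L1 M)) →+ Divisor Kbar (FFL (L1 M)) :=
  divCorr (dia (A1 M) σ (acts1 M hσ) : FFK (L1 M).F₀ →ₐ[Kbar] FFK (L1 M).F₀)
    (AlgHom.id Kbar (FFK (L1 M).F₀)) (isGen_jFL (analyticGensK M)) (isGen_jFL (analyticGensK M))

theorem dia1Div_mem_degZero (σ : SL(2, ℤ)) (hσ : σ ∈ Gamma0 M)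
    (D : Divisor.degZero (K := Kbar) (F := FFL (L1 M))) :
    dia1Div M σ hσ (D : Divisor Kbar (FFL (L1 M))) ∈
      Divisor.degZero (K := Kbar) (F := FFL (L1 M)) :=
  divCorr_mem_degZero _ _ (isGen_jFL (analyticGensK M)) (isGen_jFL (analyticGensK M)) D.2

theorem dia1_mk (σ : SL(2, ℤ)) (hσ : σ ∈ Gamma0 M)
    (D : Divisor.degZero (K := Kbar) (F := FFL (L1 M))) :
    dia1 M σ hσ (Pic0.mk D) = Pic0.mk ⟨dia1Div M σ hσ (D : Divisor Kbar (FFL (L1 M))),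
      dia1Div_mem_degZero M σ hσ D⟩ :=
  corr_mk _ _ (isGen_jFL (analyticGensK M)) (isGen_jFL (analyticGensK M)) D

/-- The divisor level model of `T_p`. -/
def T1Div (p : ℕ) [Fact p.Prime] (σ : SL(2, ℤ)) (hσ : σ ∈ Gamma0 M) :
    Divisor Kbar (FFL (L1 M)) →+ Divisor Kbar (FFL (L1 M)) :=
  (CpDiv (analyticGensK M) p).comp (dia1Div M σ hσ)

theorem CpDiv_mem_degZero1 (p : ℕ) [Fact p.Prime] {D : Divisor Kbar (FFL (L1 M))}
    (hD : D ∈ Divisor.degZero (K := Kbar) (F := FFL (L1 M))) :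
    CpDiv (analyticGensK M) p D ∈ Divisor.degZero (K := Kbar) (F := FFL (L1 M)) :=
  divCorr_mem_degZero (betaG Kbar (heckePair_up (p := p) (L1 M)))
    (alphaG Kbar (heckePair_up (p := p) (L1 M))) (isGen_jFL (analyticGensK M))
    (isGen_up (analyticGensK M)) hD

theorem T1Div_apply (p : ℕ) [Fact p.Prime] (σ : SL(2, ℤ)) (hσ : σ ∈ Gamma0 M)
    (D : Divisor Kbar (FFL (L1 M))) :
    T1Div M p σ hσ D = CpDiv (analyticGensK M) p (dia1Div M σ hσ D) := rfl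

theorem T1_mk (p : ℕ) [Fact p.Prime] (σ : SL(2, ℤ)) (hσ : σ ∈ Gamma0 M)
    (D : Divisor.degZero (K := Kbar) (F := FFL (L1 M))) :
    ∃ h, T1 M p σ hσ (Pic0.mk D) =
      Pic0.mk ⟨T1Div M p σ hσ (D : Divisor Kbar (FFL (L1 M))), h⟩ := by
  have h1 := dia1_mk M σ hσ D
  have h2 := CpPic_mk (analyticGensK M) (p := p)
    ⟨dia1Div M σ hσ (D : Divisor Kbar (FFL (L1 M))), dia1Div_mem_degZero M σ hσ D⟩
  refine ⟨CpDiv_mem_degZero1 M p (dia1Div_mem_degZero M σ hσ D), ?_⟩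
  rw [T1_apply, h1]
  exact h2

end Fermat.Agent.DS.G.HECKE.Top
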