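/-
DS programme (S48), chapter G-HECKE, brick H08 part 2 (helper51): the `T_p`-representatives for
`±Γ₁(M)` and the group theory behind the CONVENTION `C_p = T_p ∘ ⟨σ⁻¹⟩`.

The level `L1 M` of chapter X1 has `Gam = ±Γ₁(M)` (`DS/X1/Level1.Gamma1pm`), while helper78's
`Per1.RepsGamma1.heckeRepsT` / `diamondReps` live on `Γ₁(M)`.  This file provides

* `heckeRepsTpm`, `diamondRepsPm` : the same representatives as `HeckeReps (Gamma1pm M) _`, and the
  compatibility of their operators with restriction of characters to `Γ₁(M)`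
  (`dMul_heckeRepsTpm_restrict`, `dMul_diamondRepsPm_restrict`, generic `dMul_comp_inclusion`);
* `distinct_heckeRepsT`, `distinct_heckeRepsTpm` : the representatives lie in distinct left cosets
  (even of `SL(2, ℤ)`), the hypothesis of `Reindex51`;
* the action on `P¹(F_p) = Option (ZMod p)`: `perm γ none = none ↔ p ∣ γ₁₀`,
  `perm γ none = some j ⇐ p ∣ γ₁₁ - γ₁₀ j`, `perm_none_eq_iff`, and transitivity of `Γ₁(M)`
  (`exists_mem_Gamma1_perm_none`, `p ∤ M`);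
* `glBeta_none_mul` : `diag(p,1) * γ = σ⁻¹ * coc_T γ ∞ * α_T (perm γ ∞)` — the identity which
  feeds `Reindex51.dMul_eq_of_alpha` with `s = σ⁻¹`, `c = coc_T · ∞`, `τ = perm · ∞`;
* `delta_condition` : `diag(p,1) (±Γ₁(M) ∩ Γ₀(p)) diag(p,1)⁻¹ ≤ ±Γ₁(M)`.
-/
import Mathlib
import Fermat.Agent.DS.Per1.RepsGamma1
import Fermat.Agent.DS.X1.Level1
import Fermat.Agent.DS.G.HECKE.Reindex51

set_option autoImplicit false
set_option linter.dupNamespace false

open Matrix CongruenceSubgroup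
open scoped MatrixGroups

namespace Fermat.Agent.DS.G.HECKE.Gamma1pm51

open Fermat.Agent.DS.Per1.HeckeReps Fermat.Agent.DS.Per1.RepsGamma1
open Fermat.Agent.ES.HEQ.DoubleCoset27
open Fermat.Agent.DS.X1.Level1
open Fermat.Agent.DS.G.HECKE.Reindex51

/-! ### Generic: restriction of characters to a subgroup -/

section Restrict

variable {Γ Γ' : Subgroup SL(2, ℤ)} {I : Type*} [Fintype I]

/-- If the cocycles of `H'` (on `Γ' ≥ Γ`) and `H` (on `Γ`) agree on `Γ`, the operators commute with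
restriction of characters. -/
theorem dMul_comp_inclusion (h : Γ ≤ Γ') (H : HeckeReps Γ I) (H' : HeckeReps Γ' I)
    (hcoc : ∀ (γ : Γ) (i : I),
      H'.coc (Subgroup.inclusion h γ) i = Subgroup.inclusion h (H.coc γ i))
    {M : Type*} [CommGroup M] (χ : Γ' →* M) :
    (H'.dMul χ).comp (Subgroup.inclusion h) = H.dMul (χ.comp (Subgroup.inclusion h)) := by
  ext γ
  simp only [MonoidHom.comp_apply, HeckeReps.dMul_apply, hcoc]

/-- additive form. -/
theorem dHom_comp_inclusion (h : Γ ≤ Γ') (H : HeckeReps Γ I) (H' : HeckeReps Γ' I)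
    (hcoc : ∀ (γ : Γ) (i : I),
      H'.coc (Subgroup.inclusion h γ) i = Subgroup.inclusion h (H.coc γ i))
    {A : Type*} [AddCommGroup A] (φ : Additive Γ' →+ A) :
    (H'.dHom A φ).comp (MonoidHom.toAdditive (Subgroup.inclusion h))
      = H.dHom A (φ.comp (MonoidHom.toAdditive (Subgroup.inclusion h))) := by
  refine AddMonoidHom.ext fun γ' => ?_
  obtain ⟨γ, rfl⟩ := Additive.ofMul.surjective γ'
  rw [HeckeReps.dHom_apply]
  show H'.dHom A φ (Additive.ofMul (Subgroup.inclusion h γ)) = _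
  rw [HeckeReps.dHom_apply]
  refine Finset.sum_congr rfl fun i _ => ?_
  rw [hcoc]
  rfl

end Restrict

variable {p : ℕ} [hp : Fact p.Prime]

/-! ### Negation -/

theorem perm_coc_neg (γ : SL(2, ℤ)) (i : Option (ZMod p)) :
    perm (-γ) i = perm γ i ∧ coc (-γ) i = -coc γ i := by
  apply eq_of_beta_mul
  rw [Matrix.SpecialLinearGroup.coe_neg, Matrix.SpecialLinearGroup.coe_neg, Matrix.mul_neg,
    Matrix.neg_mul, beta_mul]

theorem perm_neg (γ : SL(2, ℤ)) (i : Option (ZMod p)) : perm (-γ) i = perm γ i :=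
  (perm_coc_neg γ i).1

theorem coc_neg (γ : SL(2, ℤ)) (i : Option (ZMod p)) : coc (-γ) i = -coc γ i :=
  (perm_coc_neg γ i).2

theorem cocS_neg (σ γ : SL(2, ℤ)) (i : Option (ZMod p)) : cocS σ (-γ) i = -cocS σ γ i := by
  unfold cocS
  rw [perm_neg, coc_neg, mul_neg, neg_mul]

/-! ### The representatives on `±Γ₁(M)` -/

theorem cocS_mem_Gamma1pm {M : ℕ} (hpM : ¬ p ∣ M) {σ : SL(2, ℤ)} (hσ : σ ∈ Gamma0 M)
    (hσp : ((σ 1 1 : ℤ) : ZMod M) = (p : ZMod M)) {γ : SL(2, ℤ)} (hγ : γ ∈ Gamma1pm M)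
    (i : Option (ZMod p)) : cocS σ γ i ∈ Gamma1pm M := by
  rcases hγ with h | h
  · exact Or.inl (cocS_mem_Gamma1 hpM hσ hσp h i)
  · refine Or.inr ?_
    rw [← cocS_neg]
    exact cocS_mem_Gamma1 hpM hσ hσp h i

/-- The Hecke representatives of `T_p` on `±Γ₁(M)`, `p ∤ M` (same `α`, `perm`, `coc` as
`RepsGamma1.heckeRepsT`). -/
noncomputable def heckeRepsTpm (M : ℕ) (hpM : ¬ p ∣ M) (σ : SL(2, ℤ)) (hσ : σ ∈ Gamma0 M)
    (hσp : ((σ 1 1 : ℤ) : ZMod M) = (p : ZMod M)) :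
    HeckeReps (Gamma1pm M) (Option (ZMod p)) where
  α := alphaT σ
  perm γ := permEquiv (γ : SL(2, ℤ))
  coc γ i := ⟨cocS σ (γ : SL(2, ℤ)) i, cocS_mem_Gamma1pm hpM hσ hσp γ.2 i⟩
  rel γ i := alphaT_mul σ (γ : SL(2, ℤ)) i
  perm_mul γ δ i := by
    simp only [permEquiv_apply, Subgroup.coe_mul]
    exact perm_mul _ _ i
  coc_mul γ δ i := by
    apply Subtype.ext
    simp only [Subgroup.coe_mul, permEquiv_apply]
    exact cocS_mul σ _ _ i

section API

variable (M : ℕ) (hpM : ¬ p ∣ M) (σ : SL(2, ℤ)) (hσ : σ ∈ Gamma0 M)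
  (hσp : ((σ 1 1 : ℤ) : ZMod M) = (p : ZMod M))

@[simp] theorem heckeRepsTpm_α (i : Option (ZMod p)) :
    (heckeRepsTpm M hpM σ hσ hσp).α i = alphaT σ i := rfl

@[simp] theorem heckeRepsTpm_perm (γ : Gamma1pm M) (i : Option (ZMod p)) :
    (heckeRepsTpm M hpM σ hσ hσp).perm γ i = perm (γ : SL(2, ℤ)) i := rfl

@[simp] theorem coe_heckeRepsTpm_coc (γ : Gamma1pm M) (i : Option (ZMod p)) :
    (((heckeRepsTpm M hpM σ hσ hσp).coc γ i : Gamma1pm M) : SL(2, ℤ))
      = cocS σ (γ : SL(2, ℤ)) i := rfl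

theorem heckeRepsTpm_coc_inclusion (γ : Gamma1 M) (i : Option (ZMod p)) :
    (heckeRepsTpm M hpM σ hσ hσp).coc (Subgroup.inclusion (Gamma1_le_Gamma1pm M) γ) i
      = Subgroup.inclusion (Gamma1_le_Gamma1pm M) ((heckeRepsT M hpM σ hσ hσp).coc γ i) := rfl

/-- `T_p` on `±Γ₁(M)` restricts to helper78's `T_p` on `Γ₁(M)`. -/
theorem dMul_heckeRepsTpm_restrict {A : Type*} [CommGroup A] (χ : Gamma1pm M →* A) :
    ((heckeRepsTpm M hpM σ hσ hσp).dMul χ).comp (Subgroup.inclusion (Gamma1_le_Gamma1pm M))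
      = (heckeRepsT M hpM σ hσ hσp).dMul (χ.comp (Subgroup.inclusion (Gamma1_le_Gamma1pm M))) :=
  dMul_comp_inclusion (Gamma1_le_Gamma1pm M) _ _ (heckeRepsTpm_coc_inclusion M hpM σ hσ hσp) χ

theorem dHom_heckeRepsTpm_restrict {A : Type*} [AddCommGroup A] (φ : Additive (Gamma1pm M) →+ A) :
    ((heckeRepsTpm M hpM σ hσ hσp).dHom A φ).comp
        (MonoidHom.toAdditive (Subgroup.inclusion (Gamma1_le_Gamma1pm M)))
      = (heckeRepsT M hpM σ hσ hσp).dHom A
          (φ.comp (MonoidHom.toAdditive (Subgroup.inclusion (Gamma1_le_Gamma1pm M)))) :=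
  dHom_comp_inclusion (Gamma1_le_Gamma1pm M) _ _ (heckeRepsTpm_coc_inclusion M hpM σ hσ hσp) φ

end API

/-! ### Diamonds on `±Γ₁(M)` -/

/-- `±Γ₁(M)` is normalised by `Γ₀(M)`. -/
theorem conj_mem_Gamma1pm (M : ℕ) {σ : SL(2, ℤ)} (hσ : σ ∈ Gamma0 M) {γ : SL(2, ℤ)}
    (hγ : γ ∈ Gamma1pm M) : σ * γ * σ⁻¹ ∈ Gamma1pm M := by
  rcases hγ with h | h
  · exact Or.inl (conj_mem_Gamma1 M hσ h)
  · refine Or.inr ?_
    have : -(σ * γ * σ⁻¹) = σ * -γ * σ⁻¹ := by rw [mul_neg, neg_mul]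
    rw [this]
    exact conj_mem_Gamma1 M hσ h

/-- The diamond representatives on `±Γ₁(M)`. -/
def diamondRepsPm (M : ℕ) (σ : SL(2, ℤ)) (hσ : σ ∈ Gamma0 M) : HeckeReps (Gamma1pm M) Unit :=
  conjReps (Gamma1pm M) σ (fun _ hγ => conj_mem_Gamma1pm M hσ hγ)

@[simp] theorem coe_diamondRepsPm_coc (M : ℕ) (σ : SL(2, ℤ)) (hσ : σ ∈ Gamma0 M)
    (γ : Gamma1pm M) (u : Unit) :
    (((diamondRepsPm M σ hσ).coc γ u : Gamma1pm M) : SL(2, ℤ)) = σ * (γ : SL(2, ℤ)) * σ⁻¹ := rfl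

theorem dMul_diamondRepsPm_restrict (M : ℕ) (σ : SL(2, ℤ)) (hσ : σ ∈ Gamma0 M)
    {A : Type*} [CommGroup A] (χ : Gamma1pm M →* A) :
    ((diamondRepsPm M σ hσ).dMul χ).comp (Subgroup.inclusion (Gamma1_le_Gamma1pm M))
      = (diamondReps M σ hσ).dMul (χ.comp (Subgroup.inclusion (Gamma1_le_Gamma1pm M))) :=
  dMul_comp_inclusion (Gamma1_le_Gamma1pm M) _ _ (fun _ _ => rfl) χ

/-! ### Distinctness -/

/-- The `α_T i` lie in pairwise distinct left `SL(2, ℤ)`-cosets. -/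
theorem alphaT_distinct (σ : SL(2, ℤ)) (i j : Option (ZMod p)) (g : SL(2, ℤ))
    (h : alphaT σ i = Matrix.SpecialLinearGroup.mapGL ℝ g * alphaT σ j) : i = j := by
  unfold alphaT at h
  set g' : SL(2, ℤ) := (sgm σ i)⁻¹ * g * sgm σ j with hg'
  have h1 : glBeta p i = Matrix.SpecialLinearGroup.mapGL ℝ g' * glBeta p j := by
    have h0 : glBeta p i = (Matrix.SpecialLinearGroup.mapGL ℝ (sgm σ i))⁻¹
        * (Matrix.SpecialLinearGroup.mapGL ℝ (sgm σ i) * glBeta p i) := by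
      rw [inv_mul_cancel_left]
    rw [h0, h, hg', map_mul, map_mul, map_inv]
    simp only [mul_assoc]
  have h2 : (beta p i).map (Int.cast : ℤ → ℝ)
      = ((g' : Matrix (Fin 2) (Fin 2) ℤ) * beta p j).map (Int.cast : ℤ → ℝ) := by
    rw [Matrix.map_mul_intCast]
    have h3 := congrArg (fun x : GL (Fin 2) ℝ => (x : Matrix (Fin 2) (Fin 2) ℝ)) h1
    simp only [Matrix.GeneralLinearGroup.coe_mul, coe_glBeta,
      Matrix.SpecialLinearGroup.mapGL_coe_matrix] at h3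
    ext a b
    exact congrFun (congrFun h3 a) b
  have h4 : beta p i = (g' : Matrix (Fin 2) (Fin 2) ℤ) * beta p j :=
    Matrix.map_injective Int.cast_injective h2
  exact (decomp_unique (g := 1) (g' := g') (k := i) (k' := j) (by simpa using h4)).1

theorem distinct_heckeRepsT (M : ℕ) (hpM : ¬ p ∣ M) (σ : SL(2, ℤ)) (hσ : σ ∈ Gamma0 M)
    (hσp : ((σ 1 1 : ℤ) : ZMod M) = (p : ZMod M)) : Distinct (heckeRepsT M hpM σ hσ hσp) :=
  fun i j g h => alphaT_distinct σ i j g h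

theorem distinct_heckeRepsTpm (M : ℕ) (hpM : ¬ p ∣ M) (σ : SL(2, ℤ)) (hσ : σ ∈ Gamma0 M)
    (hσp : ((σ 1 1 : ℤ) : ZMod M) = (p : ZMod M)) : Distinct (heckeRepsTpm M hpM σ hσ hσp) :=
  fun i j g h => alphaT_distinct σ i j g h

/-! ### The action on `P¹(F_p)`: the orbit of `∞ = none` -/

private theorem det_entries (γ : SL(2, ℤ)) : γ 0 0 * γ 1 1 - γ 0 1 * γ 1 0 = 1 := by
  have := γ.2
  rwa [Matrix.det_fin_two] at this

theorem perm_none_eq_none_of_dvd (γ : SL(2, ℤ)) (h : (p : ℤ) ∣ γ 1 0) :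
    perm γ (none : Option (ZMod p)) = none := by
  obtain ⟨c', hc'⟩ := h
  have hdet : (!![γ 0 0, (p : ℤ) * γ 0 1; c', γ 1 1] : Matrix (Fin 2) (Fin 2) ℤ).det = 1 := by
    rw [Matrix.det_fin_two_of]
    have := det_entries γ
    rw [hc'] at this
    linear_combination this
  refine (eq_of_beta_mul (g := ⟨_, hdet⟩) ?_).1
  ext a b
  fin_cases a <;> fin_cases b <;>
    simp [beta, Matrix.mul_apply, Fin.sum_univ_two, hc', mul_comm]

theorem dvd_of_perm_none_eq_none (γ : SL(2, ℤ))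
    (h : perm γ (none : Option (ZMod p)) = none) : (p : ℤ) ∣ γ 1 0 := by
  have e := congrFun (congrFun (beta_mul γ (none : Option (ZMod p))) 1) 0
  rw [h] at e
  simp [beta, Matrix.mul_apply, Fin.sum_univ_two] at e
  exact ⟨_, by rw [e]; ring⟩

theorem perm_none_eq_none_iff (γ : SL(2, ℤ)) :
    perm γ (none : Option (ZMod p)) = none ↔ (p : ℤ) ∣ γ 1 0 :=
  ⟨dvd_of_perm_none_eq_none γ, perm_none_eq_none_of_dvd γ⟩

theorem perm_none_eq_some (γ : SL(2, ℤ)) (j : ZMod p)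
    (h : (p : ℤ) ∣ γ 1 1 - γ 1 0 * (j.val : ℤ)) :
    perm γ (none : Option (ZMod p)) = some j := by
  obtain ⟨w, hw⟩ := h
  have hdet : (!![(p : ℤ) * γ 0 0, γ 0 1 - γ 0 0 * (j.val : ℤ); γ 1 0, w] :
      Matrix (Fin 2) (Fin 2) ℤ).det = 1 := by
    rw [Matrix.det_fin_two_of]
    have := det_entries γ
    linear_combination this - γ 0 0 * hw
  refine (eq_of_beta_mul (g := ⟨_, hdet⟩) ?_).1
  ext a b
  fin_cases a <;> fin_cases b
  · simp [beta, Matrix.mul_apply, Fin.sum_univ_two, mul_comm]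
  · simp [beta, Matrix.mul_apply, Fin.sum_univ_two, -ZMod.natCast_val]
    ring
  · simp [beta, Matrix.mul_apply, Fin.sum_univ_two]
  · simp [beta, Matrix.mul_apply, Fin.sum_univ_two, -ZMod.natCast_val]
    linear_combination hw

/-- Two elements have the same image of `∞` iff they lie in the same right coset of `Γ₀(p)`. -/
theorem perm_none_eq_iff (γ γ' : SL(2, ℤ)) :
    perm γ' (none : Option (ZMod p)) = perm γ none ↔ (p : ℤ) ∣ (γ' * γ⁻¹) 1 0 := by
  rw [← perm_none_eq_none_iff, perm_mul]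
  constructor
  · intro h
    rw [h, ← perm_mul, mul_inv_cancel, perm_one]
  · intro h
    have := congrArg (perm γ) h
    rwa [← perm_mul, inv_mul_cancel, perm_one] at this

/-- **Transitivity**: `Γ₁(M)` acts transitively on `P¹(F_p)` for `p ∤ M`. -/
theorem exists_mem_Gamma1_perm_none {M : ℕ} (hpM : ¬ p ∣ M) (k : Option (ZMod p)) :
    ∃ γ : SL(2, ℤ), γ ∈ Gamma1 M ∧ perm γ (none : Option (ZMod p)) = k := by
  cases k with
  | none => exact ⟨1, one_mem _, perm_one _⟩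
  | some j =>
    have hco : Nat.Coprime M p := ((Nat.Prime.coprime_iff_not_dvd hp.out).mpr hpM).symm
    obtain ⟨d, hd1, hd2⟩ := Nat.chineseRemainder hco 1 (M * j.val)
    have hdM : Nat.Coprime d M := by
      have := hd1.gcd_eq
      rw [Nat.gcd_one_left] at this
      exact this
    obtain ⟨a, b, hab⟩ : IsCoprime (d : ℤ) (M : ℤ) := Nat.isCoprime_iff_coprime.mpr hdM
    have hdet : (!![a, -b; (M : ℤ), (d : ℤ)] : Matrix (Fin 2) (Fin 2) ℤ).det = 1 := by
      rw [Matrix.det_fin_two_of]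
      linear_combination hab
    refine ⟨⟨_, hdet⟩, ?_, ?_⟩
    · rw [Gamma1_mem]
      have hd' : ((d : ℕ) : ZMod M) = 1 := by
        have := (ZMod.natCast_eq_natCast_iff d 1 M).mpr hd1
        simpa using this
      refine ⟨?_, ?_, ?_⟩
      · have h := congrArg (Int.cast : ℤ → ZMod M) hab
        push_cast at h
        rw [hd', mul_one, ZMod.natCast_self, mul_zero, add_zero] at h
        simpa using h
      · simpa using hd'
      · simp
    · apply perm_none_eq_some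
      have h := (Nat.modEq_iff_dvd.mp hd2)
      have e : (d : ℤ) - (M : ℤ) * (j.val : ℤ) = -(((M * j.val : ℕ) : ℤ) - (d : ℤ)) := by
        push_cast
        ring
      show (p : ℤ) ∣ (d : ℤ) - (M : ℤ) * (j.val : ℤ)
      rw [e]
      exact (dvd_neg).mpr h

/-! ### The identity `diag(p,1) * γ = σ⁻¹ * coc_T γ ∞ * α_T (perm γ ∞)` -/

/-- For every `γ`, `diag(p, 1) · γ = σ⁻¹ · cocS σ γ ∞ · α_T (perm γ ∞)`. -/
theorem glBeta_none_mul (σ γ : SL(2, ℤ)) :
    glBeta p none * Matrix.SpecialLinearGroup.mapGL ℝ γ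
      = Matrix.SpecialLinearGroup.mapGL ℝ σ⁻¹
        * Matrix.SpecialLinearGroup.mapGL ℝ (cocS σ γ (none : Option (ZMod p)))
        * alphaT σ (perm γ (none : Option (ZMod p))) := by
  have h := alphaT_mul σ γ (none : Option (ZMod p))
  have h0 : alphaT σ (none : Option (ZMod p))
      = Matrix.SpecialLinearGroup.mapGL ℝ σ * glBeta p none := rfl
  rw [h0] at h
  rw [map_inv, mul_assoc, ← h, ← mul_assoc, ← mul_assoc, inv_mul_cancel, one_mul]

/-! ### The δ-condition -/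

/-- `diag(p,1) (±Γ₁(M) ∩ Γ₀(p)) diag(p,1)⁻¹ ≤ ±Γ₁(M)`: for `γ ∈ ±Γ₁(M) ∩ Γ₀(p)` the element
`coc γ ∞ = diag(p,1) γ diag(p,1)⁻¹` lies in `±Γ₁(M)`. -/
theorem delta_condition {M : ℕ} (hpM : ¬ p ∣ M) {γ : SL(2, ℤ)} (hγ : γ ∈ Gamma1pm M)
    (hγp : γ ∈ Gamma0 p) :
    coc γ (none : Option (ZMod p)) ∈ Gamma1pm M ∧
      glBeta p none * Matrix.SpecialLinearGroup.mapGL ℝ γ
        = Matrix.SpecialLinearGroup.mapGL ℝ (coc γ (none : Option (ZMod p))) * glBeta p none := by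
  have hperm : perm γ (none : Option (ZMod p)) = none := by
    apply perm_none_eq_none_of_dvd
    rw [Gamma0_mem] at hγp
    exact (ZMod.intCast_zmod_eq_zero_iff_dvd _ p).mp hγp
  have hmul := glBeta_mul γ (none : Option (ZMod p))
  rw [hperm] at hmul
  refine ⟨?_, hmul⟩
  -- use `σ` with lower right entry `p` and the membership of `cocS`
  have hcop : Nat.Coprime p M := (Nat.Prime.coprime_iff_not_dvd hp.out).mpr hpM
  have hσ := sigmaOf_mem M p hcop
  have hσp := sigmaOf_apply_one_one M p hcop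
  set σ := sigmaOf M p hcop
  have h1 := cocS_mem_Gamma1pm hpM hσ hσp hγ (none : Option (ZMod p))
  unfold cocS at h1
  rw [hperm] at h1
  simp only [sgm_none] at h1
  have h2 := conj_mem_Gamma1pm M ((Gamma0 M).inv_mem hσ) h1
  have e : σ⁻¹ * (σ * coc γ (none : Option (ZMod p)) * σ⁻¹) * σ⁻¹⁻¹
      = coc γ (none : Option (ZMod p)) := by group
  rwa [e] at h2

end Fermat.Agent.DS.G.HECKE.Gamma1pm51
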