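/-
DS programme (S48), chapter G-HECKE, brick H08 part 3 (helper51): **the CONVENTION**
`C_p = T_p ∘ ⟨σ⁻¹⟩` on `±Γ₁(M)`.

`C : ConjData (Gamma1pm M) Γ'` with `δ = diag(p,1) = glBeta p none` and
`Γ' = {γ ∈ ±Γ₁(M) : perm γ ∞ = ∞}` (`= ±Γ₁(M) ∩ Γ₀(p)`; this is `upGam` of H10).  The geometric
correspondence `C_p = α_* β^*` has the representatives `CosetReps.repsOfCosets C` (`δ γᵢ`).  For
`σ ∈ Γ₀(M)` with lower right entry `≡ p (mod M)`: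

* `tau : CosetIdx (Gamma1pm M) Γ' ≃ Option (ZMod p)`, `i ↦ perm (rep i) ∞` (orbit–stabiliser);
* `repsOfCosets_α_eq` : `δ γᵢ = σ⁻¹ · coc_T γᵢ ∞ · α_T (tau i)`;
* **`dMul_repsOfCosets`** : `(repsOfCosets C).dMul χ = (heckeRepsTpm …).dMul (χ ∘ conj_{σ⁻¹})`,
  `dHom_repsOfCosets`, and in operator form `dHom_repsOfCosets_eq_comp` :
  `C_p = T_p ∘ ⟨σ⁻¹⟩` with `⟨σ⁻¹⟩ = diamondRepsPm M σ⁻¹` (the diamond operator of `p⁻¹ mod M`);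
* `dMul_heckeRepsTpm_eq` : conversely `T_p χ = C_p (χ ∘ conj_σ)`.
-/
import Mathlib
import Fermat.Agent.DS.G.HECKE.Gamma1pm51
import Fermat.Agent.DS.G.HECKE.CosetReps

set_option autoImplicit false
set_option linter.dupNamespace false
set_option linter.unusedSectionVars false

open Matrix CongruenceSubgroup
open scoped MatrixGroups

noncomputable section

namespace Fermat.Agent.DS.G.HECKE.Conv51

open Fermat.Agent.DS.Per1.HeckeReps Fermat.Agent.DS.Per1.RepsGamma1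
open Fermat.Agent.ES.HEQ.DoubleCoset27
open Fermat.Agent.DS.X1.Level1
open Fermat.Agent.DS.G.HECKE.Reindex51 Fermat.Agent.DS.G.HECKE.Gamma1pm51
open Fermat.Agent.DS.G.HECKE.CosetReps

variable {p : ℕ} [hp : Fact p.Prime] (M : ℕ) {Γ' : Subgroup SL(2, ℤ)}

/-- `Γ'` is the stabiliser of `∞ ∈ P¹(F_p)` in `±Γ₁(M)`. -/
def IsStab (p : ℕ) [Fact p.Prime] (M : ℕ) (Γ' : Subgroup SL(2, ℤ)) : Prop :=
  ∀ γ : Gamma1pm M, ((γ : Gamma1pm M) : SL(2, ℤ)) ∈ Γ' ↔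
    perm ((γ : Gamma1pm M) : SL(2, ℤ)) (none : Option (ZMod p)) = none

/-- The orbit map `i ↦ perm γᵢ ∞`. -/
def tauFun (i : CosetIdx (Gamma1pm M) Γ') : Option (ZMod p) :=
  perm (((rep (Gamma1pm M) Γ' i : Gamma1pm M)) : SL(2, ℤ)) none

/-- `perm γ' ∞ = perm γ ∞ ↔ perm (γ' γ⁻¹) ∞ = ∞`. -/
theorem perm_none_eq_iff' (γ γ' : SL(2, ℤ)) :
    perm γ' (none : Option (ZMod p)) = perm γ none ↔
      perm (γ' * γ⁻¹) (none : Option (ZMod p)) = none := by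
  rw [perm_none_eq_iff, perm_none_eq_none_iff]

theorem tauFun_injective (hΓ' : IsStab p M Γ') :
    Function.Injective (tauFun (p := p) M (Γ' := Γ')) := by
  intro i i' h
  unfold tauFun at h
  have h1 : perm ((((rep (Gamma1pm M) Γ' i' : Gamma1pm M)) : SL(2, ℤ))
      * (((rep (Gamma1pm M) Γ' i : Gamma1pm M)) : SL(2, ℤ))⁻¹) (none : Option (ZMod p)) = none :=
    (perm_none_eq_iff' _ _).mp h.symm
  have h2 : ((((rep (Gamma1pm M) Γ' i' : Gamma1pm M)) : SL(2, ℤ))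
      * (((rep (Gamma1pm M) Γ' i : Gamma1pm M)) : SL(2, ℤ))⁻¹) ∈ Γ' :=
    (hΓ' (rep (Gamma1pm M) Γ' i' * (rep (Gamma1pm M) Γ' i)⁻¹)).mpr h1
  have h3 := (permC_base_eq_iff (Gamma1pm M) Γ' (rep (Gamma1pm M) Γ' i)
    (rep (Gamma1pm M) Γ' i')).mpr h2
  rwa [permC_rep_base, permC_rep_base] at h3

theorem tauFun_surjective (hpM : ¬ p ∣ M) (hΓ' : IsStab p M Γ') :
    Function.Surjective (tauFun (p := p) M (Γ' := Γ')) := by
  intro k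
  obtain ⟨γ, hγ1, hγk⟩ := exists_mem_Gamma1_perm_none hpM k
  set g : Gamma1pm M := ⟨γ, Gamma1_le_Gamma1pm M hγ1⟩ with hg
  refine ⟨permC (Gamma1pm M) Γ' g (base (Gamma1pm M) Γ'), ?_⟩
  set i := permC (Gamma1pm M) Γ' g (base (Gamma1pm M) Γ') with hi
  have h1 : permC (Gamma1pm M) Γ' (rep (Gamma1pm M) Γ' i) (base (Gamma1pm M) Γ')
      = permC (Gamma1pm M) Γ' g (base (Gamma1pm M) Γ') := permC_rep_base (Gamma1pm M) Γ' i
  have h2 := (permC_base_eq_iff (Gamma1pm M) Γ' (rep (Gamma1pm M) Γ' i) g).mp h1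
  have h3 : perm ((g : SL(2, ℤ)) * (((rep (Gamma1pm M) Γ' i : Gamma1pm M)) : SL(2, ℤ))⁻¹)
      (none : Option (ZMod p)) = none :=
    (hΓ' (g * (rep (Gamma1pm M) Γ' i)⁻¹)).mp h2
  have h4 := (perm_none_eq_iff' (((rep (Gamma1pm M) Γ' i : Gamma1pm M)) : SL(2, ℤ))
    (g : SL(2, ℤ))).mpr h3
  unfold tauFun
  rw [← h4]
  exact hγk

/-- **Orbit–stabiliser**: the cosets of `Γ' = ±Γ₁(M) ∩ Γ₀(p)` in `±Γ₁(M)` are `P¹(F_p)`. -/
def tau (hpM : ¬ p ∣ M) (hΓ' : IsStab p M Γ') : CosetIdx (Gamma1pm M) Γ' ≃ Option (ZMod p) :=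
  Equiv.ofBijective (tauFun (p := p) M (Γ' := Γ'))
    ⟨tauFun_injective M hΓ', tauFun_surjective M hpM hΓ'⟩

theorem tau_apply (hpM : ¬ p ∣ M) (hΓ' : IsStab p M Γ') (i : CosetIdx (Gamma1pm M) Γ') :
    tau M hpM hΓ' i = perm (((rep (Gamma1pm M) Γ' i : Gamma1pm M)) : SL(2, ℤ)) none := rfl

/-- The index set is finite. -/
theorem finite_cosetIdx' (hpM : ¬ p ∣ M) (hΓ' : IsStab p M Γ') :
    Finite (CosetIdx (Gamma1pm M) Γ') :=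
  Finite.of_equiv _ (tau M hpM hΓ').symm

/-- the relative index is `p + 1`. -/
theorem card_cosetIdx' (hpM : ¬ p ∣ M) (hΓ' : IsStab p M Γ') :
    Nat.card (CosetIdx (Gamma1pm M) Γ') = p + 1 := by
  rw [Nat.card_congr (tau M hpM hΓ'), Nat.card_eq_fintype_card, Fintype.card_option, ZMod.card]

variable (σ : SL(2, ℤ))

/-- `σ⁻¹` normalises `±Γ₁(M)`. -/
theorem hs_inv (hσ : σ ∈ Gamma0 M) : ∀ γ ∈ Gamma1pm M, σ⁻¹ * γ * σ⁻¹⁻¹ ∈ Gamma1pm M :=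
  fun _ hγ => conj_mem_Gamma1pm M ((Gamma0 M).inv_mem hσ) hγ

theorem hs_inv' (hσ : σ ∈ Gamma0 M) : ∀ γ ∈ Gamma1pm M, σ⁻¹⁻¹ * γ * σ⁻¹ ∈ Gamma1pm M := by
  intro γ hγ
  rw [inv_inv]
  exact conj_mem_Gamma1pm M hσ hγ

theorem hs_pos (hσ : σ ∈ Gamma0 M) : ∀ γ ∈ Gamma1pm M, σ * γ * σ⁻¹ ∈ Gamma1pm M :=
  fun _ hγ => conj_mem_Gamma1pm M hσ hγ

/-- `δ γᵢ = σ⁻¹ · coc_T γᵢ ∞ · α_T (tau i)`. -/
theorem repsOfCosets_α_eq (hpM : ¬ p ∣ M) (hΓ' : IsStab p M Γ') (hσ : σ ∈ Gamma0 M)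
    (hσp : ((σ 1 1 : ℤ) : ZMod M) = (p : ZMod M)) (C : ConjData (Gamma1pm M) Γ')
    (hδ : C.δ = glBeta p none) (i : CosetIdx (Gamma1pm M) Γ') :
    (repsOfCosets C).α i = Matrix.SpecialLinearGroup.mapGL ℝ σ⁻¹
      * Matrix.SpecialLinearGroup.mapGL ℝ
          ((((heckeRepsTpm M hpM σ hσ hσp).coc (rep (Gamma1pm M) Γ' i) none : Gamma1pm M)) : SL(2, ℤ))
      * (heckeRepsTpm M hpM σ hσ hσp).α (tau M hpM hΓ' i) := by
  rw [repsOfCosets_α, hδ, coe_heckeRepsTpm_coc, heckeRepsTpm_α, tau_apply]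
  exact glBeta_none_mul σ _

variable [Fintype (CosetIdx (Gamma1pm M) Γ')]

/-- **CONVENTION, multiplicative form**: `C_p χ = T_p (χ ∘ conj_{σ⁻¹})`. -/
theorem dMul_repsOfCosets (hpM : ¬ p ∣ M) (hΓ' : IsStab p M Γ') (hσ : σ ∈ Gamma0 M)
    (hσp : ((σ 1 1 : ℤ) : ZMod M) = (p : ZMod M)) (C : ConjData (Gamma1pm M) Γ')
    (hδ : C.δ = glBeta p none)
    {A : Type*} [CommGroup A] (χ : Gamma1pm M →* A) :
    (repsOfCosets C).dMul χ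
      = (heckeRepsTpm M hpM σ hσ hσp).dMul (χ.comp (conjHom σ⁻¹ (hs_inv M σ hσ))) :=
  dMul_eq_of_alpha (heckeRepsTpm M hpM σ hσ hσp) (repsOfCosets C)
    (distinct_heckeRepsTpm M hpM σ hσ hσp) (tau M hpM hΓ')
    (fun i => (heckeRepsTpm M hpM σ hσ hσp).coc (rep (Gamma1pm M) Γ' i) none) σ⁻¹
    (hs_inv M σ hσ) (hs_inv' M σ hσ)
    (fun i => repsOfCosets_α_eq M σ hpM hΓ' hσ hσp C hδ i) χ

/-- **CONVENTION, additive form**. -/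
theorem dHom_repsOfCosets (hpM : ¬ p ∣ M) (hΓ' : IsStab p M Γ') (hσ : σ ∈ Gamma0 M)
    (hσp : ((σ 1 1 : ℤ) : ZMod M) = (p : ZMod M)) (C : ConjData (Gamma1pm M) Γ')
    (hδ : C.δ = glBeta p none)
    {A : Type*} [AddCommGroup A] (φ : Additive (Gamma1pm M) →+ A) :
    (repsOfCosets C).dHom A φ
      = (heckeRepsTpm M hpM σ hσ hσp).dHom A
          (φ.comp (MonoidHom.toAdditive (conjHom σ⁻¹ (hs_inv M σ hσ)))) :=
  dHom_eq_of_alpha (heckeRepsTpm M hpM σ hσ hσp) (repsOfCosets C)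
    (distinct_heckeRepsTpm M hpM σ hσ hσp) (tau M hpM hΓ')
    (fun i => (heckeRepsTpm M hpM σ hσ hσp).coc (rep (Gamma1pm M) Γ' i) none) σ⁻¹
    (hs_inv M σ hσ) (hs_inv' M σ hσ)
    (fun i => repsOfCosets_α_eq M σ hpM hΓ' hσ hσp C hδ i) φ

/-- **CONVENTION, operator form**: `C_p = T_p ∘ ⟨σ⁻¹⟩`, where `⟨σ⁻¹⟩` is the diamond operator of
`σ⁻¹ ∈ Γ₀(M)` (lower right entry `≡ p⁻¹`). -/
theorem dHom_repsOfCosets_eq_comp (hpM : ¬ p ∣ M) (hΓ' : IsStab p M Γ') (hσ : σ ∈ Gamma0 M)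
    (hσp : ((σ 1 1 : ℤ) : ZMod M) = (p : ZMod M)) (C : ConjData (Gamma1pm M) Γ')
    (hδ : C.δ = glBeta p none)
    {A : Type*} [AddCommGroup A] (φ : Additive (Gamma1pm M) →+ A) :
    (repsOfCosets C).dHom A φ
      = (heckeRepsTpm M hpM σ hσ hσp).dHom A
          ((diamondRepsPm M σ⁻¹ ((Gamma0 M).inv_mem hσ)).dHom A φ) :=
  dHom_eq_comp_conjReps (heckeRepsTpm M hpM σ hσ hσp) (repsOfCosets C)
    (distinct_heckeRepsTpm M hpM σ hσ hσp) (tau M hpM hΓ')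
    (fun i => (heckeRepsTpm M hpM σ hσ hσp).coc (rep (Gamma1pm M) Γ' i) none) σ⁻¹
    (hs_inv M σ hσ) (hs_inv' M σ hσ)
    (fun i => repsOfCosets_α_eq M σ hpM hΓ' hσ hσp C hδ i) φ

/-- `conj_{σ⁻¹} ∘ conj_σ = id`. -/
theorem conjHom_inv_comp (hσ : σ ∈ Gamma0 M) :
    (conjHom σ⁻¹ (hs_inv M σ hσ)).comp (conjHom σ (hs_pos M σ hσ)) = MonoidHom.id (Gamma1pm M) := by
  ext γ
  simp only [MonoidHom.comp_apply, coe_conjHom, MonoidHom.id_apply]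
  group

/-- Conversely `T_p χ = C_p (χ ∘ conj_σ)`. -/
theorem dMul_heckeRepsTpm_eq (hpM : ¬ p ∣ M) (hΓ' : IsStab p M Γ') (hσ : σ ∈ Gamma0 M)
    (hσp : ((σ 1 1 : ℤ) : ZMod M) = (p : ZMod M)) (C : ConjData (Gamma1pm M) Γ')
    (hδ : C.δ = glBeta p none)
    {A : Type*} [CommGroup A] (χ : Gamma1pm M →* A) :
    (heckeRepsTpm M hpM σ hσ hσp).dMul χ
      = (repsOfCosets C).dMul (χ.comp (conjHom σ (hs_pos M σ hσ))) := by
  rw [dMul_repsOfCosets M σ hpM hΓ' hσ hσp C hδ, MonoidHom.comp_assoc]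
  congr 1
  ext γ
  simp only [MonoidHom.comp_apply]
  congr 1
  apply Subtype.ext
  simp only [coe_conjHom]
  group

end Fermat.Agent.DS.G.HECKE.Conv51
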