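/-
DS programme (S48), chapter G-HECKE, brick H08 part 4 (helper51): the CONVENTION instantiated at the
upper level of H10 (`UpLevel.upGam`, `UpLevel.conjData`) for `Gam = ±Γ₁(M) = (L1 M).Gam`.

* `isStab_upGam` : `upGam (Gamma1pm M) p` is the stabiliser of `∞ ∈ P¹(F_p)` in `±Γ₁(M)`
  (`= ±Γ₁(M) ∩ Γ₀(p)`, `mem_upGam_Gamma1pm_iff`), for `p ∤ M`;
* `card_cosetIdx_up` : `[±Γ₁(M) : upGam] = p + 1`, `tauUp : CosetIdx … ≃ Option (ZMod p)`;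
* **`dMul_Cp`**, `dHom_Cp`, `dHom_Cp_eq_comp` : for the representatives
  `Cp M p := repsOfCosets (conjData (Gamma1pm M) p)` of the geometric correspondence `C_p = α_* β^*`:
  `C_p χ = T_p (χ ∘ conj_{σ⁻¹})`, i.e. `C_p = T_p ∘ ⟨σ⁻¹⟩` with `T_p = heckeRepsTpm M hpM σ`
  and `σ ∈ Γ₀(M)` of lower right entry `≡ p`; conversely `dMul_Tp` : `T_p χ = C_p (χ ∘ conj_σ)`.
-/
import Mathlib
import Fermat.Agent.DS.G.HECKE.Conv51
import Fermat.Agent.DS.G.HECKE.UpLevel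

set_option autoImplicit false
set_option linter.dupNamespace false
set_option linter.unusedSectionVars false

open Matrix CongruenceSubgroup
open scoped MatrixGroups

noncomputable section

namespace Fermat.Agent.DS.G.HECKE.ConvUp51

open Fermat.Agent.DS.Per1.HeckeReps Fermat.Agent.DS.Per1.RepsGamma1
open Fermat.Agent.ES.HEQ.DoubleCoset27
open Fermat.Agent.DS.X1.Level1
open Fermat.Agent.DS.G.HECKE.Reindex51 Fermat.Agent.DS.G.HECKE.Gamma1pm51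
open Fermat.Agent.DS.G.HECKE.CosetReps Fermat.Agent.DS.G.HECKE.Conv51
open Fermat.Agent.DS.G.HECKE.UpLevel

variable {p : ℕ} [hp : Fact p.Prime] (M : ℕ)

/-- For `p ∤ M`: `γ ∈ upGam (±Γ₁(M)) p ↔ γ ∈ ±Γ₁(M) ∧ perm γ ∞ = ∞`. -/
theorem mem_upGam_Gamma1pm_iff (hpM : ¬ p ∣ M) {γ : SL(2, ℤ)} :
    γ ∈ upGam (Gamma1pm M) p ↔
      γ ∈ Gamma1pm M ∧ perm γ (none : Option (ZMod p)) = none := by
  constructor
  · intro h
    exact ⟨h.1, h.2.1⟩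
  · rintro ⟨h1, h2⟩
    refine ⟨h1, h2, ?_⟩
    have hp0 : γ ∈ Gamma0 p := by
      rw [Gamma0_mem, ZMod.intCast_zmod_eq_zero_iff_dvd]
      exact (perm_none_eq_none_iff γ).mp h2
    exact (delta_condition hpM h1 hp0).1

/-- `γ ∈ upGam (±Γ₁(M)) p ↔ γ ∈ ±Γ₁(M) ∩ Γ₀(p)`. -/
theorem mem_upGam_Gamma1pm_iff' (hpM : ¬ p ∣ M) {γ : SL(2, ℤ)} :
    γ ∈ upGam (Gamma1pm M) p ↔ γ ∈ Gamma1pm M ∧ γ ∈ Gamma0 p := by
  rw [mem_upGam_Gamma1pm_iff M hpM, perm_none_eq_none_iff, Gamma0_mem,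
    ZMod.intCast_zmod_eq_zero_iff_dvd]

theorem isStab_upGam (hpM : ¬ p ∣ M) : IsStab p M (upGam (Gamma1pm M) p) := by
  intro γ
  rw [mem_upGam_Gamma1pm_iff M hpM]
  exact ⟨fun h => h.2, fun h => ⟨γ.2, h⟩⟩

/-- The cosets of the upper group are `P¹(F_p)`. -/
def tauUp (hpM : ¬ p ∣ M) :
    CosetIdx (Gamma1pm M) (upGam (Gamma1pm M) p) ≃ Option (ZMod p) :=
  tau M hpM (isStab_upGam M hpM)

theorem card_cosetIdx_up (hpM : ¬ p ∣ M) :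
    Nat.card (CosetIdx (Gamma1pm M) (upGam (Gamma1pm M) p)) = p + 1 :=
  card_cosetIdx' M hpM (isStab_upGam M hpM)

theorem relIndex_upGam (hpM : ¬ p ∣ M) : (upGam (Gamma1pm M) p).relIndex (Gamma1pm M) = p + 1 := by
  rw [← card_cosetIdx]
  exact card_cosetIdx_up M hpM

theorem finite_cosetIdx_up (hpM : ¬ p ∣ M) :
    Finite (CosetIdx (Gamma1pm M) (upGam (Gamma1pm M) p)) :=
  finite_cosetIdx' M hpM (isStab_upGam M hpM)

/-- The Hecke representatives `δ γᵢ` of the geometric correspondence `C_p` on `±Γ₁(M)`. -/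
abbrev Cp (M p : ℕ) [Fact p.Prime] :
    HeckeReps (Gamma1pm M) (CosetIdx (Gamma1pm M) (upGam (Gamma1pm M) p)) :=
  repsOfCosets (conjData (Gamma1pm M) p)

variable (σ : SL(2, ℤ)) [Fintype (CosetIdx (Gamma1pm M) (upGam (Gamma1pm M) p))]

/-- **CONVENTION**: `C_p χ = T_p (χ ∘ conj_{σ⁻¹})`. -/
theorem dMul_Cp (hpM : ¬ p ∣ M) (hσ : σ ∈ Gamma0 M)
    (hσp : ((σ 1 1 : ℤ) : ZMod M) = (p : ZMod M)) {A : Type*} [CommGroup A]
    (χ : Gamma1pm M →* A) :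
    (Cp M p).dMul χ
      = (heckeRepsTpm M hpM σ hσ hσp).dMul (χ.comp (conjHom σ⁻¹ (hs_inv M σ hσ))) :=
  dMul_repsOfCosets M σ hpM (isStab_upGam M hpM) hσ hσp (conjData (Gamma1pm M) p) rfl χ

theorem dHom_Cp (hpM : ¬ p ∣ M) (hσ : σ ∈ Gamma0 M)
    (hσp : ((σ 1 1 : ℤ) : ZMod M) = (p : ZMod M)) {A : Type*} [AddCommGroup A]
    (φ : Additive (Gamma1pm M) →+ A) :
    (Cp M p).dHom A φ
      = (heckeRepsTpm M hpM σ hσ hσp).dHom A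
          (φ.comp (MonoidHom.toAdditive (conjHom σ⁻¹ (hs_inv M σ hσ)))) :=
  dHom_repsOfCosets M σ hpM (isStab_upGam M hpM) hσ hσp (conjData (Gamma1pm M) p) rfl φ

/-- **CONVENTION, operator form**: `C_p = T_p ∘ ⟨σ⁻¹⟩`. -/
theorem dHom_Cp_eq_comp (hpM : ¬ p ∣ M) (hσ : σ ∈ Gamma0 M)
    (hσp : ((σ 1 1 : ℤ) : ZMod M) = (p : ZMod M)) {A : Type*} [AddCommGroup A]
    (φ : Additive (Gamma1pm M) →+ A) :
    (Cp M p).dHom A φ
      = (heckeRepsTpm M hpM σ hσ hσp).dHom A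
          ((diamondRepsPm M σ⁻¹ ((Gamma0 M).inv_mem hσ)).dHom A φ) :=
  dHom_repsOfCosets_eq_comp M σ hpM (isStab_upGam M hpM) hσ hσp (conjData (Gamma1pm M) p) rfl φ

/-- Conversely `T_p χ = C_p (χ ∘ conj_σ)`. -/
theorem dMul_Tp (hpM : ¬ p ∣ M) (hσ : σ ∈ Gamma0 M)
    (hσp : ((σ 1 1 : ℤ) : ZMod M) = (p : ZMod M)) {A : Type*} [CommGroup A]
    (χ : Gamma1pm M →* A) :
    (heckeRepsTpm M hpM σ hσ hσp).dMul χ
      = (Cp M p).dMul (χ.comp (conjHom σ (hs_pos M σ hσ))) :=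
  dMul_heckeRepsTpm_eq M σ hpM (isStab_upGam M hpM) hσ hσp (conjData (Gamma1pm M) p) rfl χ

/-- The same after restriction to `Γ₁(M)`: `(C_p χ)|Γ₁ = T_p^{helper78} ((χ ∘ conj_{σ⁻¹})|Γ₁)`. -/
theorem dMul_Cp_restrict (hpM : ¬ p ∣ M) (hσ : σ ∈ Gamma0 M)
    (hσp : ((σ 1 1 : ℤ) : ZMod M) = (p : ZMod M)) {A : Type*} [CommGroup A]
    (χ : Gamma1pm M →* A) :
    ((Cp M p).dMul χ).comp (Subgroup.inclusion (Gamma1_le_Gamma1pm M))
      = (heckeRepsT M hpM σ hσ hσp).dMul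
          ((χ.comp (conjHom σ⁻¹ (hs_inv M σ hσ))).comp
            (Subgroup.inclusion (Gamma1_le_Gamma1pm M))) := by
  rw [dMul_Cp M σ hpM hσ hσp χ, dMul_heckeRepsTpm_restrict]

end Fermat.Agent.DS.G.HECKE.ConvUp51
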