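/-
DS programme (S48), chapter G-HECKE, brick H05a (helper99): **the degrees of the two degeneracy
embeddings of a Hecke pair** — the generic twin of `ES/HECKE/DegreeL25` + `AlongDegree25`.

Let `P : HeckePair F₀ F₀' p` (`F₀ ≤ F₀'`, `y(q) ∈ F₀ ⟹ y(q^p) ∈ F₀'`), `Lc` a coefficient field
of characteristic zero, `A = Lc · F₀`, `B = Lc · F₀'` inside `Lc((q))`, `j ∈ F₀`.  If

  `[A : Lc(j)] = n`   and   `[B : Lc(j)] = n * d`        (`n ≠ 0`)

(for a level `L` with group `Γ` and the upper level with group `Γ' ≤ Γ`: `n = [SL₂(ℤ) : Γ]`,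
`d = [Γ : Γ']`, from the generic Degree theorem of chapter G-X0), then for `p` prime

* `finrankAlong_alphaG : finrankAlong Lc (alphaG Lc P) = d`     (`α` = inclusion; tower law),
* `finrankAlong_betaG  : finrankAlong Lc (betaG Lc P) = d`      (`β = (q ↦ q^p)`).

The second uses the PRIME LEVEL input of Program G (`IG/PR/Main20.primeLevel`, generic in the field):
`[Lc(j, j_p) : Lc(j)] = p + 1 = [Lc(j, j_p) : Lc(j_p)]`, `j_p = j(q^p)`; hence
`[B : Lc(j_p)] = [B : Lc(j)]`, while `[β A : Lc(j_p)] = [A : Lc(j)]`.  (No relation between `d` and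
`p + 1` is needed.)

Group form (`Group` section): with `Γ' ≤ Γ` of finite index, `n = Γ.index`, `n * d = Γ'.index`:
`d = Γ'.relIndex Γ = Nat.card (CosetReps.CosetIdx Γ Γ')` — the hypothesis `hcard` of the sigma family
(H05) for the representatives `CosetReps.repsOfCosets`.

`finrank` forms (`Module.finrank Lc⟮jF⟯ (FFc Lc F₀)`, computed inside the function field, as delivered
by the Degree twin) are provided via `SpecialGen25.finrank_adjoin_simple_eq_relfinrank`.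
-/
import Mathlib
import Fermat.Agent.DS.G.HECKE.Iface
import Fermat.Agent.DS.G.HECKE.CosetReps
import Fermat.Agent.ES.HECKE.AlongDegree25
import Fermat.Agent.ES.RED.SpecialGen25

set_option autoImplicit false
set_option linter.unusedSectionVars false

noncomputable section

open HahnSeries ModularCurve IntermediateField AlgebraicCurve
open scoped MatrixGroups

namespace Fermat.Agent.DS.G.HECKE.DegAlong

open Fermat.Agent.IG Fermat.Agent.DS.G.HECKE.Iface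

/-! ### `j` in the base-changed field -/

section J

variable (Lc : Type*) [Field Lc] [Algebra ℚ Lc]

/-- The formal `j` over `Lc` is the coefficientwise image of the rational one. -/
theorem coeffEmb_jq : coeffEmb Lc jq = jqModC Lc := by
  rw [← jqModC_rat]
  exact map_jqModC (algebraMap ℚ Lc)

theorem jqModC_mem_laurentBaseChange {F₀ : IntermediateField ℚ (LaurentSeries ℚ)}
    (hj : jq ∈ F₀) : jqModC Lc ∈ laurentBaseChange Lc F₀ := by
  rw [← coeffEmb_jq]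
  exact coeffEmb_mem_laurentBaseChange Lc hj

theorem simple_le_laurentBaseChange {F₀ : IntermediateField ℚ (LaurentSeries ℚ)}
    (hj : jq ∈ F₀) : Lc⟮jqModC Lc⟯ ≤ laurentBaseChange Lc F₀ := by
  rw [adjoin_simple_le_iff]
  exact jqModC_mem_laurentBaseChange Lc hj

/-- `j` as an element of the function field `Lc · F₀`. -/
def jF {F₀ : IntermediateField ℚ (LaurentSeries ℚ)} (hj : jq ∈ F₀) : FFc Lc F₀ :=
  ⟨jqModC Lc, jqModC_mem_laurentBaseChange Lc hj⟩

@[simp] theorem coe_jF {F₀ : IntermediateField ℚ (LaurentSeries ℚ)} (hj : jq ∈ F₀) :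
    ((jF Lc hj : FFc Lc F₀) : LaurentSeries Lc) = jqModC Lc := rfl

theorem coe_jF' {F₀ : IntermediateField ℚ (LaurentSeries ℚ)} (hj : jq ∈ F₀) :
    ((jF Lc hj : FFc Lc F₀) : LaurentSeries Lc) = coeffEmb Lc jq := (coeffEmb_jq Lc).symm

/-- `[Lc · F₀ : Lc(j)]` computed inside the function field is the `relfinrank` inside `Lc((q))`. -/
theorem finrank_jF {F₀ : IntermediateField ℚ (LaurentSeries ℚ)} (hj : jq ∈ F₀) :
    Module.finrank ↥(Lc⟮jF Lc hj⟯ : IntermediateField Lc (FFc Lc F₀)) (FFc Lc F₀) =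
      relfinrank Lc⟮jqModC Lc⟯ (laurentBaseChange Lc F₀) :=
  Fermat.Agent.ES.RED.SpecialGen25.finrank_adjoin_simple_eq_relfinrank
    (laurentBaseChange Lc F₀) (jF Lc hj)

end J

/-! ### The two degrees as `relfinrank`s -/

section Rel

variable (Lc : Type*) [Field Lc] [Algebra ℚ Lc]
  {F₀ F₀' : IntermediateField ℚ (LaurentSeries ℚ)} {p : ℕ} [NeZero p] (P : HeckePair F₀ F₀' p)

theorem finrankAlong_alphaG_eq :
    finrankAlong Lc (alphaG Lc P) =
      relfinrank (laurentBaseChange Lc F₀) (laurentBaseChange Lc F₀') := by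
  rw [Fermat.Agent.ES.HECKE.AlongDegree25.finrankAlong_eq_relfinrank _ _ (alphaG Lc P)
    (AlgHom.id Lc (LaurentSeries Lc)) (fun a => by rw [coe_alphaG]; rfl), IntermediateField.map_id]

theorem finrankAlong_betaG_eq :
    finrankAlong Lc (betaG Lc P) =
      relfinrank ((laurentBaseChange Lc F₀).map (qExpandAlgHomC Lc p))
        (laurentBaseChange Lc F₀') :=
  Fermat.Agent.ES.HECKE.AlongDegree25.finrankAlong_eq_relfinrank _ _ (betaG Lc P)
    (qExpandAlgHomC Lc p) (fun a => by rw [coe_betaG, qExpandAlgHomC_apply])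

include P in
theorem map_qExpand_le :
    (laurentBaseChange Lc F₀).map (qExpandAlgHomC Lc p) ≤ laurentBaseChange Lc F₀' :=
  Fermat.Agent.ES.HECKE.AlongDegree25.map_le_of_restrict _ _ (betaG Lc P) (qExpandAlgHomC Lc p)
    (fun a => by rw [coe_betaG, qExpandAlgHomC_apply])

end Rel

/-! ### The degrees -/

section Degrees

variable (Lc : Type) [Field Lc] [Algebra ℚ Lc]
  {F₀ F₀' : IntermediateField ℚ (LaurentSeries ℚ)} {p : ℕ} [NeZero p] (P : HeckePair F₀ F₀' p)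

/-- **`[Lc · F₀' : α(Lc · F₀)] = d`** (tower law). -/
theorem finrankAlong_alphaG (hj : jq ∈ F₀) {n d : ℕ} (hn : n ≠ 0)
    (hA : relfinrank Lc⟮jqModC Lc⟯ (laurentBaseChange Lc F₀) = n)
    (hB : relfinrank Lc⟮jqModC Lc⟯ (laurentBaseChange Lc F₀') = n * d) :
    finrankAlong Lc (alphaG Lc P) = d := by
  rw [finrankAlong_alphaG_eq]
  have hmul := relfinrank_mul_relfinrank (simple_le_laurentBaseChange Lc hj)
    (laurentBaseChange_mono Lc P.le)
  rw [hA, hB] at hmul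
  exact Nat.eq_of_mul_eq_mul_left (Nat.pos_of_ne_zero hn) hmul

/-- **`[Lc · F₀' : β(Lc · F₀)] = d`**, `β = (q ↦ q^p)`, `p` prime. -/
theorem finrankAlong_betaG (hp : p.Prime) (hj : jq ∈ F₀) {n d : ℕ} (hn : n ≠ 0)
    (hA : relfinrank Lc⟮jqModC Lc⟯ (laurentBaseChange Lc F₀) = n)
    (hB : relfinrank Lc⟮jqModC Lc⟯ (laurentBaseChange Lc F₀') = n * d) :
    finrankAlong Lc (betaG Lc P) = d := by
  have : CharZero Lc := algebraRat.charZero Lc
  rw [finrankAlong_betaG_eq]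
  have hpκ : (p : Lc) ≠ 0 := Nat.cast_ne_zero.mpr hp.ne_zero
  obtain ⟨⟨-, hleft⟩, ⟨-, hright⟩⟩ := PR.Main20.primeLevel p hp.two_le (AN.ModPoly3.p0 p hp)
    AN.FormalJ10.p1 (AN.P2Final9.p2 p) Lc hpκ
  -- the fields
  have hjA : jqModC Lc ∈ laurentBaseChange Lc F₀ := jqModC_mem_laurentBaseChange Lc hj
  have hjB : jqModC Lc ∈ laurentBaseChange Lc F₀' := jqModC_mem_laurentBaseChange Lc (P.le hj)
  have hle2 : (laurentBaseChange Lc F₀).map (qExpandAlgHomC Lc p) ≤ laurentBaseChange Lc F₀' :=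
    map_qExpand_le Lc P
  have hjp : qExpand Lc p (jqModC Lc) ∈ laurentBaseChange Lc F₀' := by
    apply hle2
    exact ⟨jqModC Lc, hjA, qExpandAlgHomC_apply Lc p _⟩
  have hS : Lc⟮jqModC Lc⟯ ≤ Lc⟮jqModC Lc⟯ ⊔ Lc⟮qExpand Lc p (jqModC Lc)⟯ := le_sup_left
  have hSp : Lc⟮qExpand Lc p (jqModC Lc)⟯ ≤ Lc⟮jqModC Lc⟯ ⊔ Lc⟮qExpand Lc p (jqModC Lc)⟯ :=
    le_sup_right
  have hC : Lc⟮jqModC Lc⟯ ⊔ Lc⟮qExpand Lc p (jqModC Lc)⟯ ≤ laurentBaseChange Lc F₀' :=
    sup_le (adjoin_simple_le_iff.mpr hjB) (adjoin_simple_le_iff.mpr hjp)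
  -- `(p + 1) * [B : Lc(j, j_p)] = n * d`
  have h1 := relfinrank_mul_relfinrank hS hC
  rw [hleft, hB] at h1
  -- `[B : Lc(j_p)] = (p + 1) * [B : Lc(j, j_p)] = n * d`
  have h2 := relfinrank_mul_relfinrank hSp hC
  rw [hright, h1] at h2
  -- `β(Lc(j)) = Lc(j_p) ≤ β(A) ≤ B`, `[β A : Lc(j_p)] = [A : Lc(j)] = n`
  have hmapA : (Lc⟮jqModC Lc⟯).map (qExpandAlgHomC Lc p) = Lc⟮qExpand Lc p (jqModC Lc)⟯ := by
    rw [adjoin_map, Set.image_singleton, qExpandAlgHomC_apply]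
  have hle1 : Lc⟮qExpand Lc p (jqModC Lc)⟯ ≤
      (laurentBaseChange Lc F₀).map (qExpandAlgHomC Lc p) := by
    rw [← hmapA]
    exact IntermediateField.map_mono _ (simple_le_laurentBaseChange Lc hj)
  have h3 : relfinrank Lc⟮qExpand Lc p (jqModC Lc)⟯
      ((laurentBaseChange Lc F₀).map (qExpandAlgHomC Lc p)) = n := by
    rw [← hmapA, relfinrank_map_map, hA]
  have h4 := relfinrank_mul_relfinrank hle1 hle2
  rw [h3, ← h2] at h4
  exact Nat.eq_of_mul_eq_mul_left (Nat.pos_of_ne_zero hn) h4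

/-- `finrank` form of `finrankAlong_alphaG` (degrees computed inside the function fields). -/
theorem finrankAlong_alphaG' (hj : jq ∈ F₀) {n d : ℕ} (hn : n ≠ 0)
    (hA : Module.finrank ↥(Lc⟮jF Lc hj⟯ : IntermediateField Lc (FFc Lc F₀)) (FFc Lc F₀) = n)
    (hB : Module.finrank ↥(Lc⟮jF Lc (P.le hj)⟯ : IntermediateField Lc (FFc Lc F₀'))
      (FFc Lc F₀') = n * d) :
    finrankAlong Lc (alphaG Lc P) = d :=
  finrankAlong_alphaG Lc P hj hn ((finrank_jF Lc hj).symm.trans hA)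
    ((finrank_jF Lc (P.le hj)).symm.trans hB)

/-- `finrank` form of `finrankAlong_betaG`. -/
theorem finrankAlong_betaG' (hp : p.Prime) (hj : jq ∈ F₀) {n d : ℕ} (hn : n ≠ 0)
    (hA : Module.finrank ↥(Lc⟮jF Lc hj⟯ : IntermediateField Lc (FFc Lc F₀)) (FFc Lc F₀) = n)
    (hB : Module.finrank ↥(Lc⟮jF Lc (P.le hj)⟯ : IntermediateField Lc (FFc Lc F₀'))
      (FFc Lc F₀') = n * d) :
    finrankAlong Lc (betaG Lc P) = d :=
  finrankAlong_betaG Lc P hp hj hn ((finrank_jF Lc hj).symm.trans hA)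
    ((finrank_jF Lc (P.le hj)).symm.trans hB)

end Degrees

/-! ### Group form: `d = [Γ : Γ']` -/

section Group

variable (Lc : Type) [Field Lc] [Algebra ℚ Lc]
  {F₀ F₀' : IntermediateField ℚ (LaurentSeries ℚ)} {p : ℕ} [NeZero p] (P : HeckePair F₀ F₀' p)
  (Γ Γ' : Subgroup SL(2, ℤ))

/-- **`[Lc · F₀' : α(Lc · F₀)] = [Γ : Γ']`** when `[Lc · F₀ : Lc(j)] = [SL₂(ℤ) : Γ]` and
`[Lc · F₀' : Lc(j)] = [SL₂(ℤ) : Γ']`. -/
theorem finrankAlong_alphaG_eq_relIndex (hle : Γ' ≤ Γ) (hΓ : Γ.index ≠ 0) (hj : jq ∈ F₀)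
    (hA : relfinrank Lc⟮jqModC Lc⟯ (laurentBaseChange Lc F₀) = Γ.index)
    (hB : relfinrank Lc⟮jqModC Lc⟯ (laurentBaseChange Lc F₀') = Γ'.index) :
    finrankAlong Lc (alphaG Lc P) = Γ'.relIndex Γ := by
  refine finrankAlong_alphaG Lc P hj hΓ hA ?_
  rw [hB, mul_comm, Subgroup.relIndex_mul_index hle]

/-- **`[Lc · F₀' : β(Lc · F₀)] = [Γ : Γ']`**. -/
theorem finrankAlong_betaG_eq_relIndex (hp : p.Prime) (hle : Γ' ≤ Γ) (hΓ : Γ.index ≠ 0)
    (hj : jq ∈ F₀)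
    (hA : relfinrank Lc⟮jqModC Lc⟯ (laurentBaseChange Lc F₀) = Γ.index)
    (hB : relfinrank Lc⟮jqModC Lc⟯ (laurentBaseChange Lc F₀') = Γ'.index) :
    finrankAlong Lc (betaG Lc P) = Γ'.relIndex Γ := by
  refine finrankAlong_betaG Lc P hp hj hΓ hA ?_
  rw [hB, mul_comm, Subgroup.relIndex_mul_index hle]

/-- The hypothesis `hcard` of the sigma family for the coset representatives:
`Nat.card (CosetIdx Γ Γ') = finrankAlong α`. -/
theorem card_cosetIdx_eq_finrankAlong_alphaG (hle : Γ' ≤ Γ) (hΓ : Γ.index ≠ 0) (hj : jq ∈ F₀)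
    (hA : relfinrank Lc⟮jqModC Lc⟯ (laurentBaseChange Lc F₀) = Γ.index)
    (hB : relfinrank Lc⟮jqModC Lc⟯ (laurentBaseChange Lc F₀') = Γ'.index) :
    Nat.card (CosetReps.CosetIdx Γ Γ') = finrankAlong Lc (alphaG Lc P) := by
  rw [CosetReps.card_cosetIdx, finrankAlong_alphaG_eq_relIndex Lc P Γ Γ' hle hΓ hj hA hB]

/-- `finrank` form (degrees computed inside the function fields, `Nat.card` of the coset spaces). -/
theorem card_cosetIdx_eq_finrankAlong_alphaG' (hle : Γ' ≤ Γ) [Γ.FiniteIndex] (hj : jq ∈ F₀)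
    (hA : Nat.card (SL(2, ℤ) ⧸ Γ) =
      Module.finrank ↥(Lc⟮jF Lc hj⟯ : IntermediateField Lc (FFc Lc F₀)) (FFc Lc F₀))
    (hB : Nat.card (SL(2, ℤ) ⧸ Γ') =
      Module.finrank ↥(Lc⟮jF Lc (P.le hj)⟯ : IntermediateField Lc (FFc Lc F₀')) (FFc Lc F₀')) :
    Nat.card (CosetReps.CosetIdx Γ Γ') = finrankAlong Lc (alphaG Lc P) :=
  card_cosetIdx_eq_finrankAlong_alphaG Lc P Γ Γ' hle Subgroup.FiniteIndex.index_ne_zero hj
    ((finrank_jF Lc hj).symm.trans hA.symm) ((finrank_jF Lc (P.le hj)).symm.trans hB.symm)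

/-- `finrank` form for `β`. -/
theorem finrankAlong_betaG_eq_relIndex' (hp : p.Prime) (hle : Γ' ≤ Γ) [Γ.FiniteIndex]
    (hj : jq ∈ F₀)
    (hA : Nat.card (SL(2, ℤ) ⧸ Γ) =
      Module.finrank ↥(Lc⟮jF Lc hj⟯ : IntermediateField Lc (FFc Lc F₀)) (FFc Lc F₀))
    (hB : Nat.card (SL(2, ℤ) ⧸ Γ') =
      Module.finrank ↥(Lc⟮jF Lc (P.le hj)⟯ : IntermediateField Lc (FFc Lc F₀')) (FFc Lc F₀')) :
    finrankAlong Lc (betaG Lc P) = Γ'.relIndex Γ :=
  finrankAlong_betaG_eq_relIndex Lc P Γ Γ' hp hle Subgroup.FiniteIndex.index_ne_zero hj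
    ((finrank_jF Lc hj).symm.trans hA.symm) ((finrank_jF Lc (P.le hj)).symm.trans hB.symm)

end Group

end Fermat.Agent.DS.G.HECKE.DegAlong
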