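/-
Programme DS (S48), chapter G-HECKE / DIAPLACE (helper34): **the diamond automorphism of
`σ ∈ Γ₀(M)` on the function field of `X₁(M)/±` fixes the function field of `X₀(M)`, and commutes
with the arithmetic Galois action** — the two instance facts (H1), (H2) of the reduction of the
diamond operators (`DS/G/ES/RED/DiaPlaceInst.lean`).

For `σ ∈ Γ₀(M)`, `δ := Diamond.dia (A1 M) σ (acts1 M hσ) : FFK (L1 M).F₀ ≃ₐ[ℚbar] FFK (L1 M).F₀`:

* `dia_genc_jGenD`   : `δ` fixes the generator `j(q^d)`, `d ∣ M`;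
* `dia_eq_self_of_mem_full` (H1) : `δ f = f` for every `f` whose underlying Laurent series lies in
  `modularFunctionFieldBar M = laurentBaseChange ℚbar (modularFunctionFieldFull M)`;
* `dia_eq_self_of_coe_eq` : the same for `f` with a given underlying series `t`;
* `dia_eq_self_of_coe_eq_tq` : the case `t = tq ℚbar n e` of the formal Hauptmodul
  (the hypothesis is `Interface12.TMem n e M`, by definition);
* `dia_arithmeticGalois_smul` (H2) : `δ (τ • f) = τ • δ f` for the arithmetic Galois action,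
  unconditionally;
* `dia_symm_eq_self_of_mem_full`, `dia_symm_arithmeticGalois_smul` : the same for `δ⁻¹`.
-/
import Fermat.Agent.DS.G.HECKE.Top
import Fermat.Agent.RED.BASE.EtaQuot12

set_option autoImplicit false
set_option linter.unusedSectionVars false

open UpperHalfPlane hiding I
open scoped MatrixGroups
open CongruenceSubgroup ModularCurve

noncomputable section

namespace Fermat.Agent.DS.G.HECKE.DiaFixX0

open Fermat.Agent.X0 Fermat.Agent.X0.Analytic Fermat.Agent.ES.KUM
open Fermat.Agent.DS.G.Level Fermat.Agent.DS.X1.Level1 Fermat.Agent.DS.X1.Inst13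
open Fermat.Agent.DS.X1.Diamond13
open Fermat.Agent.DS.G.HECKE.Iface
open Fermat.Agent.DS.G.HECKE.Diamond Fermat.Agent.DS.G.HECKE.DiamondGal
open Fermat.Agent.DS.G.HECKE.ModelGens Fermat.Agent.DS.G.HECKE.Top

variable (M : ℕ) [NeZero M] {σ : SL(2, ℤ)} (hσ : σ ∈ Gamma0 M)

/-! ### (H2) commutation with the arithmetic Galois action -/

/-- **(H2)** the diamond automorphism of `σ ∈ Γ₀(M)` commutes with the arithmetic Galois action,
unconditionally. -/
theorem dia_arithmeticGalois_smul (τ : Kbar ≃ₐ[ℚ] Kbar) (f : FFK (L1 M).F₀) :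
    dia (A1 M) σ (acts1 M hσ) (arithmeticGalois (L1 M).F₀ τ • f) =
      arithmeticGalois (L1 M).F₀ τ • dia (A1 M) σ (acts1 M hσ) f :=
  arithmeticGalois_smul_dia (A1 M) (acts1 M hσ) (preservesRat1 M hσ) τ f

/-- The inverse of the diamond automorphism commutes with the arithmetic Galois action. -/
theorem dia_symm_arithmeticGalois_smul (τ : Kbar ≃ₐ[ℚ] Kbar) (f : FFK (L1 M).F₀) :
    (dia (A1 M) σ (acts1 M hσ)).symm (arithmeticGalois (L1 M).F₀ τ • f) =
      arithmeticGalois (L1 M).F₀ τ • (dia (A1 M) σ (acts1 M hσ)).symm f := by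
  apply (dia (A1 M) σ (acts1 M hσ)).injective
  rw [AlgEquiv.apply_symm_apply, dia_arithmeticGalois_smul M hσ, AlgEquiv.apply_symm_apply]

/-! ### (H1) the function field of `X₀(M)` is fixed -/

/-- The diamond automorphism of `σ ∈ Γ₀(M)` fixes the generator `j(q^d)`, `d ∣ M`. -/
theorem dia_genc_jGenD {d : ℕ} [NeZero d] (h : d ∣ M) :
    dia (A1 M) σ (acts1 M hσ) (genc (L1 M) Kbar (jGenD M h)) = genc (L1 M) Kbar (jGenD M h) := by
  refine dia_genc (analyticGensC M) (acts1 M hσ) ?_
  rw [gFun_eq_of_analyticGens M (analyticGensC M)]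
  exact compSL_gFun_jGenD M hσ h

/-- The generators `j(q^d)`, `d ∣ M`, inside the function field of `L1 M` over `ℚbar`. -/
def jSet : Set (FFK (L1 M).F₀) :=
  {x | ∃ (d : ℕ) (_ : NeZero d) (h : d ∣ M), x = genc (L1 M) Kbar (jGenD M h)}

/-- The diamond automorphism fixes the subfield generated by the `j(q^d)`, `d ∣ M`. -/
theorem dia_eq_self_of_mem_adjoin {f : FFK (L1 M).F₀}
    (hf : f ∈ IntermediateField.adjoin Kbar (jSet M)) : dia (A1 M) σ (acts1 M hσ) f = f := by
  induction hf using IntermediateField.adjoin_induction with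
  | mem x hx =>
      obtain ⟨d, _, h, rfl⟩ := hx
      exact dia_genc_jGenD M hσ h
  | algebraMap c => exact (dia (A1 M) σ (acts1 M hσ)).commutes c
  | add x y _ _ ihx ihy => rw [map_add, ihx, ihy]
  | inv x _ ihx => rw [map_inv₀, ihx]
  | mul x y _ _ ihx ihy => rw [map_mul, ihx, ihy]

/-- The image of `jSet M` in `ℚbar((q))` is the image of the divisor expansions. -/
theorem val_image_jSet :
    (laurentBaseChange Kbar (L1 M).F₀).val '' jSet M = ⇑(coeffEmb Kbar) '' divisorExpansions M := by
  ext x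
  constructor
  · rintro ⟨_, ⟨d, hne, h, rfl⟩, rfl⟩
    exact ⟨qExpand ℚ d jq, ⟨d, hne, h, rfl⟩, rfl⟩
  · rintro ⟨_, ⟨d, hne, h, rfl⟩, rfl⟩
    exact ⟨genc (L1 M) Kbar (jGenD M h), ⟨d, hne, h, rfl⟩, rfl⟩

/-- `ℚbar · ℚ(j(q^d) : d ∣ M) ≤ ℚbar(j(q^d) : d ∣ M)`. -/
theorem modularFunctionFieldBar_le :
    modularFunctionFieldBar M ≤
      IntermediateField.adjoin Kbar (⇑(coeffEmb Kbar) '' divisorExpansions M) := by
  rw [modularFunctionFieldBar, laurentBaseChange, IntermediateField.adjoin_le_iff]
  rintro _ ⟨y, hy, rfl⟩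
  have hy' : y ∈ IntermediateField.adjoin ℚ (divisorExpansions M) := hy
  clear hy
  induction hy' using IntermediateField.adjoin_induction with
  | mem y hy => exact IntermediateField.subset_adjoin Kbar _ ⟨y, hy, rfl⟩
  | algebraMap r =>
      have : coeffEmb Kbar (algebraMap ℚ (LaurentSeries ℚ) r) =
          algebraMap Kbar (LaurentSeries Kbar) (algebraMap ℚ Kbar r) := by
        rw [algebraMap_laurentSeries_eq_single, algebraMap_laurentSeries_eq_single, coeffEmb,
          coeffMap_single]
      rw [this]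
      exact IntermediateField.algebraMap_mem _ _
  | add y z _ _ ihy ihz =>
      rw [map_add]
      exact add_mem ihy ihz
  | inv y _ ihy =>
      rw [map_inv₀]
      exact inv_mem ihy
  | mul y z _ _ ihy ihz =>
      rw [map_mul]
      exact mul_mem ihy ihz

/-- **(H1)** the diamond automorphism of `σ ∈ Γ₀(M)` fixes every element of the function field of
`L1 M` whose underlying Laurent series lies in the function field of `X₀(M)` over `ℚbar`. -/
theorem dia_eq_self_of_mem_full (f : FFK (L1 M).F₀)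
    (hf : (f : LaurentSeries Kbar) ∈ modularFunctionFieldBar M) :
    dia (A1 M) σ (acts1 M hσ) f = f := by
  apply dia_eq_self_of_mem_adjoin M hσ
  have h1 := modularFunctionFieldBar_le M hf
  rw [← val_image_jSet, ← IntermediateField.adjoin_map] at h1
  obtain ⟨y, hy, hyf⟩ := h1
  have : y = f := Subtype.ext hyf
  rwa [← this]

/-- The same for an element with a given underlying series. -/
theorem dia_eq_self_of_coe_eq {t : LaurentSeries Kbar} (ht : t ∈ modularFunctionFieldBar M)
    (f : FFK (L1 M).F₀) (hf : (f : LaurentSeries Kbar) = t) :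
    dia (A1 M) σ (acts1 M hσ) f = f :=
  dia_eq_self_of_mem_full M hσ f (hf ▸ ht)

/-- **(H1) for the formal Hauptmodul** `t = tq ℚbar n e` (`(n, e) = (4, 8)` or `(9, 3)`, `n ∣ M`):
the hypothesis is `Interface12.TMem n e M` (by definition), i.e. `(baseExports_four M hM).mem` or
`(baseExports_nine M hM).mem` of `RED/BASE/Main12`. -/
theorem dia_eq_self_of_coe_eq_tq {n e : ℕ} [NeZero n]
    (ht : Fermat.Agent.RED.BASE.EtaQuot12.tq Kbar n e ∈ modularFunctionFieldBar M)
    (f : FFK (L1 M).F₀)
    (hf : (f : LaurentSeries Kbar) = Fermat.Agent.RED.BASE.EtaQuot12.tq Kbar n e) :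
    dia (A1 M) σ (acts1 M hσ) f = f :=
  dia_eq_self_of_coe_eq M hσ ht f hf

/-- The inverse of the diamond automorphism fixes the function field of `X₀(M)` too. -/
theorem dia_symm_eq_self_of_mem_full (f : FFK (L1 M).F₀)
    (hf : (f : LaurentSeries Kbar) ∈ modularFunctionFieldBar M) :
    (dia (A1 M) σ (acts1 M hσ)).symm f = f := by
  rw [AlgEquiv.symm_apply_eq, dia_eq_self_of_mem_full M hσ f hf]

end Fermat.Agent.DS.G.HECKE.DiaFixX0
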