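/-
DS programme (S48), chapter G-HECKE, brick H04b / H08-prep (helper99): **the transfer operator of a
family of Hecke representatives only depends on the left cosets `Γ α i`.**

Pure group theory (Mathlib + `DS/Per1/HeckeReps`, `RepsGamma1.conjReps`, `CosetReps`).

* `DistinctCosets H` : the `H.α i` lie in pairwise distinct left cosets `Γ α i`;
  `distinctCosets_repsOfCosets` : this holds for `CosetReps.repsOfCosets C` as soon as
  `Γ' = Γ ∩ δ⁻¹ Γ δ` (hypothesis `hfull`);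
* `perm_coc_of_translate` : if `H.α i = c i * H'.α (e i)` with `c i ∈ Γ` and `H'` has distinct cosets,
  then `H'.perm γ (e i) = e (H.perm γ i)` and `H'.coc γ (e i) = (c i)⁻¹ * H.coc γ i * c (H.perm γ i)`;
* **`dHom_eq_of_translate`**, `dMul_eq_of_translate` : for a bijection `e`, `H'.dHom = H.dHom`
  (the `c i` cancel in the sum over the `perm γ`-orbits);
* `leftTranslate H s hs` (`s ∈ SL(2, ℤ)` normalising `Γ`): the family `s * α i`, with
  `coc' γ i = s * coc γ i * s⁻¹`; **`dHom_leftTranslate`** :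
  `(leftTranslate H s hs).dHom φ = H.dHom ((conjReps Γ s hs).dHom φ)` (`= H.dHom (φ ∘ conj_s)`);
* `rightTranslate H s hs` : the family `α i * s`, with `perm' γ = perm (s γ s⁻¹)`,
  `coc' γ i = coc (s γ s⁻¹) i`; **`dHom_rightTranslate`** :
  `(rightTranslate H s hs).dHom φ = (conjReps Γ s hs).dHom (H.dHom φ)`;
  consequently (`dHom_conj_comm_of_translate`) a family which is stable under conjugation by `s` up to
  left `Γ`-translation and reindexing has a transfer operator commuting with the one of `conjReps`.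

Use (H08, convention): `C_p` (representatives `diag(p,1) γᵢ`) versus `T_p` (helper78's `heckeRepsT`,
representatives `[1 j; 0 p]`, `σ_p diag(p,1)`): `σ_p * diag(p,1) * γᵢ = cᵢ * αᵀ (e i)`, whence
`dHom (T_p) = dHom (leftTranslate C_p σ_p) = dHom (C_p) ∘ dHom (conj σ_p)`.
-/
import Mathlib
import Fermat.Agent.DS.G.HECKE.CosetReps
import Fermat.Agent.DS.Per1.RepsGamma1

set_option autoImplicit false
set_option linter.dupNamespace false
set_option linter.unusedSectionVars false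

open Matrix
open scoped MatrixGroups

noncomputable section

namespace Fermat.Agent.DS.G.HECKE.RepsReindex

open Fermat.Agent.DS.Per1.HeckeReps Fermat.Agent.DS.Per1.RepsGamma1
  Fermat.Agent.DS.G.HECKE.CosetReps

/-- Abbreviation for the embedding `SL(2, ℤ) → GL(2, ℝ)`. -/
local notation "ι" => Matrix.SpecialLinearGroup.mapGL (n := Fin 2) (R := ℤ) ℝ

variable {Γ : Subgroup SL(2, ℤ)} {I I' : Type*}

/-! ### Distinct cosets -/

/-- The `α i` lie in pairwise distinct left cosets `Γ α i`. -/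
def DistinctCosets (H : HeckeReps Γ I) : Prop :=
  ∀ (i j : I) (η : Γ), H.α i = ι ((η : Γ) : SL(2, ℤ)) * H.α j → i = j

/-- The coset representatives `δ γᵢ` lie in distinct left `Γ`-cosets when `Γ' = Γ ∩ δ⁻¹ Γ δ`. -/
theorem distinctCosets_repsOfCosets {Γ' : Subgroup SL(2, ℤ)} (C : ConjData Γ Γ')
    (hfull : ∀ γ : Γ, (∃ η : Γ, C.δ * ι ((γ : Γ) : SL(2, ℤ)) = ι ((η : Γ) : SL(2, ℤ)) * C.δ) →
      ((γ : Γ) : SL(2, ℤ)) ∈ Γ') :
    DistinctCosets (repsOfCosets C) := by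
  intro i j η h
  rw [repsOfCosets_α, repsOfCosets_α] at h
  have h1 : C.δ * ι (((rep Γ Γ' i * (rep Γ Γ' j)⁻¹ : Γ)) : SL(2, ℤ)) =
      ι ((η : Γ) : SL(2, ℤ)) * C.δ := by
    rw [Subgroup.coe_mul, map_mul, ← mul_assoc, h, Subgroup.coe_inv, map_inv, mul_assoc, mul_assoc,
      mul_inv_cancel, mul_one]
  have h2 := hfull _ ⟨η, h1⟩
  have h3 : (((xrep Γ Γ' i : Γ)) : CosetIdx Γ Γ') = ((xrep Γ Γ' j : Γ) : CosetIdx Γ Γ') := by
    rw [QuotientGroup.eq, Subgroup.mem_subgroupOf]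
    have h4 : rep Γ Γ' i * (rep Γ Γ' j)⁻¹ = (xrep Γ Γ' i)⁻¹ * xrep Γ Γ' j := by
      rw [rep, rep, inv_inv]
    rw [← h4]
    exact h2
  rw [mk_xrep, mk_xrep] at h3
  exact h3

/-! ### Uniqueness of `perm` and `coc` up to translation -/

/-- If `H.α i = c i * H'.α (e i)` with `c i ∈ Γ` and the `H'.α` lie in distinct cosets, then `perm` and
`coc` of `H'` are those of `H`, transported and twisted by `c`. -/
theorem perm_coc_of_translate (H : HeckeReps Γ I) (H' : HeckeReps Γ I') (e : I → I') (c : I → Γ)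
    (hα : ∀ i, H.α i = ι ((c i : Γ) : SL(2, ℤ)) * H'.α (e i)) (hd : DistinctCosets H')
    (γ : Γ) (i : I) :
    H'.perm γ (e i) = e (H.perm γ i) ∧
      H'.coc γ (e i) = (c i)⁻¹ * H.coc γ i * c (H.perm γ i) := by
  have h1 := H.rel γ i
  rw [hα i, hα (H.perm γ i), mul_assoc, H'.rel γ (e i)] at h1
  -- `c i * coc' * α' (perm' (e i)) = coc * c_perm * α' (e perm)`
  set η : Γ := (c i * H'.coc γ (e i))⁻¹ * (H.coc γ i * c (H.perm γ i)) with hη
  have h2 : H'.α (H'.perm γ (e i)) = ι ((η : Γ) : SL(2, ℤ)) * H'.α (e (H.perm γ i)) := by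
    have hι : ι ((η : Γ) : SL(2, ℤ)) =
        (ι ((c i : Γ) : SL(2, ℤ)) * ι ((H'.coc γ (e i) : Γ) : SL(2, ℤ)))⁻¹ *
          (ι ((H.coc γ i : Γ) : SL(2, ℤ)) * ι ((c (H.perm γ i) : Γ) : SL(2, ℤ))) := by
      rw [hη, Subgroup.coe_mul, Subgroup.coe_inv, Subgroup.coe_mul, Subgroup.coe_mul, map_mul,
        map_inv, map_mul, map_mul]
    rw [hι, mul_assoc, mul_assoc (ι ((H.coc γ i : Γ) : SL(2, ℤ))), ← h1,
      ← mul_assoc (ι ((c i : Γ) : SL(2, ℤ))), inv_mul_cancel_left]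
  have hperm := hd _ _ η h2
  refine ⟨hperm, ?_⟩
  rw [hperm] at h1
  have h3 : ι (((c i * H'.coc γ (e i) : Γ)) : SL(2, ℤ)) =
      ι (((H.coc γ i * c (H.perm γ i) : Γ)) : SL(2, ℤ)) := by
    rw [Subgroup.coe_mul, Subgroup.coe_mul, map_mul, map_mul]
    rw [← mul_assoc, ← mul_assoc] at h1
    exact mul_right_cancel h1
  have h4 : c i * H'.coc γ (e i) = H.coc γ i * c (H.perm γ i) :=
    Subtype.ext (CosetReps.mapGL_injective h3)
  rw [mul_assoc, ← h4, inv_mul_cancel_left]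

section Operator

variable [Fintype I] [Fintype I']

/-- **Reindexing lemma**: the transfer operator only depends on the left cosets `Γ α i`. -/
theorem dHom_eq_of_translate (H : HeckeReps Γ I) (H' : HeckeReps Γ I') (e : I ≃ I') (c : I → Γ)
    (hα : ∀ i, H.α i = ι ((c i : Γ) : SL(2, ℤ)) * H'.α (e i)) (hd : DistinctCosets H')
    {A : Type*} [AddCommGroup A] (φ : Additive Γ →+ A) : H'.dHom A φ = H.dHom A φ := by
  refine AddMonoidHom.ext fun γ => ?_
  obtain ⟨γ, rfl⟩ := Additive.ofMul.surjective γ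
  rw [HeckeReps.dHom_apply, HeckeReps.dHom_apply, ← Equiv.sum_comp e]
  have h1 : ∀ i : I, φ (Additive.ofMul (H'.coc γ (e i))) =
      φ (Additive.ofMul (H.coc γ i)) +
        (φ (Additive.ofMul (c (H.perm γ i))) - φ (Additive.ofMul (c i))) := by
    intro i
    rw [(perm_coc_of_translate H H' e c hα hd γ i).2, ofMul_mul, ofMul_mul, ofMul_inv, map_add,
      map_add, map_neg]
    abel
  simp only [h1, Finset.sum_add_distrib, Finset.sum_sub_distrib]
  rw [Equiv.sum_comp (H.perm γ) (fun i => φ (Additive.ofMul (c i))), sub_self, add_zero]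

/-- Multiplicative form of the reindexing lemma. -/
theorem dMul_eq_of_translate (H : HeckeReps Γ I) (H' : HeckeReps Γ I') (e : I ≃ I') (c : I → Γ)
    (hα : ∀ i, H.α i = ι ((c i : Γ) : SL(2, ℤ)) * H'.α (e i)) (hd : DistinctCosets H')
    {M : Type*} [CommGroup M] (χ : Γ →* M) : H'.dMul χ = H.dMul χ := by
  ext γ
  rw [HeckeReps.dMul_eq_toMul_dHom, HeckeReps.dMul_eq_toMul_dHom,
    dHom_eq_of_translate H H' e c hα hd]

end Operator

/-! ### Left translation by an element normalising `Γ` -/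

/-- The family `s * α i`, for `s ∈ SL(2, ℤ)` normalising `Γ`. -/
def leftTranslate (H : HeckeReps Γ I) (s : SL(2, ℤ)) (hs : ∀ γ ∈ Γ, s * γ * s⁻¹ ∈ Γ) :
    HeckeReps Γ I where
  α i := ι s * H.α i
  perm := H.perm
  coc γ i := ⟨s * ((H.coc γ i : Γ) : SL(2, ℤ)) * s⁻¹, hs _ (H.coc γ i).2⟩
  rel γ i := by
    rw [mul_assoc, H.rel, ← mul_assoc, ← mul_assoc, ← map_mul, ← map_mul, inv_mul_cancel_right]
  perm_mul := H.perm_mul
  coc_mul γ δ i := by
    apply Subtype.ext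
    rw [Subgroup.coe_mul]
    show s * ((H.coc (γ * δ) i : Γ) : SL(2, ℤ)) * s⁻¹ =
      s * ((H.coc γ i : Γ) : SL(2, ℤ)) * s⁻¹ * (s * ((H.coc δ (H.perm γ i) : Γ) : SL(2, ℤ)) * s⁻¹)
    rw [H.coc_mul, Subgroup.coe_mul]
    group

@[simp] theorem leftTranslate_α (H : HeckeReps Γ I) (s : SL(2, ℤ))
    (hs : ∀ γ ∈ Γ, s * γ * s⁻¹ ∈ Γ) (i : I) : (leftTranslate H s hs).α i = ι s * H.α i := rfl

@[simp] theorem leftTranslate_perm (H : HeckeReps Γ I) (s : SL(2, ℤ))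
    (hs : ∀ γ ∈ Γ, s * γ * s⁻¹ ∈ Γ) : (leftTranslate H s hs).perm = H.perm := rfl

theorem coe_leftTranslate_coc (H : HeckeReps Γ I) (s : SL(2, ℤ))
    (hs : ∀ γ ∈ Γ, s * γ * s⁻¹ ∈ Γ) (γ : Γ) (i : I) :
    (((leftTranslate H s hs).coc γ i : Γ) : SL(2, ℤ)) =
      s * ((H.coc γ i : Γ) : SL(2, ℤ)) * s⁻¹ := rfl

/-- **Left translation by `s` precomposes the transfer operator with conjugation by `s`.** -/
theorem dHom_leftTranslate [Fintype I] (H : HeckeReps Γ I) (s : SL(2, ℤ))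
    (hs : ∀ γ ∈ Γ, s * γ * s⁻¹ ∈ Γ) {A : Type*} [AddCommGroup A] (φ : Additive Γ →+ A) :
    (leftTranslate H s hs).dHom A φ = H.dHom A ((conjReps Γ s hs).dHom A φ) := by
  refine AddMonoidHom.ext fun γ => ?_
  obtain ⟨γ, rfl⟩ := Additive.ofMul.surjective γ
  rw [HeckeReps.dHom_apply, HeckeReps.dHom_apply]
  refine Finset.sum_congr rfl fun i _ => ?_
  rw [conjReps_dHom_apply]
  rfl

theorem dHom_leftTranslate_apply [Fintype I] (H : HeckeReps Γ I) (s : SL(2, ℤ))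
    (hs : ∀ γ ∈ Γ, s * γ * s⁻¹ ∈ Γ) {A : Type*} [AddCommGroup A] (φ : Additive Γ →+ A) (γ : Γ) :
    (leftTranslate H s hs).dHom A φ (Additive.ofMul γ) =
      ∑ i : I, φ (Additive.ofMul
        (⟨s * ((H.coc γ i : Γ) : SL(2, ℤ)) * s⁻¹, hs _ (H.coc γ i).2⟩ : Γ)) := rfl

/-! ### Right translation by an element normalising `Γ` -/

/-- Conjugation by `s` as a map `Γ → Γ`. -/
def conjElt (s : SL(2, ℤ)) (hs : ∀ γ ∈ Γ, s * γ * s⁻¹ ∈ Γ) (γ : Γ) : Γ :=
  ⟨s * (γ : SL(2, ℤ)) * s⁻¹, hs _ γ.2⟩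

theorem conjElt_mul (s : SL(2, ℤ)) (hs : ∀ γ ∈ Γ, s * γ * s⁻¹ ∈ Γ) (γ δ : Γ) :
    conjElt s hs (γ * δ) = conjElt s hs γ * conjElt s hs δ := by
  apply Subtype.ext
  rw [Subgroup.coe_mul]
  show s * ((γ * δ : Γ) : SL(2, ℤ)) * s⁻¹ = s * (γ : SL(2, ℤ)) * s⁻¹ * (s * (δ : SL(2, ℤ)) * s⁻¹)
  rw [Subgroup.coe_mul]
  group

/-- The family `α i * s`, for `s ∈ SL(2, ℤ)` normalising `Γ`. -/
def rightTranslate (H : HeckeReps Γ I) (s : SL(2, ℤ)) (hs : ∀ γ ∈ Γ, s * γ * s⁻¹ ∈ Γ) :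
    HeckeReps Γ I where
  α i := H.α i * ι s
  perm γ := H.perm (conjElt s hs γ)
  coc γ i := H.coc (conjElt s hs γ) i
  rel γ i := by
    have h1 : ι s * ι ((γ : Γ) : SL(2, ℤ)) = ι ((conjElt s hs γ : Γ) : SL(2, ℤ)) * ι s := by
      rw [← map_mul, ← map_mul]
      congr 1
      show s * (γ : SL(2, ℤ)) = s * (γ : SL(2, ℤ)) * s⁻¹ * s
      rw [inv_mul_cancel_right]
    rw [mul_assoc, h1, ← mul_assoc, H.rel, mul_assoc]
  perm_mul γ δ i := by rw [conjElt_mul, H.perm_mul]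
  coc_mul γ δ i := by rw [conjElt_mul, H.coc_mul]

@[simp] theorem rightTranslate_α (H : HeckeReps Γ I) (s : SL(2, ℤ))
    (hs : ∀ γ ∈ Γ, s * γ * s⁻¹ ∈ Γ) (i : I) : (rightTranslate H s hs).α i = H.α i * ι s := rfl

/-- **Right translation by `s` postcomposes the transfer operator with conjugation by `s`.** -/
theorem dHom_rightTranslate [Fintype I] (H : HeckeReps Γ I) (s : SL(2, ℤ))
    (hs : ∀ γ ∈ Γ, s * γ * s⁻¹ ∈ Γ) {A : Type*} [AddCommGroup A] (φ : Additive Γ →+ A) :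
    (rightTranslate H s hs).dHom A φ = (conjReps Γ s hs).dHom A (H.dHom A φ) := by
  refine AddMonoidHom.ext fun γ => ?_
  obtain ⟨γ, rfl⟩ := Additive.ofMul.surjective γ
  rw [conjReps_dHom_apply, HeckeReps.dHom_apply, HeckeReps.dHom_apply]
  rfl

/-! ### Multiplicative forms -/

theorem conjReps_dMul_apply (s : SL(2, ℤ)) (hs : ∀ γ ∈ Γ, s * γ * s⁻¹ ∈ Γ) {M : Type*}
    [CommGroup M] (χ : Γ →* M) (γ : Γ) :
    (conjReps Γ s hs).dMul χ γ = χ (conjElt s hs γ) := by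
  rw [HeckeReps.dMul_apply, Fintype.prod_unique]
  rfl

theorem dMul_leftTranslate [Fintype I] (H : HeckeReps Γ I) (s : SL(2, ℤ))
    (hs : ∀ γ ∈ Γ, s * γ * s⁻¹ ∈ Γ) {M : Type*} [CommGroup M] (χ : Γ →* M) :
    (leftTranslate H s hs).dMul χ = H.dMul ((conjReps Γ s hs).dMul χ) := by
  refine MonoidHom.ext fun γ => ?_
  rw [HeckeReps.dMul_apply, HeckeReps.dMul_apply]
  refine Finset.prod_congr rfl fun i _ => ?_
  rw [conjReps_dMul_apply]
  rfl

theorem dMul_rightTranslate [Fintype I] (H : HeckeReps Γ I) (s : SL(2, ℤ))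
    (hs : ∀ γ ∈ Γ, s * γ * s⁻¹ ∈ Γ) {M : Type*} [CommGroup M] (χ : Γ →* M) :
    (rightTranslate H s hs).dMul χ = (conjReps Γ s hs).dMul (H.dMul χ) := by
  refine MonoidHom.ext fun γ => ?_
  rw [conjReps_dMul_apply, HeckeReps.dMul_apply, HeckeReps.dMul_apply]
  rfl

/-- A family which is stable under `α ↦ s * α * s⁻¹` up to left `Γ`-translation and reindexing has a
transfer operator commuting with conjugation by `s`:
if `s * α i = c i * α (e i) * s` then `dHom H ∘ dHom (conj s) = dHom (conj s) ∘ dHom H`. -/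
theorem dHom_conj_comm_of_translate [Fintype I] (H : HeckeReps Γ I) (s : SL(2, ℤ))
    (hs : ∀ γ ∈ Γ, s * γ * s⁻¹ ∈ Γ) (e : I ≃ I) (c : I → Γ)
    (hα : ∀ i, ι s * H.α i = ι ((c i : Γ) : SL(2, ℤ)) * (H.α (e i) * ι s))
    (hd : DistinctCosets H) {A : Type*} [AddCommGroup A] (φ : Additive Γ →+ A) :
    H.dHom A ((conjReps Γ s hs).dHom A φ) = (conjReps Γ s hs).dHom A (H.dHom A φ) := by
  rw [← dHom_leftTranslate, ← dHom_rightTranslate]
  refine (dHom_eq_of_translate (leftTranslate H s hs) (rightTranslate H s hs) e c hα ?_ φ).symm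
  intro i j η h
  rw [rightTranslate_α, rightTranslate_α, ← mul_assoc] at h
  exact hd i j η (mul_right_cancel h)

end Fermat.Agent.DS.G.HECKE.RepsReindex
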