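/-
Programme DS (S48), chapter G-HECKE, brick H12 part 2 (helper31): **the index of the upper group**
`upGam Γ p = Γ ⊓ δ⁻¹ Γ δ` (`δ = diag(p,1)`) in `Γ` is `p + 1` as soon as `Γ` acts transitively on
`P¹(F_p)` and satisfies the `δ`-condition; instance `Γ = ±Γ₁(M)`, `p ∤ M`.

* `relIndex_upGam` : generic (`htrans`, `hdelta` ⇒ `(upGam Γ p).relIndex Γ = p + 1`);
* `relIndex_upGam_Gamma1pm` : `(upGam (Gamma1pm M) p).relIndex (Gamma1pm M) = p + 1`;
* `finrankAlong_eq_succ` : with the two degree facts of the G-X0 `Degree` twin as hypotheses,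
  `finrankAlong K φ = p + 1` (= input `hn` of `KRON/ConjTop90.kron_alpha_L1`).
-/
import Mathlib
import Fermat.Agent.DS.G.HECKE.UpLevel
import Fermat.Agent.DS.G.HECKE.Gamma1pm51
import Fermat.Agent.DS.G.HECKE.DegreeAlong

set_option autoImplicit false
set_option linter.unusedSectionVars false

open Matrix CongruenceSubgroup
open scoped MatrixGroups

noncomputable section

namespace Fermat.Agent.DS.G.HECKE.UpIndex31

open Fermat.Agent.ES.HEQ.DoubleCoset27 Fermat.Agent.DS.G.HECKE.UpLevel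
open Fermat.Agent.DS.G.HECKE.Gamma1pm51 Fermat.Agent.DS.X1.Level1
open AlgebraicCurve IntermediateField

variable {p : ℕ} [hp : Fact p.Prime]

section Generic

variable (Gam : Subgroup SL(2, ℤ))

/-- the orbit map `g (upGam) ↦ g⁻¹ · ∞` on left cosets. -/
def cosetMap : ↥Gam ⧸ (upGam Gam p).subgroupOf Gam → Option (ZMod p) :=
  Quotient.lift (fun g : ↥Gam => perm ((g : SL(2, ℤ))⁻¹) (none : Option (ZMod p))) (by
    intro a b hab
    have h : a⁻¹ * b ∈ (upGam Gam p).subgroupOf Gam := QuotientGroup.leftRel_apply.mp hab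
    rw [Subgroup.mem_subgroupOf] at h
    have h1 : perm ((a : SL(2, ℤ))⁻¹ * (b : SL(2, ℤ))) (none : Option (ZMod p)) = none := by
      have := h.2.1
      simpa using this
    show perm ((a : SL(2, ℤ))⁻¹) (none : Option (ZMod p)) = perm ((b : SL(2, ℤ))⁻¹) none
    have h2 := perm_mul ((a : SL(2, ℤ))⁻¹ * (b : SL(2, ℤ))) ((b : SL(2, ℤ))⁻¹)
      (none : Option (ZMod p))
    rw [h1, mul_assoc, mul_inv_cancel, mul_one] at h2
    exact h2)

theorem cosetMap_mk (g : ↥Gam) :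
    cosetMap Gam (p := p) (QuotientGroup.mk g) = perm ((g : SL(2, ℤ))⁻¹) none := rfl

theorem cosetMap_injective
    (hdelta : ∀ γ ∈ Gam, perm γ (none : Option (ZMod p)) = none →
      coc γ (none : Option (ZMod p)) ∈ Gam) :
    Function.Injective (cosetMap Gam (p := p)) := by
  intro x y
  induction x using QuotientGroup.induction_on with
  | H a =>
    induction y using QuotientGroup.induction_on with
    | H b =>
      intro h
      rw [cosetMap_mk, cosetMap_mk] at h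
      rw [QuotientGroup.eq, Subgroup.mem_subgroupOf]
      have hmem : ((a⁻¹ * b : ↥Gam) : SL(2, ℤ)) ∈ Gam := (a⁻¹ * b).2
      have hperm : perm (((a⁻¹ * b : ↥Gam) : SL(2, ℤ))) (none : Option (ZMod p)) = none := by
        have e : ((a⁻¹ * b : ↥Gam) : SL(2, ℤ)) = (a : SL(2, ℤ))⁻¹ * (b : SL(2, ℤ)) := by
          simp
        rw [e, perm_mul, h, ← perm_mul, inv_mul_cancel, perm_one]
      exact ⟨hmem, hperm, hdelta _ hmem hperm⟩

theorem cosetMap_surjective
    (htrans : ∀ k : Option (ZMod p), ∃ γ ∈ Gam, perm γ (none : Option (ZMod p)) = k) :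
    Function.Surjective (cosetMap Gam (p := p)) := by
  intro k
  obtain ⟨γ, hγ, hk⟩ := htrans k
  refine ⟨QuotientGroup.mk (⟨γ, hγ⟩ : ↥Gam)⁻¹, ?_⟩
  rw [cosetMap_mk]
  simpa using hk

/-- **The index of the upper group is `p + 1`.** -/
theorem relIndex_upGam
    (htrans : ∀ k : Option (ZMod p), ∃ γ ∈ Gam, perm γ (none : Option (ZMod p)) = k)
    (hdelta : ∀ γ ∈ Gam, perm γ (none : Option (ZMod p)) = none →
      coc γ (none : Option (ZMod p)) ∈ Gam) :
    (upGam Gam p).relIndex Gam = p + 1 := by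
  have : NeZero p := ⟨hp.out.ne_zero⟩
  have hbij : Function.Bijective (cosetMap Gam (p := p)) :=
    ⟨cosetMap_injective Gam hdelta, cosetMap_surjective Gam htrans⟩
  have h1 : Nat.card (↥Gam ⧸ (upGam Gam p).subgroupOf Gam) = Nat.card (Option (ZMod p)) :=
    Nat.card_eq_of_bijective _ hbij
  have h2 : Nat.card (Option (ZMod p)) = p + 1 := by
    rw [Nat.card_eq_fintype_card, Fintype.card_option, ZMod.card]
  show Nat.card (↥Gam ⧸ (upGam Gam p).subgroupOf Gam) = p + 1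
  rw [h1, h2]

theorem relIndex_upGam_ne_zero
    (htrans : ∀ k : Option (ZMod p), ∃ γ ∈ Gam, perm γ (none : Option (ZMod p)) = k)
    (hdelta : ∀ γ ∈ Gam, perm γ (none : Option (ZMod p)) = none →
      coc γ (none : Option (ZMod p)) ∈ Gam) :
    (upGam Gam p).relIndex Gam ≠ 0 := by
  rw [relIndex_upGam Gam htrans hdelta]
  exact Nat.succ_ne_zero p

end Generic

section Gamma1

variable (M : ℕ)

/-- transitivity of `±Γ₁(M)` on `P¹(F_p)`, `p ∤ M`. -/
theorem htrans_Gamma1pm (hpM : ¬ p ∣ M) (k : Option (ZMod p)) :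
    ∃ γ ∈ Gamma1pm M, perm γ (none : Option (ZMod p)) = k := by
  obtain ⟨γ, hγ, hk⟩ := exists_mem_Gamma1_perm_none (p := p) hpM k
  exact ⟨γ, Gamma1_le_Gamma1pm M hγ, hk⟩

/-- the `δ`-condition for `±Γ₁(M)`, `p ∤ M`. -/
theorem hdelta_Gamma1pm (hpM : ¬ p ∣ M) (γ : SL(2, ℤ)) (hγ : γ ∈ Gamma1pm M)
    (h : perm γ (none : Option (ZMod p)) = none) :
    coc γ (none : Option (ZMod p)) ∈ Gamma1pm M := by
  have hdvd := (perm_none_eq_none_iff γ).mp h
  have hγp : γ ∈ Gamma0 p := by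
    rw [Gamma0_mem]
    exact (ZMod.intCast_zmod_eq_zero_iff_dvd _ p).mpr hdvd
  exact (delta_condition hpM hγ hγp).1

/-- **`[±Γ₁(M) : ±Γ₁(M) ∩ Γ₀(p)] = p + 1`** for `p ∤ M`. -/
theorem relIndex_upGam_Gamma1pm (hpM : ¬ p ∣ M) :
    (upGam (Gamma1pm M) p).relIndex (Gamma1pm M) = p + 1 :=
  relIndex_upGam (Gamma1pm M) (htrans_Gamma1pm M hpM) (hdelta_Gamma1pm M hpM)

/-- membership in the upper group of `±Γ₁(M)`. -/
theorem mem_upGam_Gamma1pm_iff (hpM : ¬ p ∣ M) (γ : SL(2, ℤ)) :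
    γ ∈ upGam (Gamma1pm M) p ↔ γ ∈ Gamma1pm M ∧ γ ∈ Gamma0 p := by
  rw [mem_upGam]
  constructor
  · rintro ⟨h1, h2, _⟩
    refine ⟨h1, ?_⟩
    rw [Gamma0_mem]
    exact (ZMod.intCast_zmod_eq_zero_iff_dvd _ p).mpr ((perm_none_eq_none_iff γ).mp h2)
  · rintro ⟨h1, h2⟩
    have hperm : perm γ (none : Option (ZMod p)) = none := by
      apply perm_none_eq_none_of_dvd
      rw [Gamma0_mem] at h2
      exact (ZMod.intCast_zmod_eq_zero_iff_dvd _ p).mp h2
    exact ⟨h1, hperm, hdelta_Gamma1pm M hpM γ h1 hperm⟩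

end Gamma1

section Degree

variable {K F F' : Type*} [Field K] [Field F] [Field F'] [Algebra K F] [Algebra K F']

/-- **`[F' : φ F] = p + 1`** from the two degree facts (generic group `Γ`). -/
theorem finrankAlong_eq_succ (φ : F →ₐ[K] F') (Gam : Subgroup SL(2, ℤ))
    (htrans : ∀ k : Option (ZMod p), ∃ γ ∈ Gam, perm γ (none : Option (ZMod p)) = k)
    (hdelta : ∀ γ ∈ Gam, perm γ (none : Option (ZMod p)) = none →
      coc γ (none : Option (ZMod p)) ∈ Gam)
    (hfi : (upGam Gam p).index ≠ 0) (j : F)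
    (h : Module.finrank K⟮j⟯ F = Gam.index)
    (h' : Module.finrank K⟮φ j⟯ F' = (upGam Gam p).index) :
    finrankAlong K φ = p + 1 := by
  rw [Fermat.Agent.DS.G.HECKE.DegreeAlong.finrankAlong_eq_relIndex φ Gam (upGam Gam p)
    (upGam_le Gam) hfi j h h', relIndex_upGam Gam htrans hdelta]

/-- the case `Γ = ±Γ₁(M)`, `p ∤ M`. -/
theorem finrankAlong_eq_succ_Gamma1pm (φ : F →ₐ[K] F') (M : ℕ) (hpM : ¬ p ∣ M)
    (hfi : (upGam (Gamma1pm M) p).index ≠ 0) (j : F)
    (h : Module.finrank K⟮j⟯ F = (Gamma1pm M).index)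
    (h' : Module.finrank K⟮φ j⟯ F' = (upGam (Gamma1pm M) p).index) :
    finrankAlong K φ = p + 1 :=
  finrankAlong_eq_succ φ (Gamma1pm M) (htrans_Gamma1pm M hpM) (hdelta_Gamma1pm M hpM) hfi j h h'

end Degree

end Fermat.Agent.DS.G.HECKE.UpIndex31
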